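import Mathlib
import Fermat.Agent.TC.Loc
import Fermat.Prelude.Thm_IsLocalRing_isAdicComplete_of_module_finite

/-!
# Coefficient rings: complete discrete valuation rings with roots of unity
-/

set_option autoImplicit false
set_option linter.style.haveILetI false
set_option linter.unusedSectionVars false

noncomputable section

namespace Fermat.Agent.H12.LL

open IsLocalRing

section General

variable {A : Type} [CommRing A] [IsDomain A] [IsDiscreteValuationRing A]
  [IsAdicComplete (maximalIdeal A) A]

/-- a finite domain over a complete discrete valuation ring is local -/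
theorem isLocalRing_of_finite {B : Type} [CommRing B] [IsDomain B] [Algebra A B]
    [Module.Finite A B] : IsLocalRing B := by
  obtain ⟨P, hP⟩ := Ideal.exists_maximal B
  have hPI : (maximalIdeal A).map (algebraMap A B) ≤ P := by
    rw [Ideal.map_le_iff_le_comap]
    haveI : Algebra.IsIntegral A B := inferInstance
    have h1 : (P.comap (algebraMap A B)).IsMaximal :=
      Ideal.isMaximal_comap_of_isIntegral_of_isMaximal P
    exact (IsLocalRing.eq_maximalIdeal h1).ge
  obtain ⟨e, he, heP, hs⟩ := TC.exists_idem_local (O := A) P hPI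
  have he1 : e = 1 := by
    rcases IsIdempotentElem.iff_eq_zero_or_one.mp he with h | h
    · exact absurd (h ▸ P.zero_mem) heP
    · exact h
  refine IsLocalRing.of_unique_max_ideal ⟨P, hP, fun Q hQ => ?_⟩
  refine (hQ.eq_of_le hP.ne_top fun x hx => ?_)
  by_contra hxP
  obtain ⟨t, ht⟩ := hs x hxP
  rw [he1] at ht
  exact hQ.ne_top ((Ideal.eq_top_iff_one _).mpr (ht ▸ Q.mul_mem_right t hx))

variable [CharZero A] [Finite (ResidueField A)]

/-- The integral closure of a complete discrete valuation ring of characteristic zero in a finite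
extension of its fraction field. -/
theorem integralClosure_props (K L : Type) [Field K] [Field L] [Algebra A K] [IsFractionRing A K]
    [Algebra K L] [Algebra A L] [IsScalarTower A K L] [FiniteDimensional K L] :
    ∃ (_ : IsDomain (integralClosure A L)) (_ : IsDiscreteValuationRing (integralClosure A L))
      (_ : IsAdicComplete (maximalIdeal (integralClosure A L)) (integralClosure A L))
      (_ : Finite (ResidueField (integralClosure A L))) (_ : CharZero (integralClosure A L))
      (_ : Module.Finite A (integralClosure A L))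
      (_ : IsLocalHom (algebraMap A (integralClosure A L))),
      Function.Injective (algebraMap A (integralClosure A L)) := by
  haveI : CharZero K := charZero_of_injective_algebraMap (IsFractionRing.injective A K)
  haveI : Algebra.IsSeparable K L := inferInstance
  haveI hfin : Module.Finite A (integralClosure A L) :=
    IsIntegralClosure.finite A K L (integralClosure A L)
  haveI : IsDedekindDomain (integralClosure A L) :=
    IsIntegralClosure.isDedekindDomain A K L (integralClosure A L)
  haveI hloc : IsLocalRing (integralClosure A L) := isLocalRing_of_finite (A := A)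
  have hinjAL : Function.Injective (algebraMap A L) := by
    rw [IsScalarTower.algebraMap_eq A K L]
    exact (algebraMap K L).injective.comp (IsFractionRing.injective A K)
  have hinj : Function.Injective (algebraMap A (integralClosure A L)) := by
    have h1 : algebraMap A L = (algebraMap (integralClosure A L) L).comp
        (algebraMap A (integralClosure A L)) := IsScalarTower.algebraMap_eq _ _ _
    rw [h1, RingHom.coe_comp] at hinjAL
    exact Function.Injective.of_comp hinjAL
  haveI : FaithfulSMul A (integralClosure A L) := (faithfulSMul_iff_algebraMap_injective _ _).mpr hinj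
  haveI : Algebra.IsIntegral A (integralClosure A L) := inferInstance
  have hnf : ¬ IsField (integralClosure A L) := by
    intro h
    have : IsField A := isField_of_isIntegral_of_isField hinj h
    exact IsDiscreteValuationRing.not_isField A this
  have htf := IsDiscreteValuationRing.TFAE (integralClosure A L) hnf
  have h02 : IsDiscreteValuationRing (integralClosure A L) ↔
    IsDedekindDomain (integralClosure A L) := htf.out 0 2
  haveI hdvr : IsDiscreteValuationRing (integralClosure A L) := h02.mpr inferInstance
  haveI hlh : IsLocalHom (algebraMap A (integralClosure A L)) := by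
    refine ⟨fun a ha => ?_⟩
    by_contra hna
    have h1 : a ∈ maximalIdeal A := hna
    have h2 : ((maximalIdeal (integralClosure A L)).comap
        (algebraMap A (integralClosure A L))).IsMaximal :=
      Ideal.isMaximal_comap_of_isIntegral_of_isMaximal _
    have h3 := IsLocalRing.eq_maximalIdeal h2
    rw [← h3, Ideal.mem_comap] at h1
    exact h1 ha
  haveI hcz : CharZero (integralClosure A L) := charZero_of_injective_algebraMap hinj
  haveI hac : IsAdicComplete (maximalIdeal (integralClosure A L)) (integralClosure A L) :=
    IsLocalRing.isAdicComplete_of_module_finite (𝒪 := A)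
  haveI hrf : Finite (ResidueField (integralClosure A L)) :=
    Module.finite_of_finite (ResidueField A)
  exact ⟨inferInstance, hdvr, hac, hrf, hcz, hfin, hlh, hinj⟩

end General

/-- **Coefficient rings with roots of unity.** -/
theorem exists_coeff (p : ℕ) [Fact p.Prime] (m : ℕ) (hm : m ≠ 0) :
    ∃ (O : Type) (_ : CommRing O) (_ : IsDomain O) (_ : IsDiscreteValuationRing O)
      (_ : IsAdicComplete (maximalIdeal O) O) (_ : Finite (ResidueField O)) (_ : CharZero O)
      (_ : Algebra ℤ_[p] O) (_ : Module.Finite ℤ_[p] O) (_ : IsLocalHom (algebraMap ℤ_[p] O)),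
      Function.Injective (algebraMap ℤ_[p] O) ∧ ∃ ω : O, IsPrimitiveRoot ω m := by
  haveI : NeZero m := ⟨hm⟩
  haveI : NeZero ((m : ℕ) : ℚ_[p]) := ⟨by exact_mod_cast hm⟩
  haveI : NeZero ((m : ℕ) : CyclotomicField m ℚ_[p]) := ⟨by exact_mod_cast hm⟩
  haveI : FiniteDimensional ℚ_[p] (CyclotomicField m ℚ_[p]) :=
    IsCyclotomicExtension.finiteDimensional {m} ℚ_[p] (CyclotomicField m ℚ_[p])
  haveI hrf : Finite (ResidueField ℤ_[p]) := Finite.of_equiv _ (PadicInt.residueField (p := p)).symm.toEquiv
  obtain ⟨h1, h2, h3, h4, h5, h6, h7, h8⟩ :=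
    integralClosure_props (A := ℤ_[p]) ℚ_[p] (CyclotomicField m ℚ_[p])
  refine ⟨integralClosure ℤ_[p] (CyclotomicField m ℚ_[p]), inferInstance, h1, h2, h3, h4, h5,
    inferInstance, h6, h7, h8, ?_⟩
  have hz := IsCyclotomicExtension.zeta_spec m ℚ_[p] (CyclotomicField m ℚ_[p])
  have hint : IsIntegral ℤ_[p] (IsCyclotomicExtension.zeta m ℚ_[p] (CyclotomicField m ℚ_[p])) :=
    hz.isIntegral (Nat.pos_of_ne_zero hm) |>.tower_top
  refine ⟨⟨_, hint⟩, ?_⟩
  exact IsPrimitiveRoot.of_map_of_injective (f := (algebraMap
    (integralClosure ℤ_[p] (CyclotomicField m ℚ_[p])) (CyclotomicField m ℚ_[p])))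
    hz Subtype.val_injective

/-- quadratic polynomials over the prime field split once there is a primitive root of unity of
order `p ^ 2 - 1`. -/
theorem exists_split {p : ℕ} [Fact p.Prime] {k : Type*} [Field k] [Algebra (ZMod p) k] {ζ : k}
    (hζ : IsPrimitiveRoot ζ (p ^ 2 - 1)) (t d : ZMod p) :
    ∃ α β : k, α + β = algebraMap (ZMod p) k t ∧ α * β = algebraMap (ZMod p) k d := by
  classical
  have hp : p.Prime := Fact.out
  let K := AlgebraicClosure k
  haveI : CharP k p := charP_of_injective_algebraMap (algebraMap (ZMod p) k).injective p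
  haveI : CharP K p := charP_of_injective_algebraMap (algebraMap k K).injective p
  -- the roots of `X ^ (p ^ 2) - X`
  have hroot : ∀ x : K, x ^ (p ^ 2) = x → ∃ y : k, algebraMap k K y = x := by
    intro x hx
    by_cases hx0 : x = 0
    · exact ⟨0, by rw [map_zero, hx0]⟩
    · have h1 : x ^ (p ^ 2 - 1) = 1 := by
        have h2 : x ^ (p ^ 2 - 1) * x = 1 * x := by
          rw [← pow_succ, one_mul, Nat.sub_add_cancel (Nat.one_le_pow _ _ hp.pos), hx]
        exact mul_right_cancel₀ hx0 h2
      have hζ' : IsPrimitiveRoot (algebraMap k K ζ) (p ^ 2 - 1) :=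
        hζ.map_of_injective (algebraMap k K).injective
      haveI : NeZero (p ^ 2 - 1) := ⟨by
        have : 2 ^ 2 ≤ p ^ 2 := Nat.pow_le_pow_left hp.two_le 2
        omega⟩
      obtain ⟨i, -, hi⟩ := hζ'.eq_pow_of_pow_eq_one h1
      exact ⟨ζ ^ i, by rw [map_pow, hi]⟩
  -- a root of the quadratic polynomial
  obtain ⟨x, hx⟩ : ∃ x : K, x ^ 2 - algebraMap k K (algebraMap (ZMod p) k t) * x +
      algebraMap k K (algebraMap (ZMod p) k d) = 0 := by
    have hdeg : (Polynomial.X ^ 2 - Polynomial.C (algebraMap k K (algebraMap (ZMod p) k t)) *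
        Polynomial.X + Polynomial.C (algebraMap k K (algebraMap (ZMod p) k d)) :
        Polynomial K).degree ≠ 0 := by
      have : (Polynomial.X ^ 2 - Polynomial.C (algebraMap k K (algebraMap (ZMod p) k t)) *
        Polynomial.X + Polynomial.C (algebraMap k K (algebraMap (ZMod p) k d)) :
        Polynomial K).degree = 2 := by compute_degree!
      rw [this]; norm_num
    obtain ⟨x, hx⟩ := IsAlgClosed.exists_root _ hdeg
    refine ⟨x, ?_⟩
    simpa [Polynomial.IsRoot] using hx
  set T : K := algebraMap k K (algebraMap (ZMod p) k t) with hT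
  set Dd : K := algebraMap k K (algebraMap (ZMod p) k d) with hDd
  have hTp : T ^ p = T := by
    rw [hT, ← map_pow, ← map_pow, ZMod.pow_card]
  have hDp : Dd ^ p = Dd := by
    rw [hDd, ← map_pow, ← map_pow, ZMod.pow_card]
  haveI : ExpChar K p := ExpChar.prime hp
  have hfrob : ∀ y : K, y ^ 2 - T * y + Dd = 0 → (y ^ p) ^ 2 - T * y ^ p + Dd = 0 := by
    intro y hy
    have h1 : (y ^ 2 - T * y + Dd) ^ p = 0 := by rw [hy, zero_pow hp.ne_zero]
    rw [add_pow_char, sub_pow_char, mul_pow, hTp, hDp, ← pow_mul, mul_comm 2 p, pow_mul] at h1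
    exact h1
  have hxp := hfrob x hx
  have hcases : x ^ p = x ∨ x ^ p = T - x := by
    have h1 : (x ^ p - x) * (x ^ p - (T - x)) = 0 := by linear_combination hxp - hx
    rcases mul_eq_zero.mp h1 with h | h
    · exact Or.inl (sub_eq_zero.mp h)
    · exact Or.inr (sub_eq_zero.mp h)
  have hxx : x ^ (p ^ 2) = x := by
    rw [pow_two, pow_mul]
    rcases hcases with h | h
    · rw [h, h]
    · rw [h, sub_pow_char, hTp, h, sub_sub_cancel]
  obtain ⟨y, hy⟩ := hroot x hxx
  refine ⟨y, algebraMap (ZMod p) k t - y, by ring, ?_⟩
  apply (algebraMap k K).injective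
  rw [map_mul, map_sub, hy]
  linear_combination -hx

end Fermat.Agent.H12.LL
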