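import Mathlib
import Fermat.Agent.H25.TraceRep
import Fermat.Agent.TW.Select

/-!
# Matrix representations with an involution, comparison with the explicit matrices
-/

set_option autoImplicit false
set_option linter.unusedSectionVars false
set_option linter.style.haveILetI false

noncomputable section

namespace Fermat.Agent.H12.LL

open Fermat.Agent.H25 Fermat.Agent.H25.PR Fermat.Agent.H25.TR Fermat.Agent.TW Fermat.Agent.CC Matrix

/-- the trace of a two-dimensional matrix representation is a pseudocharacter -/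
theorem isPseudo2_trace {R G : Type*} [CommRing R] [Group G]
    (M : G →* Matrix (Fin 2) (Fin 2) R) : IsPseudo2 (fun g => (M g).trace) where
  one := by rw [map_one, Matrix.trace_one, Fintype.card_fin]; norm_num
  comm g h := by rw [map_mul, map_mul, Matrix.trace_mul_comm]
  tri g h k := by
    simp only [map_mul, Matrix.trace_fin_two, Matrix.mul_apply, Fin.sum_univ_two]
    ring

theorem trace_sq {R : Type*} [CommRing R] (A : Matrix (Fin 2) (Fin 2) R) :
    A.trace * A.trace - (A * A).trace = 2 * A.det := by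
  simp only [Matrix.trace_fin_two, Matrix.mul_apply, Fin.sum_univ_two, Matrix.det_fin_two]
  ring

section Field

variable {k : Type*} [Field k]

/-- involutions of trace zero are diagonalisable -/
theorem exists_diag (h2 : (2 : k) ≠ 0) {C : Mt k} (hC : C * C = 1) (ht : C.trace = 0) :
    ∃ Q Q' : Mt k, Q * Q' = 1 ∧ Q' * Q = 1 ∧ Q' * C * Q = !![1, 0; 0, -1] := by
  have h00 := congrFun (congrFun hC 0) 0
  simp only [Matrix.mul_apply, Fin.sum_univ_two, Matrix.one_apply_eq] at h00
  rw [Matrix.trace_fin_two] at ht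
  have h11 : C 1 1 = - C 0 0 := by linear_combination ht
  set a := C 0 0 with ha
  set b := C 0 1 with hb
  set c := C 1 0 with hc
  have hCe : C = !![a, b; c, -a] := by
    ext i j
    fin_cases i <;> fin_cases j
    · rfl
    · rfl
    · rfl
    · exact h11
  by_cases hcase : a + 1 = 0
  · -- `a = -1`
    have ha1 : a = -1 := by linear_combination hcase
    have hbc : b * c = 0 := by
      have := h00
      rw [ha1] at this
      linear_combination this
    let Q : Mt k := !![b, a - 1; 1 - a, c]
    have hdet : Q.det = 4 := by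
      simp only [Q, Matrix.det_fin_two_of]
      rw [ha1]
      linear_combination hbc
    have h4 : (4 : k) ≠ 0 := by
      have : (4 : k) = 2 * 2 := by norm_num
      rw [this]; exact mul_ne_zero h2 h2
    refine ⟨Q, (4 : k)⁻¹ • Q.adjugate, ?_, ?_, ?_⟩
    · rw [Matrix.mul_smul, Matrix.mul_adjugate, hdet, smul_smul, inv_mul_cancel₀ h4, one_smul]
    · rw [Matrix.smul_mul, Matrix.adjugate_mul, hdet, smul_smul, inv_mul_cancel₀ h4, one_smul]
    · have e1 : C * Q = Q * !![1, 0; 0, -1] := by
        rw [hCe]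
        simp only [Q, Matrix.mul_fin_two]
        ext i j
        fin_cases i <;> fin_cases j
        · change a * b + b * (1 - a) = b * 1 + (a - 1) * 0
          ring
        · change a * (a - 1) + b * c = b * 0 + (a - 1) * -1
          rw [ha1]; linear_combination hbc
        · change c * b + -a * (1 - a) = (1 - a) * 1 + c * 0
          rw [ha1]; linear_combination hbc
        · change c * (a - 1) + -a * c = (1 - a) * 0 + c * -1
          ring
      rw [Matrix.mul_assoc, e1, ← Matrix.mul_assoc, Matrix.smul_mul, Matrix.adjugate_mul, hdet,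
        smul_smul, inv_mul_cancel₀ h4, one_smul, Matrix.one_mul]
  · let Q : Mt k := !![a + 1, -b; c, a + 1]
    have hdet : Q.det = 2 * (a + 1) := by
      simp only [Q, Matrix.det_fin_two_of]
      linear_combination h00
    have h4 : (2 * (a + 1) : k) ≠ 0 := mul_ne_zero h2 hcase
    refine ⟨Q, (2 * (a + 1) : k)⁻¹ • Q.adjugate, ?_, ?_, ?_⟩
    · rw [Matrix.mul_smul, Matrix.mul_adjugate, hdet, smul_smul, inv_mul_cancel₀ h4, one_smul]
    · rw [Matrix.smul_mul, Matrix.adjugate_mul, hdet, smul_smul, inv_mul_cancel₀ h4, one_smul]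
    · have e1 : C * Q = Q * !![1, 0; 0, -1] := by
        rw [hCe]
        simp only [Q, Matrix.mul_fin_two]
        ext i j
        fin_cases i <;> fin_cases j
        · change a * (a + 1) + b * c = (a + 1) * 1 + -b * 0
          linear_combination h00
        · change a * -b + b * (a + 1) = (a + 1) * 0 + -b * -1
          ring
        · change c * (a + 1) + -a * c = c * 1 + (a + 1) * 0
          ring
        · change c * -b + -a * (a + 1) = c * 0 + (a + 1) * -1
          linear_combination -h00
      rw [Matrix.mul_assoc, e1, ← Matrix.mul_assoc, Matrix.smul_mul, Matrix.adjugate_mul, hdet,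
        smul_smul, inv_mul_cancel₀ h4, one_smul, Matrix.one_mul]

variable {G : Type*} [Group G]

/-- conjugate representation -/
def cj (M : G →* Mt k) {Q Q' : Mt k} (h : Q * Q' = 1) (h' : Q' * Q = 1) : G →* Mt k where
  toFun g := Q' * M g * Q
  map_one' := by rw [map_one, mul_one, h']
  map_mul' x y := by
    calc Q' * M (x * y) * Q = Q' * M x * 1 * M y * Q := by rw [map_mul, mul_one]; simp only [mul_assoc]
      _ = Q' * M x * (Q * Q') * M y * Q := by rw [h]
      _ = _ := by simp only [mul_assoc]

theorem trace_cj (M : G →* Mt k) {Q Q' : Mt k} (h : Q * Q' = 1) (h' : Q' * Q = 1) (g : G) :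
    (cj M h h' g).trace = (M g).trace := by
  change (Q' * M g * Q).trace = _
  rw [Matrix.trace_mul_comm, ← mul_assoc, h, one_mul]

/-- in a basis adapted to the involution the entries are given by the trace. -/
theorem entX_eq {M : G →* Mt k} {c : G} (hc : M c = !![1, 0; 0, -1]) {hf : k} (hf2 : hf * 2 = 1)
    (g h : G) : entX (fun g => (M g).trace) hf c g h = M g 0 1 * M h 1 0 := by
  simp only [entX, map_mul, hc, Matrix.trace_fin_two, Matrix.mul_apply, Fin.sum_univ_two,
    Matrix.of_apply, Matrix.cons_val', Matrix.cons_val_zero, Matrix.cons_val_one,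
    Matrix.cons_val_fin_one]
  linear_combination (M g 0 1 * M h 1 0 * (hf * 2 + 1)) * hf2

theorem entA_eq {M : G →* Mt k} {c : G} (hc : M c = !![1, 0; 0, -1]) {hf : k} (hf2 : hf * 2 = 1)
    (g : G) : entA (fun g => (M g).trace) hf c g = M g 0 0 := by
  simp only [entA, map_mul, hc, Matrix.trace_fin_two, Matrix.mul_apply, Fin.sum_univ_two,
    Matrix.of_apply, Matrix.cons_val', Matrix.cons_val_zero, Matrix.cons_val_one,
    Matrix.cons_val_fin_one]
  linear_combination (M g 0 0) * hf2

theorem entD_eq {M : G →* Mt k} {c : G} (hc : M c = !![1, 0; 0, -1]) {hf : k} (hf2 : hf * 2 = 1)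
    (g : G) : entD (fun g => (M g).trace) hf c g = M g 1 1 := by
  simp only [entD, map_mul, hc, Matrix.trace_fin_two, Matrix.mul_apply, Fin.sum_univ_two,
    Matrix.of_apply, Matrix.cons_val', Matrix.cons_val_zero, Matrix.cons_val_one,
    Matrix.cons_val_fin_one]
  linear_combination (M g 1 1) * hf2

/-- existence of elements with nonzero off-diagonal entries -/
theorem exists_ent {M : G →* Mt k} {c : G} (hcc : c * c = 1) (htc : (M c).trace = 0) {hf : k}
    (hf2 : hf * 2 = 1)
    (hirr : ∀ v : Fin 2 → k, v ≠ 0 → ∃ g, ∀ a : k, M g *ᵥ v ≠ a • v) :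
    ∃ r s, entX (fun g => (M g).trace) hf c r s ≠ 0 := by
  have h2 : (2 : k) ≠ 0 := right_ne_zero_of_mul (a := hf) (by rw [hf2]; exact one_ne_zero)
  have hCC : M c * M c = 1 := by rw [← map_mul, hcc, map_one]
  obtain ⟨Q, Q', h, h', hQ⟩ := exists_diag h2 hCC htc
  have hc : cj M h h' c = !![1, 0; 0, -1] := hQ
  have key : ∀ v : Fin 2 → k, v ≠ 0 → ∃ g, ∀ a : k, cj M h h' g *ᵥ v ≠ a • v := by
    intro v hv
    have hv' : Q *ᵥ v ≠ 0 := by
      intro h0
      apply hv
      have : Q' *ᵥ (Q *ᵥ v) = 0 := by rw [h0, Matrix.mulVec_zero]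
      rwa [Matrix.mulVec_mulVec, h', Matrix.one_mulVec] at this
    obtain ⟨g, hg⟩ := hirr _ hv'
    refine ⟨g, fun a ha => hg a ?_⟩
    have h3 : (Q' * M g * Q) *ᵥ v = a • v := ha
    have h4 := congrArg (fun w => Q *ᵥ w) h3
    simp only [Matrix.mulVec_mulVec, Matrix.mulVec_smul] at h4
    rw [← mul_assoc, ← mul_assoc, h, one_mul] at h4
    rw [Matrix.mulVec_mulVec]
    exact h4
  obtain ⟨r, hr⟩ := key ![0, 1] (by intro h0; simpa using congrFun h0 1)
  obtain ⟨s, hs⟩ := key ![1, 0] (by intro h0; simpa using congrFun h0 0)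
  refine ⟨r, s, ?_⟩
  have e : (fun g => (M g).trace) = fun g => (cj M h h' g).trace := by
    funext g; rw [trace_cj]
  rw [e, entX_eq hc hf2]
  refine mul_ne_zero (fun h0 => ?_) (fun h0 => ?_)
  · apply hr (cj M h h' r 1 1)
    ext i
    fin_cases i
    · simp [Matrix.mulVec, dotProduct, Fin.sum_univ_two, h0]
    · simp [Matrix.mulVec, dotProduct, Fin.sum_univ_two]
  · apply hs (cj M h h' s 0 0)
    ext i
    fin_cases i
    · simp [Matrix.mulVec, dotProduct, Fin.sum_univ_two]
    · simp [Matrix.mulVec, dotProduct, Fin.sum_univ_two, h0]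

/-- **Comparison**: a representation with the trace of the explicit matrices is conjugate to
them. -/
theorem exists_conj {M : G →* Mt k} {c : G} (hcc : c * c = 1) (htc : (M c).trace = 0) {hf : k}
    (hf2 : hf * 2 = 1) {r s : G} (hx : entX (fun g => (M g).trace) hf c r s ≠ 0)
    {N : G →* Mt k} (hN : ∀ g, N g = repMat (fun g => (M g).trace) hf c r s
      (entX (fun g => (M g).trace) hf c r s)⁻¹ g) :
    ∃ Q Q' : Mt k, Q * Q' = 1 ∧ Q' * Q = 1 ∧ ∀ g, N g = Q' * M g * Q := by
  have h2 : (2 : k) ≠ 0 := right_ne_zero_of_mul (a := hf) (by rw [hf2]; exact one_ne_zero)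
  have hCC : M c * M c = 1 := by rw [← map_mul, hcc, map_one]
  obtain ⟨Q, Q', h, h', hQ⟩ := exists_diag h2 hCC htc
  have hc : cj M h h' c = !![1, 0; 0, -1] := hQ
  have e : (fun g => (M g).trace) = fun g => (cj M h h' g).trace := by
    funext g; rw [trace_cj]
  rw [e, entX_eq hc hf2] at hx
  set x := cj M h h' r 0 1 with hxdef
  set y := cj M h h' s 1 0 with hydef
  have hx0 : x ≠ 0 := left_ne_zero_of_mul hx
  have hy0 : y ≠ 0 := right_ne_zero_of_mul hx
  let T : Mt k := !![x, 0; 0, 1]
  let T' : Mt k := !![x⁻¹, 0; 0, 1]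
  have hT : T * T' = 1 := by
    simp only [T, T', Matrix.mul_fin_two]
    ext i j
    fin_cases i <;> fin_cases j <;> simp [hx0]
  have hT' : T' * T = 1 := by
    simp only [T, T', Matrix.mul_fin_two]
    ext i j
    fin_cases i <;> fin_cases j <;> simp [hx0]
  refine ⟨Q * T, T' * Q', ?_, ?_, fun g => ?_⟩
  · calc Q * T * (T' * Q') = Q * (T * T') * Q' := by simp only [mul_assoc]
      _ = 1 := by rw [hT, mul_one, h]
  · calc T' * Q' * (Q * T) = T' * (Q' * Q) * T := by simp only [mul_assoc]
      _ = 1 := by rw [h', mul_one, hT']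
  · have e2 : T' * Q' * M g * (Q * T) = T' * cj M h h' g * T := by
      change _ = T' * (Q' * M g * Q) * T
      simp only [mul_assoc]
    rw [e2, hN, repMat, e, entA_eq hc hf2, entD_eq hc hf2, entX_eq hc hf2, entX_eq hc hf2,
      entX_eq hc hf2]
    ext i j
    fin_cases i <;> fin_cases j
    · simp only [T, T', Matrix.mul_apply, Fin.sum_univ_two, Matrix.of_apply, Matrix.cons_val',
        Matrix.cons_val_zero, Matrix.cons_val_one, Matrix.cons_val_fin_one, Fin.zero_eta,
        Fin.mk_one, Fin.isValue]
      field_simp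
      ring
    · simp only [T, T', Matrix.mul_apply, Fin.sum_univ_two, Matrix.of_apply, Matrix.cons_val',
        Matrix.cons_val_zero, Matrix.cons_val_one, Matrix.cons_val_fin_one, Fin.zero_eta,
        Fin.mk_one, Fin.isValue]
      rw [← hxdef, ← hydef]
      field_simp
      ring
    · simp only [T, T', Matrix.mul_apply, Fin.sum_univ_two, Matrix.of_apply, Matrix.cons_val',
        Matrix.cons_val_zero, Matrix.cons_val_one, Matrix.cons_val_fin_one, Fin.zero_eta,
        Fin.mk_one, Fin.isValue]
      rw [← hxdef]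
      ring
    · simp only [T, T', Matrix.mul_apply, Fin.sum_univ_two, Matrix.of_apply, Matrix.cons_val',
        Matrix.cons_val_zero, Matrix.cons_val_one, Matrix.cons_val_fin_one, Fin.zero_eta,
        Fin.mk_one, Fin.isValue]
      ring

/-- no stable line, transported along conjugation and extension of scalars -/
theorem NoLine.conj {K : Type*} [Field K] {M N : GQ →* Mt K} {H : Subgroup GQ} {Q Q' : Mt K}
    (h : Q * Q' = 1) (h' : Q' * Q = 1) (hN : ∀ g, N g = Q' * M g * Q) (hM : NoLine M H) :
    NoLine N H := by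
  intro v hv
  have hv' : Q *ᵥ v ≠ 0 := by
    intro h0
    apply hv
    have : Q' *ᵥ (Q *ᵥ v) = 0 := by rw [h0, Matrix.mulVec_zero]
    rwa [Matrix.mulVec_mulVec, h', Matrix.one_mulVec] at this
  obtain ⟨g, hg, hg'⟩ := hM _ hv'
  refine ⟨g, hg, fun a ha => hg' a ?_⟩
  rw [hN] at ha
  have h4 := congrArg (fun w => Q *ᵥ w) ha
  simp only [Matrix.mulVec_mulVec, Matrix.mulVec_smul] at h4
  rw [← mul_assoc, ← mul_assoc, h, one_mul] at h4
  rw [Matrix.mulVec_mulVec]
  exact h4

end Field

end Fermat.Agent.H12.LL
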