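import Mathlib
import Fermat.Agent.H12.LL.Coef
import Fermat.Agent.H12.LL.Mat
import Fermat.Agent.Ell.Cond
import Fermat.Agent.Ell.Resid
import Fermat.Agent.H25.Asm8

/-!
# The residual data attached to an elliptic curve over `ℚ`
-/

set_option autoImplicit false
set_option linter.unusedSectionVars false
set_option linter.style.haveILetI false

noncomputable section

namespace Fermat.Agent.H12.LL

open Fermat.Agent.H25 Fermat.Agent.H25.PR Fermat.Agent.H25.TR Fermat.Agent.TW Fermat.Agent.CC Matrix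
open IsLocalRing
open WeierstrassCurve WeierstrassCurve.Affine WeierstrassCurve.Affine.Point
open Fermat.Agent.H08 Fermat.Agent.Ell
open Fermat.Agent.EGal (VV rho)
open scoped Pointwise

section Scal

variable {p : ℕ} [hp : Fact p.Prime] {k : Type*} [Field k] [CharP k p]

/-- ring homomorphisms `ℤ_[p] → k` factor through `ZMod p` -/
theorem ringHom_padic (f : ℤ_[p] →+* k) (x : ℤ_[p]) :
    f x = ZMod.castHom (dvd_refl p) k (PadicInt.toZMod x) := by
  have h1 : PadicInt.toZMod (x - ((PadicInt.toZMod x).val : ℤ_[p])) = 0 := by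
    rw [map_sub, map_natCast, ZMod.natCast_zmod_val, sub_self]
  rw [← RingHom.mem_ker, PadicInt.ker_toZMod, PadicInt.maximalIdeal_eq_span_p,
    Ideal.mem_span_singleton] at h1
  obtain ⟨y, hy⟩ := h1
  have h2 : f (x - ((PadicInt.toZMod x).val : ℤ_[p])) = 0 := by
    rw [hy, map_mul, map_natCast, CharP.cast_eq_zero, zero_mul]
  rw [map_sub, map_natCast, sub_eq_zero] at h2
  rw [h2, ZMod.castHom_apply, ZMod.cast_eq_val]

end Scal

theorem map_entX {R S G : Type*} [CommRing R] [CommRing S] [Group G] (f : R →+* S) (t : G → R)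
    (hf : R) (c g h : G) : entX (fun g => f (t g)) (f hf) c g h = f (entX t hf c g h) := by
  simp only [entX, map_mul, map_add, map_sub]

section Rep

variable {W : WeierstrassCurve ℤ} {p : ℕ} [hp : Fact p.Prime]

/-- the matrix representation on the Tate module, with coefficients in `R` -/
def MR {R : Type*} [CommRing R] (b : Module.Basis (Fin 2) ℤ_[p] (TT (WQ W) p)) (f : ℤ_[p] →+* R) :
    GQ →* Matrix (Fin 2) (Fin 2) R where
  toFun g := (mtx b (rr (WQ W) p g)).map f
  map_one' := by
    rw [map_one, map_one]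
    exact (RingHom.mapMatrix f).map_one
  map_mul' g h := by
    rw [map_mul, map_mul]
    exact (RingHom.mapMatrix f).map_mul _ _

theorem MR_apply {R : Type*} [CommRing R] (b : Module.Basis (Fin 2) ℤ_[p] (TT (WQ W) p))
    (f : ℤ_[p] →+* R) (g : GQ) : MR b f g = (mtx b (rr (WQ W) p g)).map f := rfl

theorem trace_MR {R : Type*} [CommRing R] (b : Module.Basis (Fin 2) ℤ_[p] (TT (WQ W) p))
    (f : ℤ_[p] →+* R) (g : GQ) :
    (MR b f g).trace = f (LinearMap.trace ℤ_[p] (TT (WQ W) p) (rr (WQ W) p g)) := by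
  rw [MR_apply, ← trace_mtx b, Matrix.trace_fin_two, Matrix.trace_fin_two, map_add]
  rfl

theorem det_MR {R : Type*} [CommRing R] (b : Module.Basis (Fin 2) ℤ_[p] (TT (WQ W) p))
    (f : ℤ_[p] →+* R) (g : GQ) :
    (MR b f g).det = f (LinearMap.det (rr (WQ W) p g)) := by
  rw [MR_apply, ← det_mtx b]
  exact (RingHom.map_det f _).symm

theorem MR_comp {R S : Type*} [CommRing R] [CommRing S]
    (b : Module.Basis (Fin 2) ℤ_[p] (TT (WQ W) p))
    (f : ℤ_[p] →+* R) (h : R →+* S) (g : GQ) : MR b (h.comp f) g = (MR b f g).map h := rfl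

theorem MR_toZMod [(WQ W).IsElliptic] (b : Module.Basis (Fin 2) ℤ_[p] (TT (WQ W) p)) (g : GQ) :
    MR b (PadicInt.toZMod (p := p)) g = mtx (redBasis b) (rho (WQ W) p g) := (mtx_rho b g).symm

theorem MR_toZMod_eq_one_iff [(WQ W).IsElliptic] (b : Module.Basis (Fin 2) ℤ_[p] (TT (WQ W) p))
    (g : GQ) : MR b (PadicInt.toZMod (p := p)) g = 1 ↔ ∀ P : Pts (WQ W), p • P = 0 → g • P = P := by
  rw [MR_toZMod, ← map_one (mtx (redBasis b)), (mtx (redBasis b)).injective.eq_iff]
  constructor
  · intro h P hP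
    have hP' : P ∈ Submodule.torsionBy ℤ (Pts (WQ W)) p := by
      rw [Submodule.mem_torsionBy_iff, natCast_zsmul]; exact hP
    have := congrArg (fun f : Module.End (ZMod p) (VV (WQ W) p) => f ⟨P, hP'⟩) h
    exact congrArg Subtype.val this
  · intro h
    apply LinearMap.ext
    intro x
    apply Subtype.ext
    have hx := x.2
    rw [Submodule.mem_torsionBy_iff, natCast_zsmul] at hx
    exact h x hx

/-- irreducibility in matrix form -/
theorem irr_MR [(WQ W).IsElliptic] (b : Module.Basis (Fin 2) ℤ_[p] (TT (WQ W) p))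
    (hirr : W.ModRepIsIrreducible p) :
    ∀ v : Fin 2 → ZMod p, v ≠ 0 → ∃ g, ∀ a : ZMod p,
      MR b (PadicInt.toZMod (p := p)) g *ᵥ v ≠ a • v := by
  intro v hv
  by_contra hcon
  push Not at hcon
  set b' := redBasis b with hb'
  set x : VV (WQ W) p := ∑ i, v i • b' i with hx
  have hrep : ∀ i, b'.repr x i = v i := fun i => by rw [hx, b'.repr_sum_self]
  have hx0 : x ≠ 0 := by
    intro h0
    apply hv
    ext i
    rw [← hrep i, h0, _root_.map_zero]; rfl
  have hst : ∀ g : GQ, ∃ a : ZMod p, rho (WQ W) p g x = a • x := by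
    intro g
    obtain ⟨a, ha⟩ := hcon g
    refine ⟨a, b'.repr.injective (Finsupp.ext fun i => ?_)⟩
    have h1 := congrFun ha i
    rw [MR_toZMod] at h1
    have h2 : (mtx b' (rho (WQ W) p g) *ᵥ v) i = b'.repr (rho (WQ W) p g x) i := by
      have h3 := LinearMap.toMatrix_mulVec_repr b' b' (rho (WQ W) p g) x
      have h4 : (⇑(b'.repr x) : Fin 2 → ZMod p) = v := funext hrep
      rw [h4] at h3
      exact congrFun h3 i
    rw [← h2, h1, map_smul, Finsupp.smul_apply, hrep, Pi.smul_apply]
  rcases hirr.2 (Submodule.span (ZMod p) {x}) (by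
    intro g y hy
    obtain ⟨c, rfl⟩ := Submodule.mem_span_singleton.mp hy
    obtain ⟨a, ha⟩ := hst g
    have : g • (c • x) = c • (rho (WQ W) p g x) := (rho (WQ W) p g).map_smul c x
    rw [this, ha]
    exact Submodule.smul_mem _ _ (Submodule.smul_mem _ _ (Submodule.mem_span_singleton_self _)))
    with h | h
  · exact hx0 (Submodule.span_singleton_eq_bot.mp h)
  · have h1 := finrank_span_singleton (K := ZMod p) hx0
    rw [h, finrank_top, Module.finrank_eq_card_basis b', Fintype.card_fin] at h1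
    omega

theorem exists_half (hp2 : p ≠ 2) : ∃ h : ℤ_[p], h * 2 = 1 := by
  have h1 : IsUnit (2 : ℤ_[p]) := by
    rw [PadicInt.isUnit_iff]
    have h2 : ‖((2 : ℤ) : ℤ_[p])‖ = 1 := by
      rw [PadicInt.norm_intCast_eq_one_iff]
      rw [Int.isCoprime_iff_gcd_eq_one]
      have : Nat.Coprime 2 p := (Nat.coprime_primes Nat.prime_two hp.out).mpr (Ne.symm hp2)
      exact this
    simpa using h2
  obtain ⟨u, hu⟩ := h1
  exact ⟨↑u⁻¹, by rw [← hu]; exact u.inv_mul⟩

theorem det_conj (hΔ : W.Δ ≠ 0) (hirr : W.ModRepIsIrreducible p) :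
    LinearMap.det (rr (WQ W) p complexConjugation) = -1 := by
  rw [eq_neg_iff_add_eq_zero]
  by_contra hne
  obtain ⟨N, hN⟩ := padic_exists_not_dvd hne
  apply hN
  have h := (zRep_detIsCyclotomic hΔ hirr).2 N complexConjugation (p ^ N - 1) (by
    intro μ hμ
    rw [Fermat.Agent.EGal.conj_mu (pow_ne_zero _ hp.out.ne_zero) hμ]
    have h0 : μ ≠ 0 := by
      rintro rfl
      rw [zero_pow (pow_ne_zero _ hp.out.ne_zero)] at hμ
      exact zero_ne_one hμ
    have h1 : μ ^ (p ^ N - 1) * μ = 1 := by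
      rw [← pow_succ, Nat.sub_add_cancel (Nat.one_le_pow _ _ hp.out.pos), hμ]
    exact (eq_inv_of_mul_eq_one_left h1).symm)
  rw [Ideal.mem_span_singleton, Nat.cast_sub (Nat.one_le_pow _ _ hp.out.pos)] at h
  have h2 : (p : ℤ_[p]) ^ N ∣ LinearMap.det ((zRep W hΔ p).ρ complexConjugation) + 1 := by
    have h3 : LinearMap.det ((zRep W hΔ p).ρ complexConjugation) + 1 =
        (LinearMap.det ((zRep W hΔ p).ρ complexConjugation) - (((p ^ N : ℕ) : ℤ_[p]) - ((1 : ℕ) : ℤ_[p]))) +
          (p : ℤ_[p]) ^ N := by push_cast; ring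
    rw [h3]
    refine dvd_add ?_ (dvd_refl _)
    push_cast at h ⊢
    exact h
  exact h2

theorem trace_conj (hΔ : W.Δ ≠ 0) (hirr : W.ModRepIsIrreducible p) :
    LinearMap.trace ℤ_[p] (TT (WQ W) p) (rr (WQ W) p complexConjugation) = 0 := by
  haveI := isElliptic_WQ hΔ
  set b := tateBasis (WQ W) p
  have h1 := trace_sq (MR b (RingHom.id ℤ_[p]) complexConjugation)
  rw [← map_mul, complexConjugation_mul_self, map_one, Matrix.trace_one, Fintype.card_fin,
    det_MR, trace_MR, det_conj hΔ hirr] at h1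
  simp only [RingHom.id_apply] at h1
  have h2 : LinearMap.trace ℤ_[p] (TT (WQ W) p) (rr (WQ W) p complexConjugation) *
      LinearMap.trace ℤ_[p] (TT (WQ W) p) (rr (WQ W) p complexConjugation) = 0 := by
    push_cast at h1
    linear_combination h1
  exact mul_self_eq_zero.mp h2

end Rep

section RDdef

variable {W : WeierstrassCurve ℤ} {p : ℕ} [hp : Fact p.Prime]
  (hΔ : W.Δ ≠ 0) (hirr : W.ModRepIsIrreducible p) (hp2 : p ≠ 2)
  (O : Type) [CommRing O] [IsLocalRing O] [Algebra ℤ_[p] O] [IsLocalHom (algebraMap ℤ_[p] O)]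

include hp in
theorem p_mem_maxO : ((p : ℕ) : O) ∈ maximalIdeal O := by
  rw [← map_natCast (algebraMap ℤ_[p] O)]
  apply map_nonunit
  rw [PadicInt.maximalIdeal_eq_span_p]
  exact Ideal.mem_span_singleton_self _

variable (p) in
include hp in
theorem charP_res : CharP (ResidueField O) p := by
  refine (CharP.charP_iff_prime_eq_zero hp.out).mpr ?_
  rw [← map_natCast (residue O), residue_eq_zero_iff]
  exact p_mem_maxO O

variable (p) in
/-- the reduction map `ℤ_[p] → k` -/
def redk : ℤ_[p] →+* ResidueField O := (residue O).comp (algebraMap ℤ_[p] O)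

include hΔ hirr hp2 in
theorem exists_rs : ∃ (h : ℤ_[p]) (r s : GQ), h * 2 = 1 ∧
    entX (fun g => redk p O (LinearMap.trace ℤ_[p] (TT (WQ W) p) (rr (WQ W) p g))) (redk p O h)
      complexConjugation r s ≠ 0 := by
  haveI := isElliptic_WQ hΔ
  haveI := charP_res p O
  set b := tateBasis (WQ W) p
  obtain ⟨h, hh⟩ := exists_half hp2
  have hh' : (PadicInt.toZMod h : ZMod p) * 2 = 1 := by
    rw [← map_ofNat (PadicInt.toZMod (p := p)) 2, ← map_mul, hh, map_one]
  have htc : (MR b (PadicInt.toZMod (p := p)) complexConjugation).trace = 0 := by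
    rw [trace_MR, trace_conj hΔ hirr, _root_.map_zero]
  obtain ⟨r, s, hrs⟩ := exists_ent (M := MR b (PadicInt.toZMod (p := p)))
    complexConjugation_mul_self htc hh' (irr_MR b hirr)
  refine ⟨h, r, s, hh, ?_⟩
  have h1 : (fun g => redk p O (LinearMap.trace ℤ_[p] (TT (WQ W) p) (rr (WQ W) p g))) =
      fun g => ZMod.castHom (dvd_refl p) (ResidueField O)
        ((MR b (PadicInt.toZMod (p := p)) g).trace) := by
    funext g
    rw [trace_MR, ringHom_padic]
  rw [h1, ringHom_padic, map_entX]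
  exact (map_ne_zero _).mpr hrs

/-- **The residual data attached to an elliptic curve.** -/
def RDW : RD O (ResidueField O) where
  res := residue O
  surj := residue_surjective
  chi g := algebraMap ℤ_[p] O (LinearMap.det (rr (WQ W) p g))
  tbar g := redk p O (LinearMap.trace ℤ_[p] (TT (WQ W) p) (rr (WQ W) p g))
  c := complexConjugation
  r := (exists_rs hΔ hirr hp2 O).choose_spec.choose
  s := (exists_rs hΔ hirr hp2 O).choose_spec.choose_spec.choose
  hf := algebraMap ℤ_[p] O (exists_rs hΔ hirr hp2 O).choose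
  h2 := by
    have h := (exists_rs hΔ hirr hp2 O).choose_spec.choose_spec.choose_spec.1
    rw [← map_ofNat (algebraMap ℤ_[p] O) 2, ← map_mul, h, map_one]
  cc := complexConjugation_mul_self
  ps := by
    haveI := isElliptic_WQ hΔ
    have h := isPseudo2_trace (MR (tateBasis (WQ W) p) (redk p O))
    have e : (fun g => (MR (tateBasis (WQ W) p) (redk p O) g).trace) =
        fun g => redk p O (LinearMap.trace ℤ_[p] (TT (WQ W) p) (rr (WQ W) p g)) :=
      funext fun g => trace_MR _ _ g
    rw [e] at h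
    exact h
  tc := by rw [trace_conj hΔ hirr, _root_.map_zero]
  dt g := by
    haveI := isElliptic_WQ hΔ
    have h := trace_sq (MR (tateBasis (WQ W) p) (redk p O) g)
    rw [← map_mul, trace_MR, trace_MR, det_MR] at h
    exact h
  ent := (exists_rs hΔ hirr hp2 O).choose_spec.choose_spec.choose_spec.2

variable {O}

theorem RDW_chi (g : GQ) : (RDW hΔ hirr hp2 O).chi g =
    algebraMap ℤ_[p] O (LinearMap.det (rr (WQ W) p g)) := rfl

theorem RDW_tbar (g : GQ) : (RDW hΔ hirr hp2 O).tbar g =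
    redk p O (LinearMap.trace ℤ_[p] (TT (WQ W) p) (rr (WQ W) p g)) := rfl

theorem RDW_res : (RDW hΔ hirr hp2 O).res = residue O := rfl

theorem RDW_c : (RDW hΔ hirr hp2 O).c = complexConjugation := rfl

/-- a basis of the Tate module -/
def tB (hΔ : W.Δ ≠ 0) : Module.Basis (Fin 2) ℤ_[p] (TT (WQ W) p) :=
  haveI := isElliptic_WQ hΔ
  tateBasis (WQ W) p

/-- the residual representation is conjugate to `E[p] ⊗ k` -/
theorem RDW_conj : ∃ Q Q' : Mt (ResidueField O), Q * Q' = 1 ∧ Q' * Q = 1 ∧ ∀ g,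
    (RDW hΔ hirr hp2 O).rbar g = Q' * MR (tB (p := p) hΔ) (redk p O) g * Q := by
  set D := RDW hΔ hirr hp2 O with hD
  have e : (fun g => (MR (tB (p := p) hΔ) (redk p O) g).trace) = D.tbar :=
    funext fun g => trace_MR _ _ g
  refine exists_conj (M := MR (tB (p := p) hΔ) (redk p O)) (c := D.c) D.cc ?_ D.h2k
    (r := D.r) (s := D.s) (by rw [e]; exact D.ent) (fun g => by rw [e]; exact D.rbar_eq g)
  have := congrFun e D.c
  rw [D.tc] at this
  exact this

/-- `D.rbar g = 1` iff `g` fixes the `p`-torsion -/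
theorem RDW_rbar_eq_one_iff (g : GQ) : (RDW hΔ hirr hp2 O).rbar g = 1 ↔
    ∀ P : Pts (WQ W), p • P = 0 → g • P = P := by
  haveI := isElliptic_WQ hΔ
  haveI := charP_res p O
  obtain ⟨Q, Q', h, h', hQ⟩ := RDW_conj hΔ hirr hp2 (O := O)
  rw [← MR_toZMod_eq_one_iff (tB (p := p) hΔ), hQ]
  have e1 : MR (tB (p := p) hΔ) (redk p O) g =
      (MR (tB (p := p) hΔ) (PadicInt.toZMod (p := p)) g).map
        (ZMod.castHom (dvd_refl p) (ResidueField O)) := by
    ext i j
    rw [MR_apply, MR_apply, Matrix.map_apply, Matrix.map_apply, Matrix.map_apply, ringHom_padic]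
  have e2 : Q' * MR (tB (p := p) hΔ) (redk p O) g * Q = 1 ↔
      MR (tB (p := p) hΔ) (redk p O) g = 1 := by
    constructor
    · intro hh
      calc MR (tB (p := p) hΔ) (redk p O) g =
          (Q * Q') * MR (tB (p := p) hΔ) (redk p O) g * (Q * Q') := by
            rw [h, one_mul, mul_one]
        _ = Q * (Q' * MR (tB (p := p) hΔ) (redk p O) g * Q) * Q' := by
            simp only [mul_assoc]
        _ = 1 := by rw [hh, mul_one, h]
    · intro hh; rw [hh, mul_one, h']
  rw [e2, e1]
  constructor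
  · intro hh
    ext i j
    have h3 := congrFun (congrFun hh i) j
    rw [Matrix.map_apply] at h3
    apply (ZMod.castHom (dvd_refl p) (ResidueField O)).injective
    rw [h3, Matrix.one_apply, Matrix.one_apply]
    split_ifs
    · rw [map_one]
    · rw [_root_.map_zero]
  · intro hh
    rw [hh]
    exact (RingHom.mapMatrix (ZMod.castHom (dvd_refl p) (ResidueField O))).map_one

end RDdef

end Fermat.Agent.H12.LL
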