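import Mathlib
import Fermat.Agent.H12.LL.RDW

/-!
# The residual data attached to an elliptic curve over `ℚ`: local properties
-/

set_option autoImplicit false
set_option linter.unusedSectionVars false
set_option linter.style.haveILetI false

noncomputable section

namespace Fermat.Agent.H12.LL

open Fermat.Agent.H25 Fermat.Agent.H25.PR Fermat.Agent.H25.TR Fermat.Agent.TW Fermat.Agent.CC Matrix
open Fermat.Agent.H25.TWM Fermat.Agent.H25.GE
open IsLocalRing
open WeierstrassCurve WeierstrassCurve.Affine WeierstrassCurve.Affine.Point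
open Fermat.Agent.H08 Fermat.Agent.Ell
open Fermat.Agent.EGal (VV rho coords coords_finite smul_eq_of_agree)
open scoped Pointwise

/-- `E[p]` is unramified at `q` -/
def UnrAt (W : WeierstrassCurve ℤ) (p q : ℕ) : Prop :=
  ∀ A : ValuationSubring Qb, A.LiesOverPrime q → ∀ σ ∈ A.inertiaSubgroupIn ℚ,
    ∀ P : Pts (WQ W), p • P = 0 → σ • P = P

theorem unrAt_iff (W : WeierstrassCurve ℤ) (p q : ℕ) : UnrAt W p q ↔
    WeierstrassCurve.Affine.Point.GaloisRepUnramifiedAt (K := AlgebraicClosure ℚ) ℚ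
      (WQ W) p q := by
  constructor
  · intro h A hA σ hσ x
    apply Subtype.ext
    have hx := x.2
    rw [Submodule.mem_torsionBy_iff, natCast_zsmul] at hx
    exact h A hA σ hσ x hx
  · intro h A hA σ hσ P hP
    have hP' : P ∈ Submodule.torsionBy ℤ (Pts (WQ W)) p := by
      rw [Submodule.mem_torsionBy_iff, natCast_zsmul]; exact hP
    exact congrArg Subtype.val (h A hA σ hσ ⟨P, hP'⟩)

theorem unrAt_of_good {W : WeierstrassCurve ℤ} {p q : ℕ} (hq : q.Prime)
    (hgood : W.IsGoodPrimeFor q) (hqp : ¬ q ∣ p) : UnrAt W p q :=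
  fun _ hA _ hσ _ hP => smul_eq_of_good hq hgood hA hσ hqp hP

/-- elements fixing the `n`-torsion -/
def tFix (W : WeierstrassCurve ℤ) (n : ℕ) : Subgroup GQ where
  carrier := {g | ∀ P : Pts (WQ W), n • P = 0 → g • P = P}
  one_mem' := fun P _ => one_smul _ P
  mul_mem' := by
    intro a b ha hb P hP
    rw [mul_smul, hb P hP, ha P hP]
  inv_mem' := by
    intro a ha P hP
    rw [inv_smul_eq_iff, ha P hP]

lemma mem_tFix {W : WeierstrassCurve ℤ} {n : ℕ} {g : GQ} :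
    g ∈ tFix W n ↔ ∀ P : Pts (WQ W), n • P = 0 → g • P = P := Iff.rfl

/-- the torsion field is unramified outside the ramified primes -/
theorem tFix_open {W : WeierstrassCurve ℤ} (hΔ : W.Δ ≠ 0) {S : Finset Nat.Primes} {n : ℕ}
    (hn : n ≠ 0) (hS : ∀ q : Nat.Primes, q ∉ S → UnrAt W n q) :
    (levS S).isOpen (tFix W n) := by
  have hell := isElliptic_WQ hΔ
  have hfin : Finite (coords (WQ W) n) := coords_finite hn
  refine ⟨IntermediateField.adjoin ℚ (coords (WQ W) n), ⟨?_, ?_⟩, ?_⟩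
  · apply IntermediateField.finiteDimensional_adjoin
    intro x _
    exact Algebra.IsIntegral.isIntegral x
  · intro q hq A hA σ hσ
    rw [IntermediateField.mem_fixingSubgroup_iff]
    have hle : IntermediateField.adjoin ℚ (coords (WQ W) n) ≤
        IntermediateField.fixedField (Subgroup.zpowers σ) := by
      rw [IntermediateField.adjoin_le_iff]
      rintro x ⟨P, hP⟩
      have hP0 : n • (P : Pts (WQ W)) = 0 := by
        have := P.2
        rw [Submodule.mem_torsionBy_iff, natCast_zsmul] at this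
        exact this
      have hσP : σ • (P : Pts (WQ W)) = P := hS q hq A hA σ hσ _ hP0
      have hσx : σ x = x := by
        rcases hP with rfl | rfl
        · rw [← H09.px_smul, hσP]
        · rw [← H09.py_smul, hσP]
      rw [SetLike.mem_coe, IntermediateField.mem_fixedField_iff]
      intro f hf
      have h1 : Subgroup.zpowers σ ≤ MulAction.stabilizer GQ x := by
        rw [Subgroup.zpowers_le]; exact hσx
      exact h1 hf
    intro x hx
    have := hle hx
    rw [IntermediateField.mem_fixedField_iff] at this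
    exact this σ (Subgroup.mem_zpowers σ)
  · intro σ hσ
    rw [IntermediateField.mem_fixingSubgroup_iff] at hσ
    rw [mem_tFix]
    intro P hP
    have hP' : P ∈ Submodule.torsionBy ℤ (Pts (WQ W)) n := by
      rw [Submodule.mem_torsionBy_iff, natCast_zsmul]; exact hP
    have h1 := smul_eq_of_agree (σ := σ) (τ := 1)
      (hσ _ (IntermediateField.subset_adjoin ℚ _ ⟨⟨P, hP'⟩, Or.inl rfl⟩))
      (hσ _ (IntermediateField.subset_adjoin ℚ _ ⟨⟨P, hP'⟩, Or.inr rfl⟩))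
    rwa [one_smul] at h1

section

variable {W : WeierstrassCurve ℤ} {p : ℕ} [hp : Fact p.Prime]
  (hΔ : W.Δ ≠ 0) (hirr : W.ModRepIsIrreducible p) (hp2 : p ≠ 2)
  {O : Type} [CommRing O] [IsLocalRing O] [Algebra ℤ_[p] O] [IsLocalHom (algebraMap ℤ_[p] O)]

theorem RDW_ker : (RDW hΔ hirr hp2 O).rbar.ker = tFix W p := by
  ext g
  rw [MonoidHom.mem_ker, RDW_rbar_eq_one_iff, mem_tFix]

/-- the kernel is `S`-open -/
theorem RDW_open {S : Finset Nat.Primes} (hS : ∀ q : Nat.Primes, q ∉ S → UnrAt W p q) :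
    (levS S).isOpen (RDW hΔ hirr hp2 O).rbar.ker := by
  rw [RDW_ker]
  exact tFix_open hΔ hp.out.ne_zero hS

theorem RDW_hbar {S : Finset Nat.Primes} (hS : ∀ q : Nat.Primes, q ∉ S → UnrAt W p q) :
    HBar (RDW hΔ hirr hp2 O) S := by
  refine ⟨_, RDW_open hΔ hirr hp2 (O := O) hS, fun u hu g => ?_⟩
  rw [← RD.trace_rbar, ← RD.trace_rbar, map_mul, MonoidHom.mem_ker.mp hu, mul_one]

theorem RDW_unr {q : ℕ} (h : UnrAt W p q) {A : ValuationSubring Qb} (hA : A.LiesOverPrime q)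
    {σ : GQ} (hσ : σ ∈ A.inertiaSubgroupIn ℚ) : (RDW hΔ hirr hp2 O).rbar σ = 1 := by
  rw [RDW_rbar_eq_one_iff]
  exact h A hA σ hσ

theorem RDW_chi_cyc (n : ℕ) (σ : GQ) (a : ℕ) (ha : ∀ μ : Qb, μ ^ p ^ n = 1 → σ μ = μ ^ a) :
    (RDW hΔ hirr hp2 O).chi σ - (a : O) ∈ Ideal.span {((p ^ n : ℕ) : O)} := by
  have h := (zRep_detIsCyclotomic hΔ hirr).2 n σ a ha
  rw [Ideal.mem_span_singleton] at h ⊢
  have h2 := map_dvd (algebraMap ℤ_[p] O) h
  rw [map_natCast, map_sub, map_natCast] at h2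
  exact h2

theorem RDW_chi_inertia {q : ℕ} (hq : q.Prime) (hqp : q ≠ p) {A : ValuationSubring Qb}
    (hA : A.LiesOverPrime q) {σ : GQ} (hσ : σ ∈ A.inertiaSubgroupIn ℚ) :
    (RDW hΔ hirr hp2 O).chi σ = 1 := by
  rw [RDW_chi, det_inertia (exists_nonscalar_of_irr hΔ hirr) hΔ hq hqp hA hσ, map_one]

theorem RDW_chi_frob {q : ℕ} (hq : q.Prime) (hqp : q ≠ p) {A : ValuationSubring Qb}
    (hA : A.LiesOverPrime q) {φ : GQ} (hφ : A.IsFrobeniusAt φ q) :
    (RDW hΔ hirr hp2 O).chi φ = (q : O) := by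
  have h := zRep_det_frob hΔ hirr hq hqp hA hφ
  rw [RDW_chi]
  have h2 : LinearMap.det (rr (WQ W) p φ) = (q : ℤ_[p]) := h
  rw [h2, map_natCast]

/-- the trace of Frobenius at a good prime -/
theorem RDW_tbar_frob {q : ℕ} (hq : q.Prime) (hgood : W.IsGoodPrimeFor q) (hqp : q ≠ p)
    {A : ValuationSubring Qb} (hA : A.LiesOverPrime q) {φ : GQ} (hφ : A.IsFrobeniusAt φ q) :
    (RDW hΔ hirr hp2 O).tbar φ = ((W.apOfModel q : ℤ) : ResidueField O) := by
  have h := zRep_trace_frob hΔ hirr hq hgood hqp hA hφ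
  rw [RDW_tbar]
  have h2 : LinearMap.trace ℤ_[p] (TT (WQ W) p) (rr (WQ W) p φ) = (W.apOfModel q : ℤ_[p]) := h
  rw [h2, map_intCast]

variable (O) in
/-- the residual determinant as a character -/
def chiB : GQ →* ResidueField O :=
  (Matrix.detMonoidHom (R := ResidueField O) (n := Fin 2)).comp (RDW hΔ hirr hp2 O).rbar

theorem chiB_apply (g : GQ) : chiB hΔ hirr hp2 O g = ((RDW hΔ hirr hp2 O).rbar g).det := rfl

theorem chiB_eq (g : GQ) : chiB hΔ hirr hp2 O g = residue O ((RDW hΔ hirr hp2 O).chi g) := by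
  rw [chiB_apply, RD.det_rbar]; rfl

theorem chiB_cyc (σ : GQ) (a : ℕ) (ha : ∀ x : Qb, x ^ p = 1 → σ x = x ^ a) :
    chiB hΔ hirr hp2 O σ = a := by
  have h := RDW_chi_cyc hΔ hirr hp2 (O := O) 1 σ a (by
    intro μ hμ; rw [pow_one] at hμ; exact ha μ hμ)
  rw [chiB_eq, ← sub_eq_zero, ← map_natCast (residue O), ← map_sub, residue_eq_zero_iff]
  rw [pow_one] at h
  have h2 : Ideal.span {((p : ℕ) : O)} ≤ maximalIdeal O := by
    rw [Ideal.span_singleton_le_iff_mem]
    exact p_mem_maxO O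
  exact h2 h

/-- **Taylor–Wiles data** -/
theorem RDW_TWData {S : Finset Nat.Primes} (hS : ∀ q : Nat.Primes, q ∉ S → UnrAt W p q)
    (hTW : ∀ G' : Subgroup GQ, G' = ⊤ ∨ G'.index = 2 →
      NoLine (ext (AlgebraicClosure (ResidueField O)) (RDW hΔ hirr hp2 O).rbar) G') :
    TWData p S (RDW hΔ hirr hp2 O).rbar (chiB hΔ hirr hp2 O) where
  prime := hp.out
  ne_two := hp2
  open_ker := RDW_open hΔ hirr hp2 hS
  det g := rfl
  chi := chiB_cyc hΔ hirr hp2
  noLine := hTW ⊤ (Or.inl rfl)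
  noLine2 G' h := hTW G' (Or.inr h)

/-- data at the primes `t` -/
theorem RDW_FrD {𝒯 : Type} (tv : 𝒯 → Nat.Primes) (hne : ∀ t, p ≠ tv t)
    (hunr : ∀ t, UnrAt W p (tv t)) : FrD (RDW hΔ hirr hp2 O) p tv where
  ne := hne
  unr t σ hσ := RDW_unr hΔ hirr hp2 (hunr t) (plv_over _ _) hσ
  chi t σ hσ := RDW_chi_inertia hΔ hirr hp2 (tv t).2 (hne t).symm (plv_over _ _) hσ
  chiF t := RDW_chi_frob hΔ hirr hp2 (tv t).2 (hne t).symm (plv_over _ _) (frv_spec _ _)

/-- data at the Taylor–Wiles primes -/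
theorem RDW_TWD {ζ : ResidueField O} (hζ : IsPrimitiveRoot ζ (p ^ 2 - 1)) {n : ℕ} (hn : n ≠ 0)
    {r : ℕ} (qv : Fin r → Nat.Primes) (hunr : ∀ j, UnrAt W p (qv j))
    (hqv : ∀ j, TWData.IsTW p n (RDW hΔ hirr hp2 O).rbar (chiB hΔ hirr hp2 O) (qv j)) :
    ∃ e : Fin r → ℕ, (∀ j, n ≤ e j) ∧ TWD (RDW hΔ hirr hp2 O) p qv e := by
  haveI := charP_res p O
  letI : Algebra (ZMod p) (ResidueField O) := ZMod.algebra _ p
  have hp0 : 1 < p := hp.out.one_lt
  have h1 : ∀ j, ∃ e u : ℕ, n ≤ e ∧ ((qv j : ℕ) - 1 = p ^ e * u) ∧ ¬ p ∣ u := by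
    intro j
    have hne : (qv j : ℕ) - 1 ≠ 0 := by
      have := (qv j).2.two_le
      omega
    obtain ⟨e, u, hu, he⟩ := Nat.exists_eq_pow_mul_and_not_dvd hne p hp0.ne'
    refine ⟨e, u, ?_, he, hu⟩
    have h2 := (hqv j).2.1
    rw [he] at h2
    have h3 : p ^ n ∣ p ^ e := (Nat.Coprime.pow_left n
      ((Nat.Prime.coprime_iff_not_dvd hp.out).mpr hu)).dvd_of_dvd_mul_right h2
    exact (Nat.pow_dvd_pow_iff_le_right hp0).mp h3
  choose e u hne he hu using h1
  have hcong : ∀ j, (((qv j : ℕ) : ℕ) : ResidueField O) = 1 := by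
    intro j
    have h2 := (hqv j).2.1
    have h3 : p ∣ (qv j : ℕ) - 1 := (dvd_pow_self p hn).trans h2
    have h4 : (((qv j : ℕ) - 1 : ℕ) : ResidueField O) = 0 :=
      (CharP.cast_eq_zero_iff (ResidueField O) p _).mpr h3
    rw [Nat.cast_sub (qv j).2.one_lt.le, sub_eq_zero] at h4
    rw [h4, Nat.cast_one]
  have hneq : ∀ j, p ≠ qv j := by
    intro j h
    have h2 := hcong j
    rw [← h, CharP.cast_eq_zero] at h2
    exact zero_ne_one h2
  refine ⟨e, hne, ⟨hneq, fun j σ hσ => RDW_unr hΔ hirr hp2 (hunr j) (plv_over _ _) hσ,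
    fun j σ hσ => RDW_chi_inertia hΔ hirr hp2 (qv j).2 (hneq j).symm (plv_over _ _) hσ, ?_,
    fun j => ⟨u j, he j, hu j⟩, hcong⟩⟩
  intro j
  obtain ⟨h2, h3⟩ := (hqv j).2.2 _ (plv_over _ _) _ (frv_spec (qv j) (qv j).2)
  obtain ⟨α, β, hab, hab'⟩ := exists_split (p := p) hζ
    (PadicInt.toZMod (LinearMap.trace ℤ_[p] (TT (WQ W) p) (rr (WQ W) p (frv (qv j) (qv j).2)))) 1
  have h4 : ((RDW hΔ hirr hp2 O).rbar (frv (qv j) (qv j).2)).trace = α + β := by
    rw [RD.trace_rbar, RDW_tbar, ringHom_padic, hab]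
    exact congrArg (fun f : ZMod p →+* ResidueField O => f _) (Subsingleton.elim _ _)
  have h5 : ((RDW hΔ hirr hp2 O).rbar (frv (qv j) (qv j).2)).det = α * β := by
    rw [hab', map_one]
    exact h2
  refine ⟨α, β, h4, h5, fun hc => h3 ?_⟩
  rw [h4, hc]
  have h6 : α * β = 1 := by rw [← h5]; exact h2
  rw [hc] at h6
  linear_combination 4 * h6

end

end Fermat.Agent.H12.LL
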