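import Mathlib
import Fermat.Agent.TW.Select

/-!
# Clifford theory for abelian quotients; auxiliary primes
-/

set_option autoImplicit false
set_option linter.unusedSectionVars false
set_option linter.style.haveILetI false

namespace Fermat.Agent.H12.LL

open Fermat.Agent.TW Fermat.Agent.CC Matrix

section Cliff

variable {Γ : Type*} [Group Γ] {k : Type*} [Field k]

theorem det_ne_zero (r : Γ →* Mt k) (g : Γ) : (r g).det ≠ 0 := by
  intro h
  have h1 : (r g * r g⁻¹).det = 1 := by rw [← map_mul, mul_inv_cancel, map_one, Matrix.det_one]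
  rw [Matrix.det_mul, h, zero_mul] at h1
  exact zero_ne_one h1

/-- Clifford theory for abelian quotients -/
theorem NoLine.of_abelian [IsAlgClosed k] {r : Γ →* Mt k} (hall : NoLine r ⊤)
    (h2 : ∀ G' : Subgroup Γ, G'.index = 2 → NoLine r G') (N : Subgroup Γ) [hN : N.Normal]
    (hab : ∀ x y : Γ, x * y * x⁻¹ * y⁻¹ ∈ N) : NoLine r N := by
  intro v hv
  by_contra hcon
  push Not at hcon
  choose! ψ hψ using hcon
  obtain ⟨γ₀, -, hγ₀⟩ := hall v hv
  obtain ⟨w, hw⟩ : ∃ w, w = r γ₀ *ᵥ v := ⟨_, rfl⟩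
  rw [← hw] at hγ₀
  have hw0 : w ≠ 0 := by
    intro h0; apply hγ₀ 0; rw [h0, zero_smul]
  obtain ⟨ψ', hψ'⟩ : ∃ ψ' : Γ → k, ∀ x ∈ N, r x *ᵥ w = ψ' x • w := by
    refine ⟨fun x => ψ (γ₀⁻¹ * x * γ₀), fun x hx => ?_⟩
    have h3 := hψ (γ₀⁻¹ * x * γ₀) (by simpa using hN.conj_mem x hx γ₀⁻¹)
    have h4 : r x *ᵥ w = r γ₀ *ᵥ (r (γ₀⁻¹ * x * γ₀) *ᵥ v) := by
      rw [hw, Matrix.mulVec_mulVec, Matrix.mulVec_mulVec, ← map_mul, ← map_mul]
      congr 2; group
    rw [h4, h3, Matrix.mulVec_smul, ← hw]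
  by_cases hd : ∀ x ∈ N, ψ x = ψ' x
  · -- scalars
    have hs : ∀ x ∈ N, r x = ψ x • (1 : Mt k) := by
      intro x hx
      exact eq_scalar hv hγ₀ (hψ x hx) (by rw [hψ' x hx, hd x hx])
    have hcomm : ∀ h : Γ, ∃ c : k, c ^ 2 = 1 ∧ r γ₀ * r h = c • (r h * r γ₀) := by
      intro h
      have e1 : r γ₀ * r h = ψ (γ₀ * h * γ₀⁻¹ * h⁻¹) • (r h * r γ₀) := by
        have e2 : γ₀ * h = (γ₀ * h * γ₀⁻¹ * h⁻¹) * (h * γ₀) := by group
        calc r γ₀ * r h = r (γ₀ * h) := (map_mul _ _ _).symm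
          _ = r ((γ₀ * h * γ₀⁻¹ * h⁻¹) * (h * γ₀)) := congrArg r e2
          _ = _ := by rw [map_mul, hs _ (hab γ₀ h), smul_mul_assoc, one_mul, map_mul]
      refine ⟨_, ?_, e1⟩
      have e3 := congrArg Matrix.det e1
      rw [Matrix.det_mul, Matrix.det_smul, Matrix.det_mul, Fintype.card_fin] at e3
      have h4 := mul_ne_zero (det_ne_zero r h) (det_ne_zero r γ₀)
      have h5 : (ψ (γ₀ * h * γ₀⁻¹ * h⁻¹) ^ 2 - 1) * ((r h).det * (r γ₀).det) = 0 := by
        linear_combination -e3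
      exact sub_eq_zero.mp ((mul_eq_zero.mp h5).resolve_right h4)
    let H : Subgroup Γ :=
      { carrier := {h | r γ₀ * r h = r h * r γ₀}
        one_mem' := by simp
        mul_mem' := by
          intro x y hx hy
          simp only [Set.mem_setOf_eq] at hx hy ⊢
          rw [map_mul, ← mul_assoc, hx, mul_assoc, hy, mul_assoc]
        inv_mem' := by
          intro x hx
          simp only [Set.mem_setOf_eq] at hx ⊢
          have h3 : r x⁻¹ * r x = 1 := by rw [← map_mul, inv_mul_cancel, map_one]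
          have h4 : r x * r x⁻¹ = 1 := by rw [← map_mul, mul_inv_cancel, map_one]
          calc r γ₀ * r x⁻¹ = (r x⁻¹ * r x) * r γ₀ * r x⁻¹ := by rw [h3, one_mul]
            _ = r x⁻¹ * (r x * r γ₀) * r x⁻¹ := by simp only [mul_assoc]
            _ = r x⁻¹ * (r γ₀ * r x) * r x⁻¹ := by rw [hx]
            _ = r x⁻¹ * r γ₀ * (r x * r x⁻¹) := by simp only [mul_assoc]
            _ = r x⁻¹ * r γ₀ := by rw [h4, mul_one] }
    have hmem : ∀ h, h ∈ H ↔ r γ₀ * r h = r h * r γ₀ := fun h => Iff.rfl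
    have hneg : ∀ h, h ∉ H → r γ₀ * r h = -(r h * r γ₀) := by
      intro h hh
      obtain ⟨c, hc, hc'⟩ := hcomm h
      have h3 : (c - 1) * (c + 1) = 0 := by linear_combination hc
      rcases mul_eq_zero.mp h3 with h4 | h4
      · exfalso
        apply hh
        rw [hmem, hc', sub_eq_zero.mp h4, one_smul]
      · rw [hc', eq_neg_of_add_eq_zero_left h4, neg_smul, one_smul]
    obtain ⟨u, l, hu, hl⟩ := exists_eigenvector (r γ₀)
    have hline : ∀ h ∈ H, ∃ a : k, r h *ᵥ u = a • u := by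
      intro h hh
      by_contra hcon
      push Not at hcon
      have h3 : r γ₀ *ᵥ (r h *ᵥ u) = l • (r h *ᵥ u) := by
        rw [Matrix.mulVec_mulVec, (hmem h).mp hh, ← Matrix.mulVec_mulVec, hl, Matrix.mulVec_smul]
      have h4 := eq_scalar hu hcon hl h3
      apply hγ₀ l
      rw [hw, h4, Matrix.smul_mulVec, Matrix.one_mulVec]
    have hnl : NoLine r H := by
      by_cases htop : H = ⊤
      · rw [htop]; exact hall
      · apply h2
        obtain ⟨a, ha⟩ : ∃ a, a ∉ H := by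
          by_contra hcon
          push Not at hcon
          exact htop (eq_top_iff.mpr fun x _ => hcon x)
        have key : ∀ b, b ∉ H → a⁻¹ * b ∈ H := by
          intro b hb
          have ha' := hneg a ha
          have hb' := hneg b hb
          have h3 : r a⁻¹ * r a = 1 := by rw [← map_mul, inv_mul_cancel, map_one]
          have h4 : r a * r a⁻¹ = 1 := by rw [← map_mul, mul_inv_cancel, map_one]
          have h5 : r γ₀ * r a⁻¹ = -(r a⁻¹ * r γ₀) := by
            calc r γ₀ * r a⁻¹ = (r a⁻¹ * r a) * r γ₀ * r a⁻¹ := by rw [h3, one_mul]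
              _ = -(r a⁻¹ * (-(r a * r γ₀)) * r a⁻¹) := by
                simp only [mul_assoc, mul_neg, neg_mul, neg_neg]
              _ = -(r a⁻¹ * (r γ₀ * r a) * r a⁻¹) := by rw [ha']
              _ = -(r a⁻¹ * r γ₀ * (r a * r a⁻¹)) := by simp only [mul_assoc]
              _ = -(r a⁻¹ * r γ₀) := by rw [h4, mul_one]
          rw [hmem, map_mul, ← mul_assoc, h5, neg_mul, mul_assoc, hb', mul_neg, neg_neg, mul_assoc]
        rw [Subgroup.index_eq_two_iff']
        refine ⟨a⁻¹, fun b => ?_⟩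
        by_cases hb : b ∈ H
        · right
          refine ⟨hb, fun h3 => ha ?_⟩
          have := H.mul_mem h3 (H.inv_mem hb)
          rw [mul_assoc, mul_inv_cancel, mul_one] at this
          exact (H.inv_mem_iff).1 this
        · left
          exact ⟨key b hb, hb⟩
    obtain ⟨γ, hγH, hγ⟩ := hnl u hu
    obtain ⟨a, ha⟩ := hline γ hγH
    exact hγ a ha
  · push Not at hd
    obtain ⟨x₀, hx₀, hne⟩ := hd
    -- N-eigenvectors are on the two lines
    have hlines : ∀ u : Fin 2 → k, (∃ l : k, r x₀ *ᵥ u = l • u) →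
        (∃ a : k, u = a • v) ∨ (∃ a : k, u = a • w) := by
      rintro u ⟨l, hl⟩
      obtain ⟨a, b, hu⟩ := exists_comb hv hγ₀ u
      rw [hu, Matrix.mulVec_add, Matrix.mulVec_smul, Matrix.mulVec_smul, hψ x₀ hx₀, hψ' x₀ hx₀,
        ← sub_eq_zero] at hl
      have h3 : (a * (ψ x₀ - l)) • v + (b * (ψ' x₀ - l)) • w = 0 := by
        rw [← hl]
        module
      obtain ⟨h4, h5⟩ := comb_inj hv hγ₀ h3
      by_cases ha : a = 0
      · right; exact ⟨b, by rw [hu, ha, zero_smul, zero_add]⟩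
      · have h6 : ψ x₀ = l := sub_eq_zero.1 ((mul_eq_zero.1 h4).resolve_left ha)
        have h7 : b = 0 := by
          refine (mul_eq_zero.1 h5).resolve_right ?_
          rw [← h6]
          exact sub_ne_zero.2 (Ne.symm hne)
        left; exact ⟨a, by rw [hu, h7, zero_smul, add_zero]⟩
    have heig : ∀ (γ : Γ), (∃ l : k, r x₀ *ᵥ (r γ *ᵥ v) = l • (r γ *ᵥ v)) := by
      intro γ
      refine ⟨ψ (γ⁻¹ * x₀ * γ), ?_⟩
      have h3 := hψ (γ⁻¹ * x₀ * γ) (by simpa using hN.conj_mem x₀ hx₀ γ⁻¹)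
      have h4 : r x₀ *ᵥ (r γ *ᵥ v) = r γ *ᵥ (r (γ⁻¹ * x₀ * γ) *ᵥ v) := by
        rw [Matrix.mulVec_mulVec, Matrix.mulVec_mulVec, ← map_mul, ← map_mul]
        congr 2; group
      rw [h4, h3, Matrix.mulVec_smul]
    -- the stabiliser of the line of v
    let H : Subgroup Γ :=
      { carrier := {γ | ∃ a : k, r γ *ᵥ v = a • v}
        one_mem' := ⟨1, by simp⟩
        mul_mem' := by
          rintro x y ⟨a, ha⟩ ⟨b, hb⟩
          refine ⟨b * a, ?_⟩
          rw [map_mul, ← Matrix.mulVec_mulVec, hb, Matrix.mulVec_smul, ha, smul_smul]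
        inv_mem' := by
          rintro x ⟨a, ha⟩
          have ha0 : a ≠ 0 := by
            intro h0
            rw [h0, zero_smul] at ha
            apply hv
            rw [← mulVec_inv r x v, ha, Matrix.mulVec_zero]
          refine ⟨a⁻¹, ?_⟩
          have : r x⁻¹ *ᵥ (a • v) = v := by rw [← ha, mulVec_inv]
          rw [Matrix.mulVec_smul] at this
          conv_rhs => rw [← this, smul_smul, inv_mul_cancel₀ ha0, one_smul] }
    have hmem : ∀ γ, γ ∈ H ↔ ∃ a : k, r γ *ᵥ v = a • v := fun γ => Iff.rfl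
    have hγ₀H : γ₀ ∉ H := by
      rintro ⟨a, ha⟩
      exact hγ₀ a (by rw [hw, ha])
    have hnot : ∀ γ, γ ∉ H → ∃ a : k, a ≠ 0 ∧ r γ *ᵥ v = a • w := by
      intro γ hγ
      rcases hlines _ (heig γ) with h | ⟨a, ha⟩
      · exact absurd h hγ
      · refine ⟨a, ?_, ha⟩
        rintro rfl
        rw [zero_smul] at ha
        apply hv
        rw [← mulVec_inv r γ v, ha, Matrix.mulVec_zero]
    have hidx : H.index = 2 := by
      rw [Subgroup.index_eq_two_iff']
      refine ⟨γ₀⁻¹, fun b => ?_⟩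
      obtain ⟨a₀, ha₀, hw'⟩ := hnot γ₀ hγ₀H
      have hγ₀w : ∀ γ, γ ∉ H → γ₀⁻¹ * γ ∈ H := by
        intro γ hγ
        obtain ⟨a, ha, h3⟩ := hnot γ hγ
        refine ⟨a * a₀⁻¹, ?_⟩
        rw [map_mul, ← Matrix.mulVec_mulVec, h3, Matrix.mulVec_smul]
        have h4 : w = a₀⁻¹ • (r γ₀ *ᵥ v) := by
          rw [hw', smul_smul, inv_mul_cancel₀ ha₀, one_smul]
        conv_lhs => rw [h4]
        rw [Matrix.mulVec_smul, mulVec_inv, smul_smul]
      by_cases hb : b ∈ H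
      · right
        refine ⟨hb, fun h3 => hγ₀H ?_⟩
        have := H.mul_mem h3 (H.inv_mem hb)
        rw [mul_assoc, mul_inv_cancel, mul_one] at this
        exact (H.inv_mem_iff).1 this
      · left
        exact ⟨hγ₀w b hb, hb⟩
    obtain ⟨γ, hγH, hγ⟩ := h2 H hidx v hv
    obtain ⟨a, ha⟩ := hγH
    exact hγ a ha

end Cliff

section Aux

variable {k : Type*} [Field k] {p : ℕ} {S : Finset Nat.Primes} {r : GQ →* Mt k} {χ : GQ →* k}

theorem chi_NN' (h : TWData p S r χ) {m : ℕ} (hpm : p ∣ m) {σ : GQ} (hσ : σ ∈ NN m) :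
    χ σ = 1 := by
  have h1 := h.chi σ 1 (fun x hx => by
    rw [pow_one]
    apply hσ
    obtain ⟨c, rfl⟩ := hpm
    rw [pow_mul, hx, one_pow])
  rw [h1, Nat.cast_one]

/-- **Auxiliary primes**: primes `q ≡ 1 mod m` with distinct eigenvalues of Frobenius. -/
theorem exists_prime_of_TWData [Finite k] [CharP k p] (h : TWData p S r χ) {m : ℕ} (hm : m ≠ 0)
    (hpm : p ∣ m) (T : Finset ℕ) (hmT : m.primeFactors ⊆ T) :
    ∃ q : ℕ, q.Prime ∧ q ∉ T ∧ m ∣ q - 1 ∧ ∃ A : ValuationSubring Qb, A.LiesOverPrime q ∧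
      ∃ φ : GQ, A.IsFrobeniusAt φ q ∧ χ φ = 1 ∧ (r φ).trace ^ 2 ≠ 4 := by
  have hg := Fermat.Agent.H51.isGalois_Qbar
  have : Fact p.Prime := ⟨h.prime⟩
  have : NeZero m := ⟨hm⟩
  have : NeZero ((m : ℕ) : Qb) := ⟨Nat.cast_ne_zero.mpr hm⟩
  let w : Mt k := !![1, 0; 0, -1]
  have hw : w ≠ 0 := by
    intro h0
    have := congrFun (congrFun h0 0) 0
    simp [w] at this
  have hw0 : w.trace = 0 := by simp [w, Matrix.trace]
  have hNL : NoLine (ext (AlgebraicClosure k) r) (NN m) :=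
    NoLine.of_abelian h.noLine h.noLine2 (NN m) (commutator_mem_NN m)
  obtain ⟨σ, hσ, hσ4, -⟩ := exists_elt (p := p) h.ne_two hNL
    (fun x hx => by rw [h.det, chi_NN' h hpm hx]) hw hw0
  obtain ⟨F, hF, hFU⟩ := lev_isOpen_of_levS h.open_ker
  obtain ⟨ζ, hζ⟩ := HasEnoughRootsOfUnity.exists_primitiveRoot Qb m
  let E : IntermediateField ℚ Qb := F ⊔ IntermediateField.adjoin ℚ {ζ}
  have hint : IsIntegral ℚ ζ := Algebra.IsIntegral.isIntegral ζ
  have hfd : FiniteDimensional ℚ (IntermediateField.adjoin ℚ {ζ}) :=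
    IntermediateField.adjoin.finiteDimensional hint
  have hE : FiniteDimensional ℚ E := IntermediateField.finiteDimensional_sup _ _
  obtain ⟨q, hq, hqT, A, hA, φ, hφ, m', l, h1, h2⟩ := H25.exists_frobenius E T σ
  have hfix : ∀ s : GQ, (∀ x ∈ E, s x = x) → s ∈ r.ker ∧ s ∈ NN m := by
    intro s hs
    constructor
    · apply hFU
      rw [IntermediateField.mem_fixingSubgroup_iff]
      exact fun x hx => hs x ((le_sup_left : F ≤ E) hx)
    · intro x hx
      obtain ⟨i, -, rfl⟩ := hζ.eq_pow_of_pow_eq_one hx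
      rw [map_pow, hs ζ ((le_sup_right : _ ≤ E) (IntermediateField.mem_adjoin_simple_self ℚ ζ))]
  obtain ⟨s, hs⟩ : ∃ s, s = (σ ^ m')⁻¹ * φ := ⟨_, rfl⟩
  obtain ⟨t, ht⟩ : ∃ t, t = (φ ^ l)⁻¹ * σ := ⟨_, rfl⟩
  have hs' := hfix s (by
    intro x hx
    rw [hs, AlgEquiv.mul_apply, h1 x hx, ← AlgEquiv.mul_apply, inv_mul_cancel,
      AlgEquiv.one_apply])
  have ht' := hfix t (by
    intro x hx
    rw [ht, AlgEquiv.mul_apply, h2 x hx, ← AlgEquiv.mul_apply, inv_mul_cancel,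
      AlgEquiv.one_apply])
  have eφ : φ = σ ^ m' * s := by rw [hs]; group
  have eσ : σ = φ ^ l * t := by rw [ht]; group
  have hφN : φ ∈ NN m := by
    rw [eφ]; exact (NN _).mul_mem ((NN _).pow_mem hσ m') hs'.2
  have hχφ : χ φ = 1 := chi_NN' h hpm hφN
  have hrσ : r σ = r φ ^ l := by
    conv_lhs => rw [eσ]
    rw [map_mul, MonoidHom.mem_ker.mp ht'.1, mul_one, map_pow]
  have hdφ : (r φ).det = 1 := by rw [h.det, hχφ]
  have hqm : ¬ q ∣ m := fun hd => hqT (hmT (Nat.mem_primeFactors.mpr ⟨hq, hd, hm⟩))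
  refine ⟨q, hq, hqT, dvd_of_frobenius hm hq hqm hA hφ hφN, A, hA, φ, hφ, hχφ, ?_⟩
  intro h4
  apply hσ4
  rw [hrσ]
  exact trace_sq_pow hdφ h4 l

end Aux

end Fermat.Agent.H12.LL
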