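import Mathlib
import Fermat.Agent.TC.Core
import Fermat.Agent.TC.Pack6

/-!
# Taylor-Wiles levels: group theory
-/

set_option autoImplicit false
set_option linter.unusedSectionVars false
set_option linter.style.haveILetI false

noncomputable section

namespace Fermat.Agent.H12.LL

open Fermat.Agent.TC

/-- the surjection `(ZMod q)ˣ → Z / p ^ e` -/
theorem exists_kappa {q p e : ℕ} (hq : q.Prime) (h : p ^ e ∣ q - 1) :
    ∃ κ : (ZMod q)ˣ →* Multiplicative (ZMod (p ^ e)), Function.Surjective κ := by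
  haveI : Fact q.Prime := ⟨hq⟩
  have hc : Nat.card (ZMod q)ˣ = q - 1 := by
    rw [Nat.card_eq_fintype_card, ZMod.card_units]
  have hcy : IsCyclic (ZMod q)ˣ := inferInstance
  have h' : p ^ e ∣ Nat.card (ZMod q)ˣ := by rw [hc]; exact h
  let c : ZMod (Nat.card (ZMod q)ˣ) →+ ZMod (p ^ e) :=
    (ZMod.castHom h' (ZMod (p ^ e))).toAddMonoidHom
  refine ⟨(AddMonoidHom.toMultiplicative c).comp (zmodCyclicMulEquiv hcy).symm.toMonoidHom, ?_⟩
  intro y
  obtain ⟨x, hx⟩ := ZMod.ringHom_surjective (ZMod.castHom h' (ZMod (p ^ e)))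
    (Multiplicative.toAdd y)
  refine ⟨zmodCyclicMulEquiv hcy (Multiplicative.ofAdd x), ?_⟩
  rw [MonoidHom.comp_apply]
  have : (zmodCyclicMulEquiv hcy).symm.toMonoidHom (zmodCyclicMulEquiv hcy
      (Multiplicative.ofAdd x)) = Multiplicative.ofAdd x :=
    (zmodCyclicMulEquiv hcy).symm_apply_apply _
  rw [this]
  exact hx

/-- the framed data: `p`-power characters at a finite set of primes -/
structure TDat (p : ℕ) (T : Finset Nat.Primes) where
  a : T → ℕ
  κ : ∀ t : T, (ZMod ((t : Nat.Primes) : ℕ))ˣ →* Multiplicative (ZMod (p ^ a t))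
  surj : ∀ t, Function.Surjective (κ t)

theorem exists_TDat (p : ℕ) (T : Finset Nat.Primes) (a : T → ℕ)
    (h : ∀ t : T, p ^ a t ∣ ((t : Nat.Primes) : ℕ) - 1) : ∃ E : TDat p T, E.a = a := by
  choose κ hκ using fun t : T => exists_kappa (t : Nat.Primes).2 (h t)
  exact ⟨⟨a, κ, hκ⟩, rfl⟩

namespace TDat

variable {p : ℕ} {T : Finset Nat.Primes} (E : TDat p T) {N : ℕ}
  (hN : ∀ t : T, ((t : Nat.Primes) : ℕ) ∣ N)

/-- all characters together -/
def kT : (ZMod N)ˣ →* ∀ t : T, Multiplicative (ZMod (p ^ E.a t)) :=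
  MonoidHom.pi fun t => (E.κ t).comp (ZMod.unitsMap (hN t))

theorem kT_apply (u : (ZMod N)ˣ) (t : T) : E.kT hN u t = E.κ t (ZMod.unitsMap (hN t) u) := rfl

/-- the subgroup `H₀` -/
def H0 : Subgroup (ZMod N)ˣ := (E.kT hN).ker

theorem mem_H0 (u : (ZMod N)ˣ) : u ∈ E.H0 hN ↔ E.kT hN u = 1 := Iff.rfl

include E in
/-- independence of the characters -/
theorem exists_unit [NeZero N] (t : T) (M' : ℕ) (hNM : N = ((t : Nat.Primes) : ℕ) * M')
    (hc : ¬ ((t : Nat.Primes) : ℕ) ∣ M') (w : (ZMod ((t : Nat.Primes) : ℕ))ˣ) :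
    ∃ u : (ZMod N)ˣ, (M' : ℤ) ∣ ((u : ZMod N).val : ℤ) - 1 ∧ ZMod.unitsMap (hN t) u = w := by
  have ht := (t : Nat.Primes).2
  have hcop : Nat.Coprime ((t : Nat.Primes) : ℕ) M' := (Nat.Prime.coprime_iff_not_dvd ht).mpr hc
  haveI : NeZero ((t : Nat.Primes) : ℕ) := ⟨ht.ne_zero⟩
  obtain ⟨z, hz1, hz2⟩ := Nat.chineseRemainder hcop (w : ZMod ((t : Nat.Primes) : ℕ)).val 1
  have hcw : ((z : ℕ) : ZMod ((t : Nat.Primes) : ℕ)) = w := by
    rw [(ZMod.natCast_eq_natCast_iff _ _ _).mpr hz1, ZMod.natCast_zmod_val]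
  have hzc : Nat.Coprime z N := by
    rw [hNM]
    refine Nat.Coprime.mul_right ?_ ?_
    · rw [← ZMod.isUnit_iff_coprime, hcw]
      exact w.isUnit
    · have h1 : Nat.gcd z M' = Nat.gcd 1 M' := hz2.gcd_eq
      rw [Nat.gcd_one_left] at h1
      exact h1
  refine ⟨ZMod.unitOfCoprime z hzc, ?_, ?_⟩
  · rw [ZMod.coe_unitOfCoprime, ZMod.val_natCast]
    have h1 : (((z % N : ℕ) : ℕ) : ℤ) - 1 = ((z : ℤ) - 1) - N * ((z / N : ℕ) : ℤ) := by
      have := Nat.div_add_mod z N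
      have h2 : (z : ℤ) = N * ((z / N : ℕ) : ℤ) + ((z % N : ℕ) : ℤ) := by exact_mod_cast this.symm
      linarith
    rw [h1]
    refine dvd_sub ?_ ?_
    · have h3 : (z : ℤ) ≡ 1 [ZMOD M'] := by exact_mod_cast (Int.natCast_modEq_iff.mpr hz2)
      exact (Int.modEq_iff_dvd.mp h3.symm)
    · exact Dvd.dvd.mul_right (by rw [hNM]; push_cast; exact dvd_mul_left _ _) _
  · apply Units.ext
    rw [ZMod.unitsMap_val, ZMod.coe_unitOfCoprime]
    exact (ZMod.cast_natCast (hN t) _).trans hcw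

/-- the quotient is a `p`-group -/
theorem isPGroup [Fact p.Prime] : IsPGroup p (SQ N (E.H0 hN)) := by
  intro x
  obtain ⟨u, rfl⟩ := SQ.mk_surjective (E.H0 hN) x
  have h1 : ∃ n : ℕ, (E.kT hN u) ^ p ^ n = 1 := by
    refine ⟨∑ t : T, E.a t, ?_⟩
    funext t
    rw [Pi.pow_apply, Pi.one_apply]
    obtain ⟨c, hc⟩ := Nat.exists_eq_add_of_le
      (Finset.single_le_sum (f := fun t : T => E.a t) (fun _ _ => Nat.zero_le _)
        (Finset.mem_univ t))
    have h2 : (E.kT hN u t) ^ p ^ E.a t = 1 := by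
      change Multiplicative.ofAdd (p ^ E.a t • Multiplicative.toAdd (E.kT hN u t)) = 1
      rw [nsmul_eq_mul, ZMod.natCast_self, zero_mul]
      rfl
    rw [hc, pow_add, pow_mul, h2, one_pow]
  obtain ⟨n, hn⟩ := h1
  refine ⟨n, ?_⟩
  rw [← map_pow, SQ.mk_eq_one, mem_H0, map_pow, hn]

section Chi

variable {O : Type} [CommRing O] (ω : T → O) (hω : ∀ t, IsPrimitiveRoot (ω t) (p ^ E.a t))

/-- the unit `ω t` -/
def ωu [Fact p.Prime] (t : T) : Oˣ :=
  ((hω t).isUnit (pow_ne_zero _ (Fact.out : p.Prime).ne_zero)).unit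

theorem ωu_val [Fact p.Prime] (t : T) : (E.ωu ω hω t : O) = ω t := rfl

theorem ωu_pow [Fact p.Prime] (t : T) : E.ωu ω hω t ^ p ^ E.a t = 1 := by
  apply Units.ext
  rw [Units.val_pow_eq_pow_val, ωu_val, (hω t).pow_eq_one, Units.val_one]

/-- the local character -/
def χt [Fact p.Prime] (t : T) : Multiplicative (ZMod (p ^ E.a t)) →* Oˣ :=
  AddMonoidHom.toMultiplicativeLeft (ZMod.lift (p ^ E.a t)
    ⟨zmultiplesHom (Additive Oˣ) (Additive.ofMul (E.ωu ω hω t)), by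
      rw [zmultiplesHom_apply, natCast_zsmul, ← ofMul_pow, ωu_pow, ofMul_one]⟩)

theorem χt_one [Fact p.Prime] (t : T) :
    E.χt ω hω t (Multiplicative.ofAdd 1) = E.ωu ω hω t := by
  change Additive.toMul (ZMod.lift (p ^ E.a t) _ (1 : ZMod (p ^ E.a t))) = _
  have h1 : (1 : ZMod (p ^ E.a t)) = ((1 : ℤ) : ZMod (p ^ E.a t)) := by push_cast; rfl
  rw [h1, ZMod.lift_coe, zmultiplesHom_apply, one_zsmul]
  rfl

/-- the character of `(ZMod N)ˣ` -/
def χN [Fact p.Prime] : (ZMod N)ˣ →* Oˣ :=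
  ∏ t : T, ((E.χt ω hω t).comp (Pi.evalMonoidHom _ t)).comp (E.kT hN)

theorem χN_apply [Fact p.Prime] (u : (ZMod N)ˣ) :
    E.χN hN ω hω u = ∏ t : T, E.χt ω hω t (E.kT hN u t) := by
  rw [χN, MonoidHom.finsetProd_apply]
  rfl

/-- the nebentypus character -/
def χ [Fact p.Prime] : SQ N (E.H0 hN) →* Oˣ :=
  QuotientGroup.lift (E.H0 hN) (E.χN hN ω hω) (fun u hu => by
    rw [MonoidHom.mem_ker, χN_apply, (E.mem_H0 hN u).mp hu]
    refine Finset.prod_eq_one fun t _ => ?_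
    rw [Pi.one_apply, map_one])

theorem χ_mk [Fact p.Prime] (u : (ZMod N)ˣ) :
    E.χ hN ω hω (SQ.mk (E.H0 hN) u) = E.χN hN ω hω u := rfl

/-- the values are congruent to one modulo the maximal ideal -/
theorem χ_sub_one_mem [Fact p.Prime] [IsLocalRing O]
    (h1 : ∀ t, ω t - 1 ∈ IsLocalRing.maximalIdeal O) (s : SQ N (E.H0 hN)) :
    (E.χ hN ω hω s : O) - 1 ∈ IsLocalRing.maximalIdeal O := by
  obtain ⟨u, rfl⟩ := SQ.mk_surjective (E.H0 hN) s
  have key : ∀ (t : T) (x : Multiplicative (ZMod (p ^ E.a t))),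
      IsLocalRing.residue O (E.χt ω hω t x : O) = 1 := by
    intro t x
    obtain ⟨n, hn⟩ := ZMod.natCast_zmod_surjective (Multiplicative.toAdd x)
    have hx : x = (Multiplicative.ofAdd (1 : ZMod (p ^ E.a t))) ^ n := by
      have h2 : (Multiplicative.ofAdd (1 : ZMod (p ^ E.a t))) ^ n =
          Multiplicative.ofAdd (n • (1 : ZMod (p ^ E.a t))) := rfl
      rw [h2, nsmul_eq_mul, mul_one, hn]
      rfl
    rw [hx, map_pow, χt_one, Units.val_pow_eq_pow_val, ωu_val, map_pow]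
    have h3 : IsLocalRing.residue O (ω t) = 1 := by
      rw [← sub_eq_zero, ← map_one (IsLocalRing.residue O), ← map_sub,
        IsLocalRing.residue_eq_zero_iff]
      exact h1 t
    rw [h3, one_pow]
  rw [← IsLocalRing.residue_eq_zero_iff, map_sub, map_one, sub_eq_zero, χ_mk, χN_apply,
    Units.coe_prod, map_prod]
  exact Finset.prod_eq_one fun t _ => key t _

end Chi

/-- the product of the framed primes -/
def _root_.Fermat.Agent.H12.LL.Q0 (T : Finset Nat.Primes) : ℕ := ∏ t ∈ T, (t : ℕ)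

theorem _root_.Fermat.Agent.H12.LL.Q0_pos (T : Finset Nat.Primes) : 0 < Q0 T :=
  Finset.prod_pos fun t _ => t.2.pos

theorem _root_.Fermat.Agent.H12.LL.prime_dvd_Q0 {T : Finset Nat.Primes} {q : ℕ} (hq : q.Prime)
    (h : q ∣ Q0 T) : ∃ t ∈ T, (t : ℕ) = q := by
  obtain ⟨t, ht, hd⟩ := (Prime.dvd_finsetProd_iff hq.prime _).mp h
  exact ⟨t, ht, ((Nat.prime_dvd_prime_iff_eq hq t.2).mp hd).symm⟩

theorem _root_.Fermat.Agent.H12.LL.dvd_Q0 {T : Finset Nat.Primes} {t : Nat.Primes} (ht : t ∈ T) :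
    (t : ℕ) ∣ Q0 T := Finset.dvd_prod_of_mem (fun t : Nat.Primes => (t : ℕ)) ht

theorem _root_.Fermat.Agent.H12.LL.squarefree_Q0 (T : Finset Nat.Primes) : Squarefree (Q0 T) := by
  refine Finset.squarefree_prod_of_pairwise_isCoprime ?_ fun t _ => t.2.squarefree
  intro s _ t _ hst
  refine Nat.coprime_iff_isRelPrime.mp ((Nat.coprime_primes s.2 t.2).mpr fun h => hst ?_)
  exact Subtype.ext h

/-- the conductor condition -/
theorem condHyp {M₀ : ℕ} (hNM : N = Q0 T * M₀) (hcop : Nat.Coprime (Q0 T) M₀) [NeZero N] :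
    CondHyp (E.H0 hN) (Q0 T) M₀ where
  hN := hNM
  hsq := squarefree_Q0 T
  hcop := hcop
  hH := by
    intro u hu
    rw [mem_H0]
    funext t
    rw [kT_apply]
    have h1 : ZMod.unitsMap (hN t) u = 1 := by
      have h2 : ((t : Nat.Primes) : ℕ) ∣ Q0 T := dvd_Q0 t.2
      have h3 := unitsMap_trans h2 (Dvd.intro M₀ hNM.symm) u
      rw [hu, map_one] at h3
      exact h3
    rw [h1, map_one]
    rfl

/-- the nebentypus is ramified at every framed prime -/
theorem exists_χ_ne [Fact p.Prime] {O : Type} [CommRing O] (ω : T → O)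
    (hω : ∀ t, IsPrimitiveRoot (ω t) (p ^ E.a t)) [Nontrivial O] (ha : ∀ t, 1 ≤ E.a t)
    {M₀ : ℕ} (hNM : N = Q0 T * M₀) (hcop : Nat.Coprime (Q0 T) M₀) [NeZero N]
    {q b : ℕ} (hq : q.Prime) (hb : Q0 T = q * b) :
    ∃ u : (ZMod N)ˣ, ((u : ZMod N).val : ZMod b) = 1 ∧
      E.χ hN ω hω (SQ.mk (E.H0 hN) u) ≠ 1 := by
  obtain ⟨t', ht', htq⟩ := prime_dvd_Q0 hq ⟨b, hb⟩
  obtain ⟨t, rfl⟩ : ∃ t : T, (t : Nat.Primes) = t' := ⟨⟨t', ht'⟩, rfl⟩
  subst htq
  have hsq := squarefree_Q0 T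
  rw [hb] at hsq
  have hcb : ¬ ((t : Nat.Primes) : ℕ) ∣ b := by
    intro h
    have h1 := (Nat.squarefree_mul_iff.mp hsq).1
    exact (Nat.Prime.coprime_iff_not_dvd hq).mp h1 h
  have hc : ¬ ((t : Nat.Primes) : ℕ) ∣ b * M₀ := by
    intro h
    rcases (Nat.Prime.dvd_mul hq).mp h with h | h
    · exact hcb h
    · have h2 : Nat.Coprime ((t : Nat.Primes) : ℕ) M₀ :=
        Nat.Coprime.coprime_dvd_left (dvd_Q0 t.2) hcop
      exact (Nat.Prime.coprime_iff_not_dvd hq).mp h2 h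
  obtain ⟨w, hw⟩ := E.surj t (Multiplicative.ofAdd 1)
  obtain ⟨u, hu1, hu2⟩ := E.exists_unit hN t (b * M₀) (by rw [hNM, hb, mul_assoc]) hc w
  refine ⟨u, ?_, ?_⟩
  · rw [val_eq_one_iff]
    exact (by push_cast; exact dvd_mul_right _ _ : (b : ℤ) ∣ ((b * M₀ : ℕ) : ℤ)).trans hu1
  · rw [χ_mk, χN_apply, Finset.prod_eq_single t]
    · rw [kT_apply, hu2, hw, χt_one]
      intro h
      have h1 := congrArg Units.val h
      rw [ωu_val, Units.val_one] at h1
      have h2 := hω t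
      rw [h1] at h2
      have h3 := h2.eq_orderOf
      rw [orderOf_one] at h3
      have h4 : 1 < p ^ E.a t :=
        Nat.one_lt_pow (Nat.one_le_iff_ne_zero.mp (ha t)) (Fact.out : p.Prime).one_lt
      omega
    · intro s _ hs
      have h1 : ZMod.unitsMap (hN s) u = 1 := by
        have hsd : ((s : Nat.Primes) : ℕ) ∣ b * M₀ := by
          have h2 : ((s : Nat.Primes) : ℕ) ∣ ((t : Nat.Primes) : ℕ) * b := by
            rw [← hb]; exact dvd_Q0 s.2
          rcases (Nat.Prime.dvd_mul (s : Nat.Primes).2).mp h2 with h3 | h3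
          · exfalso
            apply hs
            exact Subtype.ext (Subtype.ext
              ((Nat.prime_dvd_prime_iff_eq (s : Nat.Primes).2 (t : Nat.Primes).2).mp h3))
          · exact h3.mul_right _
        rw [unitsMap_eq_one_iff]
        exact (Int.natCast_dvd_natCast.mpr hsd).trans hu1
      rw [kT_apply, h1, map_one, map_one]
    · intro h; exact absurd (Finset.mem_univ t) h

end TDat

end Fermat.Agent.H12.LL
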