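import Mathlib
import Fermat.Agent.H12.LL.Lev1
import Fermat.Agent.H12.LL.RDW2
import Fermat.Agent.H12.LL.Cliff2

/-!
# Taylor-Wiles levels: hypotheses of `TC`
-/

set_option autoImplicit false
set_option linter.unusedSectionVars false
set_option linter.style.haveILetI false

noncomputable section

namespace Fermat.Agent.H12.LL

open Fermat.Agent.TC Fermat.Agent.TW Fermat.Agent.CC Fermat.Agent.H25.GE Fermat.Agent.H25.TR
open Fermat.Agent.Ell Fermat.Agent.H25 Fermat.Agent.H25.PR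
open IsLocalRing CongruenceSubgroup Matrix
open ModularFormClass (qCoeff)

theorem isPrimitiveRoot_residue {O : Type*} [CommRing O] [IsDomain O] [IsLocalRing O] {m : ℕ}
    (hm : IsUnit (m : O)) {ω : O} (h : IsPrimitiveRoot ω m) :
    IsPrimitiveRoot (residue O ω) m := by
  refine ⟨by rw [← map_pow, h.pow_eq_one, map_one], fun l hl => ?_⟩
  apply h.dvd_of_pow_eq_one
  by_contra hne
  have h1 : (∑ i ∈ Finset.range m, (ω ^ l) ^ i) * (ω ^ l - 1) = 0 := by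
    rw [geom_sum_mul, ← pow_mul, mul_comm, pow_mul, h.pow_eq_one, one_pow, sub_self]
  have h2 : ∑ i ∈ Finset.range m, (ω ^ l) ^ i = 0 :=
    (mul_eq_zero.mp h1).resolve_right (sub_ne_zero.mpr hne)
  have h3 := congrArg (residue O) h2
  rw [map_sum, map_zero] at h3
  simp only [map_pow] at h3
  rw [hl] at h3
  simp only [one_pow, Finset.sum_const, Finset.card_range, nsmul_eq_mul, mul_one] at h3
  rw [← map_natCast (residue O), residue_eq_zero_iff] at h3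
  exact h3 hm

/-- the numerical data at the framed primes -/
theorem exists_FrT {p : ℕ} (hp : p.Prime) (T : Finset Nat.Primes)
    (hT : ∀ t ∈ T, (t : ℕ) ≡ 1 [MOD p]) :
    ∃ A : ℕ, ∀ (O : Type) [CommRing O] (m : ℕ) (ω : O), IsPrimitiveRoot ω m → m ≠ 0 →
      p ^ A ∣ m → Nonempty (Sys.FrT O p (fun t : T => (t : Nat.Primes))) := by
  have h1 : ∀ t : T, ∃ a u : ℕ, ((t : Nat.Primes) : ℕ) = 1 + p ^ a * u ∧ 1 ≤ a ∧ ¬ p ∣ u := by
    intro t
    have ht := (t : Nat.Primes).2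
    have hne : ((t : Nat.Primes) : ℕ) - 1 ≠ 0 := by
      have := ht.two_le
      omega
    obtain ⟨e, u, hu, he⟩ := Nat.exists_eq_pow_mul_and_not_dvd hne p hp.one_lt.ne'
    refine ⟨e, u, by omega, ?_, hu⟩
    by_contra h0
    have h0' : e = 0 := by omega
    rw [h0', pow_zero, one_mul] at he
    apply hu
    rw [← he]
    exact (Nat.modEq_iff_dvd' ht.one_le).mp (hT _ t.2).symm
  choose a u h2 h3 h4 using h1
  refine ⟨∑ t : T, a t, fun O _ m ω hω hm hd => ?_⟩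
  have h5 : ∀ t : T, p ^ a t ∣ m := fun t =>
    (pow_dvd_pow p (Finset.single_le_sum (f := a) (fun _ _ => Nat.zero_le _)
      (Finset.mem_univ t))).trans hd
  exact ⟨{ a := a, u := u, ω := fun t => ω ^ (m / p ^ a t), hq := h2, ha := h3, hu := h4,
           hω := fun t => hω.pow (Nat.pos_of_ne_zero hm) (Nat.div_mul_cancel (h5 t)).symm }⟩

/-- the hypothesis (K2): existence of killers -/
def Kill (W : WeierstrassCurve ℤ) (p : ℕ) : Prop :=
  ∀ (k : Type) [Field k] (ι : ZMod p →+* k) (D : ℕ), D ≠ 0 →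
    (∀ ℓ : Pr D, W.IsGoodPrimeFor ℓ ∧ (ℓ : ℕ) ≠ p) →
    ∀ (L : ℕ) (_ : NeZero L) (g : CuspForm (Gamma0 L) 2), g.IsNewform →
    ∀ q : ℕ, q.Prime → q ≠ p → q ∣ L → ¬ q ^ 2 ∣ L → W.IsGoodPrimeFor q →
      ((W.apOfModel q : ℤ) : ZMod p) ^ 2 ≠ ((q : ZMod p) + 1) ^ 2 →
      ∃ s : MvPolynomial (Pr D) ℤ, MvPolynomial.aeval (fun ℓ : Pr D => qCoeff g ℓ) s = 0 ∧
        MvPolynomial.aeval (fun ℓ : Pr D => ι ((W.apOfModel ℓ : ℤ) : ZMod p)) s ≠ 0

section

variable {W : WeierstrassCurve ℤ} {p : ℕ} [hp : Fact p.Prime]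
  (hΔ : W.Δ ≠ 0) (hirr : W.ModRepIsIrreducible p) (hp2 : p ≠ 2)
  {O : Type} [CommRing O] [IsLocalRing O] [Algebra ℤ_[p] O] [IsLocalHom (algebraMap ℤ_[p] O)]

variable (W O) in
/-- the residual system -/
def aW (D₀ : ℕ) (ℓ : Pr D₀) : ResidueField O := ((W.apOfModel ℓ : ℤ) : ResidueField O)

theorem good_of_Pr {D₀ : ℕ} (hD₀ : ∀ q : ℕ, q.Prime → (q : ℤ) ∣ W.Δ → q ∣ D₀) (ℓ : Pr D₀) :
    W.IsGoodPrimeFor ℓ := fun h => ℓ.2.2 (hD₀ ℓ ℓ.2.1 h)

theorem exists_TWCore {n r : ℕ} (qv : Fin r → ℕ) (hinj : Function.Injective qv)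
    (hqv : ∀ j, TWData.IsTW p n (RDW hΔ hirr hp2 O).rbar (chiB hΔ hirr hp2 O) (qv j)) :
    ∃ c : TWCore p r, c.q = qv ∧ (∀ j, n ≤ c.e j) ∧
      ∀ j, ∃ u : ℕ, qv j - 1 = p ^ c.e j * u ∧ ¬ p ∣ u := by
  have hp0 : 1 < p := hp.out.one_lt
  have h1 : ∀ j, ∃ e u : ℕ, n ≤ e ∧ (qv j - 1 = p ^ e * u) ∧ ¬ p ∣ u := by
    intro j
    have hne : qv j - 1 ≠ 0 := by
      have := (hqv j).1.two_le
      omega
    obtain ⟨e, u, hu, he⟩ := Nat.exists_eq_pow_mul_and_not_dvd hne p hp0.ne'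
    refine ⟨e, u, ?_, he, hu⟩
    have h2 := (hqv j).2.1
    rw [he] at h2
    have h3 : p ^ n ∣ p ^ e := (Nat.Coprime.pow_left n
      ((Nat.Prime.coprime_iff_not_dvd hp.out).mpr hu)).dvd_of_dvd_mul_right h2
    exact (Nat.pow_dvd_pow_iff_le_right hp0).mp h3
  choose e u hne he hu using h1
  choose κ hκ using fun j => exists_kappa (p := p) (e := e j) (hqv j).1 ⟨u j, he j⟩
  exact ⟨⟨qv, fun j => (hqv j).1, hinj, e, κ, hκ⟩, rfl, hne, fun j => ⟨u j, he j, hu j⟩⟩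

variable (hk : Kill W p) {S : Finset Nat.Primes}
  (hTW : TWData p S (RDW hΔ hirr hp2 O).rbar (chiB hΔ hirr hp2 O))

include hk hTW in
/-- **The Taylor-Wiles hypotheses.** -/
theorem exists_TWHyp [Finite (ResidueField O)] [IsDomain O] [IsDiscreteValuationRing O]
    [IsAdicComplete (maximalIdeal O) O] {ζ : ResidueField O} (hζ : IsPrimitiveRoot ζ (p ^ 2 - 1)) {n : ℕ} (hn : n ≠ 0)
    {D₀ : ℕ} (hD₀ : D₀ ≠ 0) (hpD₀ : p ∣ D₀)
    (hΔD₀ : ∀ q : ℕ, q.Prime → (q : ℤ) ∣ W.Δ → q ∣ D₀)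
    {r : ℕ} (c : TWCore p r)
    (hqv : ∀ j, TWData.IsTW p n (RDW hΔ hirr hp2 O).rbar (chiB hΔ hirr hp2 O) (c.q j))
    (hqD : ∀ j, ¬ c.q j ∣ D₀) :
    ∃ α : Fin r → ResidueField O, ∀ {N M : ℕ} [NeZero N] [NeZero M] (hM : M = N * ∏ j, c.q j)
      (hnd : ∀ j, ¬ c.q j ∣ N), N ∣ D₀ →
      TWHyp O (aW W O D₀) (c.Q hM hnd) α (D₀ * ∏ j, c.q j) (dvd_mul_right _ _) := by
  haveI := charP_res p O
  letI : Algebra (ZMod p) (ResidueField O) := ZMod.algebra _ p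
  have hpD : ∀ ℓ : Pr D₀, (ℓ : ℕ) ≠ p := fun ℓ h => ℓ.2.2 (by rw [h]; exact hpD₀)
  have hgood : ∀ ℓ : Pr D₀, W.IsGoodPrimeFor ℓ := good_of_Pr hΔD₀
  have hι : ∀ z : ℤ, algebraMap (ZMod p) (ResidueField O) (z : ZMod p) =
      (z : ResidueField O) := fun z => map_intCast _ z
  have hprod0 : ∏ j, c.q j ≠ 0 := Finset.prod_ne_zero_iff.mpr fun j _ => (c.prime j).ne_zero
  -- the Taylor-Wiles primes
  have hqp : ∀ j, c.q j ≠ p := fun j h => hqD j (by rw [h]; exact hpD₀)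
  have hqgood : ∀ j, W.IsGoodPrimeFor (c.q j) := fun j h => hqD j (hΔD₀ _ (c.prime j) h)
  have hcong : ∀ j, ((c.q j : ℕ) : ResidueField O) = 1 := by
    intro j
    have h3 : p ∣ c.q j - 1 := (dvd_pow_self p hn).trans (hqv j).2.1
    have h4 : ((c.q j - 1 : ℕ) : ResidueField O) = 0 :=
      (CharP.cast_eq_zero_iff (ResidueField O) p _).mpr h3
    rw [Nat.cast_sub (c.prime j).one_lt.le, sub_eq_zero] at h4
    rw [h4, Nat.cast_one]
  have htr : ∀ j, ((W.apOfModel (c.q j) : ℤ) : ResidueField O) ^ 2 ≠ 4 := by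
    intro j
    have h1 := ((hqv j).2.2 _ (plv_over _ (c.prime j)) _ (frv_spec (c.q j) (c.prime j))).2
    rwa [RD.trace_rbar, RDW_tbar_frob hΔ hirr hp2 (c.prime j) (hqgood j) (hqp j)
      (plv_over _ (c.prime j)) (frv_spec (c.q j) (c.prime j))] at h1
  have hα : ∀ j, ∃ α β : ResidueField O, α * β = 1 ∧
      ((W.apOfModel (c.q j) : ℤ) : ResidueField O) = α + β ∧ α ≠ β := by
    intro j
    obtain ⟨α, β, h1, h2⟩ := exists_split (p := p) hζ ((W.apOfModel (c.q j) : ℤ) : ZMod p) 1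
    rw [hι] at h1
    rw [map_one] at h2
    refine ⟨α, β, h2, h1.symm, fun h3 => htr j ?_⟩
    rw [← h1, h3]
    rw [h3] at h2
    linear_combination 4 * h2
  choose α β hαβ hαβ' hne using hα
  refine ⟨α, fun {N M} _ _ hM hnd hND => ?_⟩
  have hMD : M ∣ D₀ * ∏ j, c.q j := by rw [hM]; exact mul_dvd_mul_right hND _
  have hM0 : M ≠ 0 := NeZero.ne M
  refine ⟨mul_ne_zero hD₀ hprod0, hMD, hqD, hcong, fun j => ⟨β j, hαβ j, hαβ' j, hne j⟩, ?_, ?_⟩
  · intro L hL g hLM ⟨j, hj⟩ hg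
    have hsq : ¬ c.q j ^ 2 ∣ L := by
      intro h
      have h1 : c.q j ^ 2 ∣ N * ∏ i, c.q i := by rw [← hM]; exact h.trans hLM
      rw [← Finset.mul_prod_erase Finset.univ c.q (Finset.mem_univ j), pow_two,
        mul_left_comm, Nat.mul_dvd_mul_iff_left (c.prime j).pos,
        (c.prime j).prime.dvd_mul, Prime.dvd_finsetProd_iff (c.prime j).prime] at h1
      rcases h1 with h1 | ⟨i, hi, h1⟩
      · exact hnd j h1
      · have h2 := (Nat.prime_dvd_prime_iff_eq (c.prime j) (c.prime i)).mp h1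
        exact Finset.ne_of_mem_erase hi (c.inj h2).symm
    obtain ⟨s, hs1, hs2⟩ := hk (ResidueField O) (algebraMap (ZMod p) (ResidueField O))
      (D₀ * ∏ j, c.q j) (mul_ne_zero hD₀ hprod0)
      (fun ℓ => ⟨hgood (prI (dvd_mul_right _ _) ℓ), hpD (prI (dvd_mul_right _ _) ℓ)⟩) L hL g hg
      (c.q j) (c.prime j) (hqp j) hj hsq (hqgood j) (by
        intro h
        apply htr j
        have h1 := congrArg (algebraMap (ZMod p) (ResidueField O)) h
        rw [map_pow, hι, map_pow, map_add, map_one, map_natCast, hcong j] at h1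
        rw [h1]; norm_num)
    refine ⟨s, hs1, ?_⟩
    have h2 : (fun ℓ : Pr (D₀ * ∏ j, c.q j) =>
        algebraMap (ZMod p) (ResidueField O) ((W.apOfModel ℓ : ℤ) : ZMod p)) =
        fun ℓ : Pr (D₀ * ∏ j, c.q j) => aW W O D₀ (prI (dvd_mul_right _ _) ℓ) := by
      funext ℓ
      exact hι _
    rw [← h2]
    exact hs2
  · have hm : p * (M * M) ≠ 0 := mul_ne_zero hp.out.ne_zero (mul_ne_zero hM0 hM0)
    obtain ⟨q, hq, hqT, hqm, A, hA, φ, hφ, h1, h4⟩ := exists_prime_of_TWData hTW hm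
      (dvd_mul_right _ _) ((D₀ * ∏ j, c.q j).primeFactors ∪ (p * (M * M)).primeFactors)
      Finset.subset_union_right
    have hqD' : ¬ q ∣ D₀ * ∏ j, c.q j := fun h => hqT (Finset.mem_union_left _
      (Nat.mem_primeFactors.mpr ⟨hq, h, mul_ne_zero hD₀ hprod0⟩))
    refine ⟨⟨q, hq, hqD'⟩, ?_, ?_⟩
    · have h5 : M * M ∣ q - 1 := (dvd_mul_left _ _).trans hqm
      have h6 : ((q : ℕ) : ℤ) - 1 = ((q - 1 : ℕ) : ℤ) := by
        rw [Nat.cast_sub hq.one_lt.le, Nat.cast_one]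
      change ((M * M : ℕ) : ℤ) ∣ ((q : ℕ) : ℤ) - 1
      rw [h6]
      exact Int.natCast_dvd_natCast.mpr h5
    · intro h5
      apply h4
      have h7 : (RDW hΔ hirr hp2 O).tbar φ = ((W.apOfModel q : ℤ) : ResidueField O) :=
        RDW_tbar_frob hΔ hirr hp2 hq (hgood ⟨q, hq, fun h => hqD' (h.mul_right _)⟩)
          (hpD ⟨q, hq, fun h => hqD' (h.mul_right _)⟩) hA hφ
      have h8 : ((W.apOfModel q : ℤ) : ResidueField O) = ((q : ℕ) : ResidueField O) + 1 := h5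
      have h9 : ((q : ℕ) : ResidueField O) = 1 := by
        have h10 : p ∣ q - 1 := (dvd_mul_right _ _).trans hqm
        have h11 : ((q - 1 : ℕ) : ResidueField O) = 0 :=
          (CharP.cast_eq_zero_iff (ResidueField O) p _).mpr h10
        rw [Nat.cast_sub hq.one_lt.le, sub_eq_zero] at h11
        rw [h11, Nat.cast_one]
      rw [RD.trace_rbar, h7, h8, h9]
      norm_num

end

end Fermat.Agent.H12.LL
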