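import Mathlib
import Fermat.Agent.TC.Sys5
import Fermat.Agent.H12.LL.Lev2

/-!
# Level lowering: the Taylor-Wiles base data and the components attached to a curve
-/

set_option autoImplicit false
set_option linter.unusedSectionVars false
set_option linter.style.haveILetI false

noncomputable section

namespace Fermat.Agent.H12.LL

open Fermat.Agent.TC Fermat.Agent.TW Fermat.Agent.CC Fermat.Agent.H25.GE Fermat.Agent.H25.TR
open Fermat.Agent.Ell Fermat.Agent.H25 Fermat.Agent.H25.PR Fermat.Agent.H25.PT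
open Fermat.Agent.H22
open IsLocalRing CongruenceSubgroup Matrix
open ModularFormClass (qCoeff)

section

variable {W : WeierstrassCurve ℤ} {p : ℕ} [hp : Fact p.Prime]
  (hΔ : W.Δ ≠ 0) (hirr : W.ModRepIsIrreducible p) (hp2 : p ≠ 2)
  {O : Type} [CommRing O] [IsLocalRing O] [Algebra ℤ_[p] O] [IsLocalHom (algebraMap ℤ_[p] O)]

theorem RDW_isCyc : IsCyc p (RDW hΔ hirr hp2 O).chi := fun n σ a ha =>
  RDW_chi_cyc hΔ hirr hp2 n σ a ha

theorem RDW_hc : (RDW hΔ hirr hp2 O).chi (RDW hΔ hirr hp2 O).c = -1 := by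
  rw [RDW_c, RDW_chi, det_conj hΔ hirr, map_neg, map_one]

/-- the conditions on Taylor–Wiles data at depth `n` -/
structure TWOk (S : Finset Nat.Primes) (D₀ n : ℕ) {r : ℕ} (c : TWCore p r) : Prop where
  le : ∀ j, n ≤ c.e j
  ex : ∀ j, ∃ u : ℕ, c.q j - 1 = p ^ c.e j * u ∧ ¬ p ∣ u
  tw : ∀ j, TWData.IsTW p (n + 1) (RDW hΔ hirr hp2 O).rbar (chiB hΔ hirr hp2 O) (c.q j)
  nd : ∀ j, ¬ c.q j ∣ D₀
  nS : ∀ j, (⟨c.q j, c.prime j⟩ : Nat.Primes) ∉ S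

/-- the primes of a Taylor–Wiles datum -/
def cqv {r : ℕ} (c : TWCore p r) (j : Fin r) : Nat.Primes := ⟨c.q j, c.prime j⟩

variable {hΔ hirr hp2}

theorem TWOk.twd {S : Finset Nat.Primes} {D₀ n r : ℕ} {c : TWCore p r}
    (h : TWOk (O := O) hΔ hirr hp2 S D₀ n c) {ζ : ResidueField O}
    (hζ : IsPrimitiveRoot ζ (p ^ 2 - 1)) (hS : ∀ q : Nat.Primes, q ∉ S → UnrAt W p q) :
    TWD (RDW hΔ hirr hp2 O) p (fun j => (⟨c.q j, c.prime j⟩ : Nat.Primes)) c.e := by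
  obtain ⟨e, -, h1⟩ := RDW_TWD hΔ hirr hp2 hζ (n := n + 1) (Nat.succ_ne_zero n)
    (fun j => (⟨c.q j, c.prime j⟩ : Nat.Primes)) (fun j => hS _ (h.nS j)) h.tw
  exact { h1 with hqe := h.ex }

end

section

variable {W : WeierstrassCurve ℤ} {p : ℕ} [hp : Fact p.Prime]
  (hΔ : W.Δ ≠ 0) (hirr : W.ModRepIsIrreducible p) (hp2 : p ≠ 2)
  (O : Type) [CommRing O] [IsDomain O] [IsDiscreteValuationRing O]
  [IsAdicComplete (maximalIdeal O) O] [Algebra ℤ_[p] O] [IsLocalHom (algebraMap ℤ_[p] O)]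

/-- **Base data** attached to a curve, with all choices made. -/
structure FIn where
  S : Finset Nat.Primes
  hS : ∀ q : Nat.Primes, q ∉ S → UnrAt W p q
  D₀ : ℕ
  hD₀ : D₀ ≠ 0
  hpD₀ : p ∣ D₀
  hΔD₀ : ∀ q : ℕ, q.Prime → (q : ℤ) ∣ W.Δ → q ∣ D₀
  ζ : ResidueField O
  hζ : IsPrimitiveRoot ζ (p ^ 2 - 1)
  hk : Kill W p
  hTW : TWData p S (RDW hΔ hirr hp2 O).rbar (chiB hΔ hirr hp2 O)
  Ge : Geo p
  r : ℕ
  c : ℕ → TWCore p r
  hc : ∀ n, TWOk (O := O) hΔ hirr hp2 S D₀ n (c n)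

variable {hΔ hirr hp2 O}

namespace FIn

variable (I : FIn hΔ hirr hp2 O)

/-- the level of the residual system at depth `n` -/
def Dn (n : ℕ) : ℕ := I.D₀ * ∏ j, (I.c n).q j

theorem dvd_Dn (n : ℕ) : I.D₀ ∣ I.Dn n := dvd_mul_right _ _

theorem Dn_ne (n : ℕ) : I.Dn n ≠ 0 := mul_ne_zero I.hD₀
  (Finset.prod_ne_zero_iff.mpr fun j _ => ((I.c n).prime j).ne_zero)

/-- the sets of primes -/
def Sn (n : ℕ) : Finset Nat.Primes :=
  I.S ∪ Finset.univ.image (fun j => (⟨(I.c n).q j, (I.c n).prime j⟩ : Nat.Primes))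

theorem unr_Sn (n : ℕ) (q : Nat.Primes) (h : q ∉ I.Sn n) : UnrAt W p q :=
  I.hS q fun h' => h (Finset.mem_union_left _ h')

variable [Finite (ResidueField O)]

theorem exists_α (n : ℕ) : ∃ α : Fin I.r → ResidueField O, ∀ {N M : ℕ} [NeZero N] [NeZero M]
      (hM : M = N * ∏ j, (I.c n).q j) (hnd : ∀ j, ¬ (I.c n).q j ∣ N), N ∣ I.D₀ →
      TWHyp O (aW W O I.D₀) ((I.c n).Q hM hnd) α (I.Dn n) (I.dvd_Dn n) :=
  exists_TWHyp hΔ hirr hp2 I.hk I.hTW I.hζ (n := n + 1) (Nat.succ_ne_zero n) I.hD₀ I.hpD₀ I.hΔD₀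
    (I.c n) (I.hc n).tw (I.hc n).nd

/-- the eigenvalues -/
def α (n : ℕ) : Fin I.r → ResidueField O := (I.exists_α n).choose

theorem α_spec (n : ℕ) {N M : ℕ} [NeZero N] [NeZero M]
      (hM : M = N * ∏ j, (I.c n).q j) (hnd : ∀ j, ¬ (I.c n).q j ∣ N) (h : N ∣ I.D₀) :
      TWHyp O (aW W O I.D₀) ((I.c n).Q hM hnd) (I.α n) (I.Dn n) (I.dvd_Dn n) :=
  (I.exists_α n).choose_spec hM hnd h

variable (K : Type) [Field K] [Algebra O K]

/-- **The Taylor–Wiles base attached to a curve.** -/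
@[reducible] def F : TWBase O K p I.r where
  D := RDW hΔ hirr hp2 O
  hres := RDW_res hΔ hirr hp2
  Ge := I.Ge
  hchi := RDW_isCyc hΔ hirr hp2
  hc := RDW_hc hΔ hirr hp2
  D₀ := I.D₀
  a := aW W O I.D₀
  ha := fun ℓ A hA φ hφ => RDW_tbar_frob hΔ hirr hp2 ℓ.2.1 (good_of_Pr I.hΔD₀ ℓ)
    (fun h => ℓ.2.2 (by rw [h]; exact I.hpD₀)) hA hφ
  c := I.c
  α := I.α
  Dn := I.Dn
  hD := I.dvd_Dn
  hTWD := fun n => (I.hc n).twd I.hζ I.hS
  S := I.Sn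
  bad := fun n => (I.Dn n * p).primeFactors
  hbar := fun n => RDW_hbar hΔ hirr hp2 (I.unr_Sn n)
  hbad := fun n _ hℓ h => Nat.mem_primeFactors.mpr ⟨hℓ, h, mul_ne_zero (I.Dn_ne n) hp.out.ne_zero⟩
  S₀ := I.S
  bad₀ := (I.D₀ * p).primeFactors
  hbar₀ := RDW_hbar hΔ hirr hp2 I.hS
  hbad₀ := fun _ hℓ h => Nat.mem_primeFactors.mpr ⟨hℓ, h, mul_ne_zero I.hD₀ hp.out.ne_zero⟩
  unr₀ := fun n j => (I.hc n).nS j

/-- **A component**, at an arbitrary level `N ∣ D₀`. -/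
@[reducible] def cmp {N : ℕ} [NeZero N] (H₀ : Subgroup (ZMod N)ˣ) {Q₀ M₀ : ℕ}
    (B : BaseHyp O H₀ p) (C : CondHyp H₀ Q₀ M₀) (hND : N ∣ I.D₀)
    (hd : rk O N (aW W O I.D₀) ≠ 0) (hNS : ∀ q : Nat.Primes, (q : ℕ) ∣ N * p → q ∈ I.S) :
    Cmp (I.F K) where
  N := N
  H₀ := H₀
  Q₀ := Q₀
  M₀ := M₀
  B := B
  C := C
  hND := hND
  hd := hd
  M := fun n => N * ∏ j, (I.c n).q j
  nzM := fun n => ⟨mul_ne_zero (NeZero.ne N)
    (Finset.prod_ne_zero_iff.mpr fun j _ => ((I.c n).prime j).ne_zero)⟩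
  hM := fun _ => rfl
  hnd := fun n j h => (I.hc n).nd j (h.trans hND)
  T := fun n =>
    haveI : NeZero (N * ∏ j, (I.c n).q j) := ⟨mul_ne_zero (NeZero.ne N)
      (Finset.prod_ne_zero_iff.mpr fun j _ => ((I.c n).prime j).ne_zero)⟩
    I.α_spec n rfl (fun j h => (I.hc n).nd j (h.trans hND)) hND
  hS := fun n q h => by
    rcases (Nat.Prime.dvd_mul q.2).mp h with h | h
    · rcases (Nat.Prime.dvd_mul q.2).mp h with h | h
      · exact Finset.mem_union_left _ (hNS q (h.mul_right p))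
      · obtain ⟨j, -, hj⟩ := (Prime.dvd_finsetProd_iff q.2.prime _).mp h
        refine Finset.mem_union_right _ (Finset.mem_image.mpr ⟨j, Finset.mem_univ j, ?_⟩)
        exact Subtype.ext ((Nat.prime_dvd_prime_iff_eq q.2 ((I.c n).prime j)).mp hj).symm
    · exact Finset.mem_union_left _ (hNS q (h.mul_left N))
  hS₀ := hNS

end FIn

end

end Fermat.Agent.H12.LL
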