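import Mathlib
import Fermat.Agent.H12.LL.Lev3

/-!
# Level lowering: the core
-/

set_option autoImplicit false
set_option linter.unusedSectionVars false
set_option linter.style.haveILetI false

noncomputable section

namespace Fermat.Agent.H12.LL

open Fermat.Agent.TC Fermat.Agent.TW Fermat.Agent.CC Fermat.Agent.H25.GE Fermat.Agent.H25.TR
open Fermat.Agent.Ell Fermat.Agent.H25 Fermat.Agent.H25.PR Fermat.Agent.H25.PT
open Fermat.Agent.H22
open IsLocalRing CongruenceSubgroup Matrix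
open ModularFormClass (qCoeff)

/-- The Selmer bound for all families of components satisfying the local condition `Pc` at `p` and
unipotent at the primes of `S` different from `p` and outside `T`. -/
def SelOut {O k : Type} [CommRing O] [IsLocalRing O] [IsNoetherianRing O]
    [IsAdicComplete (maximalIdeal O) O] [Field k] [Finite k] (D : RD O k) (p : ℕ)
    (Pc : ∀ {S' : Finset Nat.Primes} {bad : Finset ℕ}, CData D S' bad → Prop)
    (S T : Finset Nat.Primes) (r : ℕ) (qv : Fin r → Nat.Primes) : Prop :=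
  ∀ (κ : Type) [Finite κ] [Nonempty κ] (bad : Finset ℕ)
    (H : κ → CData D (S ∪ Finset.univ.image qv) bad)
    (hbar : HBar D (S ∪ Finset.univ.image qv)), (∀ i, Pc (H i)) →
    (∀ i x (q : Nat.Primes), q ∈ S → q ∉ T → (q : ℕ) ≠ p → ∀ A : ValuationSubring Qb,
      A.LiesOverPrime (q : ℕ) → ∀ σ ∈ A.inertiaSubgroupIn ℚ, (H i).t x σ = 2) →
    SelB H hbar r (fun t : T => (t : Nat.Primes))

section

variable {W : WeierstrassCurve ℤ} {p : ℕ} [hp : Fact p.Prime]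
  {hΔ : W.Δ ≠ 0} {hirr : W.ModRepIsIrreducible p} {hp2 : p ≠ 2}
  {O : Type} [CommRing O] [IsDomain O] [IsDiscreteValuationRing O]
  [IsAdicComplete (maximalIdeal O) O] [Algebra ℤ_[p] O] [IsLocalHom (algebraMap ℤ_[p] O)]
  [Finite (ResidueField O)] [CharZero O] (I : FIn hΔ hirr hp2 O)
  (K : Type) [Field K] [IsAlgClosed K] [Algebra O K] [FaithfulSMul O K]

/-- **Level lowering: the core.** -/
theorem FIn.core
    (Pc : ∀ {S' : Finset Nat.Primes} {bad : Finset ℕ},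
      CData (RDW hΔ hirr hp2 O) S' bad → Prop)
    (hpO : (p : O) ∈ maximalIdeal O)
    {T : Finset Nat.Primes} (Q₁ : Sys.FrT O p (fun t : T => (t : Nat.Primes)))
    (hSel : ∀ n, SelOut (RDW hΔ hirr hp2 O) p Pc I.S T I.r
      (fun j => ⟨(I.c n).q j, (I.c n).prime j⟩))
    {M₀ : ℕ} (hsq : Squarefree M₀) (hcop : Nat.Coprime (Q0 T) M₀)
    (hPc : ∀ X : Cmp (I.F K), X.N = Q0 T * M₀ → X.Q₀ = Q0 T → ∀ χ n, Pc (X.cd χ n))
    (hTp : ∀ t ∈ T, (t : ℕ) ≠ p)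
    (hunr : ∀ t ∈ T, UnrAt W p t)
    (htr : ∀ t ∈ T, ∀ A : ValuationSubring Qb, A.LiesOverPrime (t : ℕ) → ∀ φ : GQ,
      A.IsFrobeniusAt φ t →
      (PadicInt.toZMod (LinearMap.trace ℤ_[p] (TT (WQ W) p) (rr (WQ W) p φ))) ^ 2 = 4)
    (hND : Q0 T * M₀ ∣ I.D₀)
    (hS : ∀ q : Nat.Primes, q ∈ I.S ↔ (q : ℕ) ∣ Q0 T * M₀ * p)
    (hell : Ell p (Q0 T * M₀)) (hell₀ : Ell p M₀)
    (hne : haveI : NeZero (Q0 T * M₀) := ⟨mul_ne_zero (Q0_pos T).ne' hsq.ne_zero⟩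
      locPart (hAct O (Q0 T * M₀) ⊤ O (prD I.D₀)) (mx (aW W O I.D₀)) ≠ ⊥) :
    haveI : NeZero M₀ := ⟨hsq.ne_zero⟩
    ∃ n, locPart (hAct O M₀ ⊤ O (prD (I.Dn n)))
      (mx (fun ℓ => aW W O I.D₀ (prI (I.dvd_Dn n) ℓ))) ≠ ⊥ := by
  classical
  haveI hM₀ : NeZero M₀ := ⟨hsq.ne_zero⟩
  haveI hN0 : NeZero (Q0 T * M₀) := ⟨mul_ne_zero (Q0_pos T).ne' hsq.ne_zero⟩
  -- the framed data
  obtain ⟨E, hE⟩ := exists_TDat p T Q₁.a (fun t => by
    have h1 := Q₁.hq t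
    exact ⟨Q₁.u t, by rw [h1, Nat.add_sub_cancel_left]⟩)
  have hN : ∀ t : T, ((t : Nat.Primes) : ℕ) ∣ Q0 T * M₀ := fun t => (dvd_Q0 t.2).mul_right _
  have hω : ∀ t, IsPrimitiveRoot (Q₁.ω t) (p ^ E.a t) := fun t => by rw [hE]; exact Q₁.hω t
  have ha1 : ∀ t, 1 ≤ E.a t := fun t => by rw [hE]; exact Q₁.ha t
  have hpT : ¬ p ∣ Q0 T := by
    intro h
    obtain ⟨t, ht, htp⟩ := prime_dvd_Q0 hp.out h
    exact hTp t ht htp
  have hsqN : Squarefree (Q0 T * M₀) :=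
    (Nat.squarefree_mul_iff).mpr ⟨hcop, squarefree_Q0 T, hsq⟩
  have hnsq : ∀ q : ℕ, q.Prime → ¬ q * q ∣ Q0 T * M₀ := fun q hq h => hq.not_isUnit (hsqN q h)
  let B : BaseHyp O (E.H0 hN) p := ⟨hp2, hpO, E.isPGroup hN, hell⟩
  let C : CondHyp (E.H0 hN) (Q0 T) M₀ := E.condHyp hN rfl hcop
  let X : Cmp (I.F K) := I.cmp K (E.H0 hN) B C hND (rk_ne_zero hne) (fun q h => (hS q).mpr h)
  let χ : Bool → (SQ X.N X.H₀ →* Oˣ) := fun i => bif i then E.χ hN Q₁.ω hω else 1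
  -- the primes
  have hTq : ∀ n j (q : ℕ), q ∣ Q0 T * M₀ → q ≠ (I.c n).q j := fun n j q hq h =>
    (I.hc n).nd j (by rw [← h]; exact hq.trans hND)
  obtain ⟨ϖ, hϖ⟩ := (IsPrincipalIdealRing.principal (maximalIdeal O)).principal
  have hϖ' : maximalIdeal O = Ideal.span {ϖ} := hϖ
  have hϖ0 : ϖ ≠ 0 := by
    rintro rfl
    rw [Ideal.span_singleton_eq_bot.mpr rfl] at hϖ'
    exact IsDiscreteValuationRing.not_isField O
      ((IsLocalRing.isField_iff_maximalIdeal_eq).mpr hϖ')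
  have hχ : ∀ i s, ∃ c : O, (χ i s : O) = 1 + ϖ * c := by
    intro i s
    cases i with
    | false =>
      refine ⟨0, ?_⟩
      rw [mul_zero, add_zero]
      rfl
    | true =>
      have h1 : ((E.χ hN Q₁.ω hω s : Oˣ) : O) - 1 ∈ maximalIdeal O :=
        E.χ_sub_one_mem hN Q₁.ω hω (fun t => by
          rw [← Sys.rdres_mem (D := RDW hΔ hirr hp2 O), map_sub, map_one,
            Q₁.omega_sub_one hpO (RDW hΔ hirr hp2 O) t, sub_self]) s
      rw [hϖ', Ideal.mem_span_singleton] at h1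
      obtain ⟨c, hc⟩ := h1
      exact ⟨c, by rw [← hc]; change ((E.χ hN Q₁.ω hω s : Oˣ) : O) = _; ring⟩
  have hFrD : FrD (RDW hΔ hirr hp2 O) p (fun t : T => (t : Nat.Primes)) :=
    RDW_FrD hΔ hirr hp2 _ (fun t h => hTp t t.2 h.symm) (fun t => hunr t t.2)
  -- levels
  have hlev : ∀ (i : Bool) (n : ℕ) (x : (X.cd (χ i) n).X) (q : ℕ), q.Prime → ¬ q ∣ Q0 T →
      (∀ j, q ≠ (I.c n).q j) → ¬ q * q ∣ X.lvl (χ i) n x := fun i n x q hq hqT hqq =>
    X.not_sq_dvd (χ i) n x hq hqT (hnsq q hq) hqq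
  obtain ⟨n, x, hx⟩ := Sys.levelLowering hpO (Y := Cmp.sys (fun _ : Bool => X) χ)
    (i₁ := false) (i₂ := true) (Mo₁ := Cmp.mds (fun _ : Bool => X) χ false)
    (Mo₂ := Cmp.mds (fun _ : Bool => X) χ true) (tv := fun t : T => (t : Nat.Primes)) hp2 hϖ' hϖ0
    hFrD Q₁
    (fun t => by
      have h1 := htr t t.2 _ (plv_over _ (t : Nat.Primes).2) _ (frv_spec _ (t : Nat.Primes).2)
      haveI := charP_res p O
      change ((RDW hΔ hirr hp2 O).rbar _).trace ^ 2 = 4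
      have h2 := congrArg (ZMod.castHom (dvd_refl p) (ResidueField O)) h1
      rw [map_pow, map_ofNat] at h2
      rw [RD.trace_rbar, RDW_tbar, ringHom_padic]
      exact h2)
    (fun n j => (I.hc n).le j)
    (fun n => hSel n Bool _ (fun i => X.cd (χ i) n) _ (fun i => hPc X rfl rfl (χ i) n)
      (fun i x q hqS hqT hqp A hA σ hσ => by
        have hqN : (q : ℕ) ∣ Q0 T * M₀ := by
          rcases (Nat.Prime.dvd_mul q.2).mp ((hS q).mp hqS) with h | h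
          · exact h
          · exact absurd ((Nat.prime_dvd_prime_iff_eq q.2 hp.out).mp h) hqp
        have hqQ : ¬ (q : ℕ) ∣ Q0 T := by
          intro h
          obtain ⟨t, ht, htq⟩ := prime_dvd_Q0 q.2 h
          exact hqT (by rw [← Subtype.ext (a1 := t) (a2 := q) htq]; exact ht)
        exact hin_inertia hpO I.Ge (RDW_isCyc hΔ hirr hp2) (RDW_hc hΔ hirr hp2) (X.hin (χ i) n) x
          q.2 hqp (hlev i n x q q.2 hqQ (fun j => hTq n j q hqN)) hA hσ))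
    (fun n x t => X.t_eq_two 1 n x (t : Nat.Primes).2 (hTp t t.2) (by
      obtain ⟨b', hb'⟩ := dvd_Q0 t.2
      exact X.not_sq_dvd_of_trivial 1 n x (t : Nat.Primes).2 hb' (fun _ _ => rfl)))
    (fun n x t => by
      obtain ⟨b', hb'⟩ := dvd_Q0 t.2
      exact X.t_ne_two (E.χ hN Q₁.ω hω) n x (t : Nat.Primes).2 (hTp t t.2) hb'
        (hnsq _ (t : Nat.Primes).2) (E.exists_χ_ne hN Q₁.ω hω ha1 rfl hcop (t : Nat.Primes).2 hb')
        (hFrD.unr t))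
    (Cmp.cong X χ hϖ0 hχ false true) X.hd
  refine ⟨n, ?_⟩
  exact X.descend n (N'' := M₀) (Tp := Q0 T) (mul_comm _ _) (squarefree_Q0 T) hcop.symm
    hell₀ hpT (x := x) (fun t ht htT => by
      obtain ⟨t', ht', rfl⟩ := prime_dvd_Q0 ht htT
      exact hx ⟨t', ht'⟩)

/-- the levels of the points in the two modes at `p` -/
theorem FIn.lvl_p {T : Finset Nat.Primes} (hTp : ∀ t ∈ T, (t : ℕ) ≠ p) {M₀ : ℕ}
    (hpM : ¬ p * p ∣ Q0 T * M₀) (X : Cmp (I.F K)) (hX : X.N = Q0 T * M₀) (hQ : X.Q₀ = Q0 T)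
    (χ : SQ X.N X.H₀ →* Oˣ) (n : ℕ) (x : (X.cd χ n).X) :
    ¬ p * p ∣ X.lvl χ n x ∧ (¬ p ∣ M₀ → ¬ p ∣ X.lvl χ n x) := by
  have hpq : ∀ j, (I.c n).q j ≠ p := fun j h => (I.hc n).nd j (by rw [h]; exact I.hpD₀)
  have hpT : ¬ p ∣ Q0 T := by
    intro h
    obtain ⟨t, ht, htp⟩ := prime_dvd_Q0 hp.out h
    exact hTp t ht htp
  refine ⟨X.not_sq_dvd χ n x hp.out (by rw [hQ]; exact hpT) (by rw [hX]; exact hpM)
    (fun j => (hpq j).symm), fun hb' h => ?_⟩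
  have h1 := h.trans (X.lvl_dvd χ n x)
  rw [X.hM n] at h1
  have hpr : ¬ p ∣ ∏ j, (I.c n).q j := by
    intro h
    obtain ⟨j, -, hj⟩ := (Prime.dvd_finsetProd_iff hp.out.prime _).mp h
    exact hpq j ((Nat.prime_dvd_prime_iff_eq hp.out ((I.c n).prime j)).mp hj).symm
  have hpT' : ¬ p ∣ X.Q₀ := by rw [hQ]; exact hpT
  have hpN' : ¬ p ∣ X.N := by
    rw [hX]
    intro h
    rcases (Nat.Prime.dvd_mul hp.out).mp h with h | h
    · exact hpT h
    · exact hb' h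
  rcases (Nat.Prime.dvd_mul hp.out).mp h1 with h1 | h1
  · rcases (Nat.Prime.dvd_mul hp.out).mp h1 with h1 | h1
    · exact hpN' h1
    · exact hpr h1
  · rcases (Nat.Prime.dvd_mul hp.out).mp h1 with h1 | h1
    · exact hpT' h1
    · exact hpr h1

end

end Fermat.Agent.H12.LL
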