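import Mathlib
import Fermat.Agent.H12.LL.LLcore
import Fermat.Agent.H12.LL.Coef
import Fermat.Agent.H18R.Top
import Fermat.Agent.H24R.Ell3
import Fermat.Agent.H19.A8

/-!
# Level lowering: removal of the primes which are one modulo `p`
-/

set_option autoImplicit false
set_option linter.unusedSectionVars false
set_option linter.style.haveILetI false

noncomputable section

namespace Fermat.Agent.H12.LL

open Fermat.Agent.TC Fermat.Agent.TW Fermat.Agent.CC Fermat.Agent.H25.GE Fermat.Agent.H25.TR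
open Fermat.Agent.Ell Fermat.Agent.H25 Fermat.Agent.H25.PR Fermat.Agent.H25.PT
open Fermat.Agent.H22
open IsLocalRing CongruenceSubgroup Matrix
open ModularFormClass (qCoeff)

/-- Steinberg condition at an unramified prime, residually -/
structure StOk (W : WeierstrassCurve ℤ) (p q : ℕ) [hp : Fact p.Prime] : Prop where
  ne : q ≠ p
  unr : UnrAt W p q
  sq : ¬ q ^ 2 ≡ 1 [MOD p]
  tr : ∀ A : ValuationSubring Qb, A.LiesOverPrime q → ∀ φ : GQ, A.IsFrobeniusAt φ q →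
    (PadicInt.toZMod (LinearMap.trace ℤ_[p] (TT (WQ W) p) (rr (WQ W) p φ))) ^ 2 =
      ((q : ZMod p) + 1) ^ 2

/-- The conditions on the level `N0` of the points: `b` says whether `p` divides the level, `St` is
a set of primes dividing the level exactly once. -/
def LvOk (p : ℕ) (b : Prop) (St : Finset Nat.Primes) (N0 : ℕ) : Prop :=
  ¬ p * p ∣ N0 ∧ (¬ b → ¬ p ∣ N0) ∧ (b → p ∣ N0) ∧
    ∀ q ∈ St, (q : ℕ) ∣ N0 ∧ ¬ (q : ℕ) * (q : ℕ) ∣ N0

/-- The input in mode `b` at `p` (`False`: levels prime to `p`; `True`: levels divisible by `p`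
exactly once), and special at the primes of `St`. -/
def ModeIn (W : WeierstrassCurve ℤ) (p : ℕ) [hp : Fact p.Prime] (b : Prop)
    (St : Finset Nat.Primes) : Prop :=
  ∀ (hΔ : W.Δ ≠ 0) (hirr : W.ModRepIsIrreducible p) (hp2 : p ≠ 2)
    (O : Type) [CommRing O] [IsDomain O] [IsDiscreteValuationRing O]
    [IsAdicComplete (maximalIdeal O) O] [Finite (ResidueField O)] [CharZero O] [Algebra ℤ_[p] O]
    [IsLocalHom (algebraMap ℤ_[p] O)]
    (K : Type) [Field K] [IsAlgClosed K] [Algebra O K] [FaithfulSMul O K]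
    (ζ : ResidueField O), IsPrimitiveRoot ζ (p ^ 2 - 1) → ∀ (hpO : (p : O) ∈ maximalIdeal O)
    (Ge : Geo p) (S T : Finset Nat.Primes), T ⊆ S → St ⊆ S → (∀ q ∈ St, q ∉ T) →
    (∀ q : Nat.Primes, q ∉ S → UnrAt W p q) →
    (⟨p, hp.out⟩ : Nat.Primes) ∈ S → (∀ t ∈ T, (t : ℕ) ≠ p ∧ UnrAt W p t) →
    (∀ q ∈ St, StOk W p q) →
    (∀ q ∈ S, q ∉ T → q ∉ St → (q : ℕ) ≠ p → ¬ UnrAt W p q) →
    TWData p S (RDW hΔ hirr hp2 O).rbar (chiB hΔ hirr hp2 O) →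
    ∃ Pc : ∀ {S' : Finset Nat.Primes} {bad : Finset ℕ},
        CData (RDW hΔ hirr hp2 O) S' bad → Prop,
      (∀ {S' : Finset Nat.Primes} {bad : Finset ℕ} (H : HIn (RDW hΔ hirr hp2 O) K p S' bad),
        (∀ x, LvOk p b St (H.np x).N0) →
        Pc (H.cd hpO Ge (RDW_isCyc hΔ hirr hp2) (RDW_hc hΔ hirr hp2))) ∧
      ∃ r : ℕ, ∀ n D₀ : ℕ, n ≠ 0 → D₀ ≠ 0 → ∃ qv : Fin r → Nat.Primes,
        Function.Injective qv ∧ (∀ j, ¬ (qv j : ℕ) ∣ D₀) ∧ (∀ j, qv j ∉ S) ∧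
        (∀ j, TWData.IsTW p n (RDW hΔ hirr hp2 O).rbar (chiB hΔ hirr hp2 O) (qv j)) ∧
        SelOut (RDW hΔ hirr hp2 O) p Pc S T r qv

/-- absolute irreducibility on subgroups of index at most two -/
def NLIn (W : WeierstrassCurve ℤ) (p : ℕ) [hp : Fact p.Prime] : Prop :=
  ∀ (hΔ : W.Δ ≠ 0) (hirr : W.ModRepIsIrreducible p) (hp2 : p ≠ 2)
    (O : Type) [CommRing O] [IsLocalRing O] [Algebra ℤ_[p] O] [IsLocalHom (algebraMap ℤ_[p] O)]
    (G' : Subgroup GQ), G' = ⊤ ∨ G'.index = 2 →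
      NoLine (ext (AlgebraicClosure (ResidueField O)) (RDW hΔ hirr hp2 O).rbar) G'

section

variable {W : WeierstrassCurve ℤ} {p : ℕ} [hp : Fact p.Prime]
  {hΔ : W.Δ ≠ 0} {hirr : W.ModRepIsIrreducible p} {hp2 : p ≠ 2}
  {O : Type} [CommRing O] [IsDomain O] [IsDiscreteValuationRing O]
  [IsAdicComplete (maximalIdeal O) O] [Algebra ℤ_[p] O] [IsLocalHom (algebraMap ℤ_[p] O)]
  [Finite (ResidueField O)] [CharZero O] (I : FIn hΔ hirr hp2 O)

/-- the localised modules detect residual modularity (first direction) -/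
theorem ne_of_rm {D₀ N : ℕ} [NeZero N] (hD₀ : D₀ ≠ 0) (hpD₀ : p ∣ D₀)
    (hΔD₀ : ∀ q : ℕ, q.Prime → (q : ℤ) ∣ W.Δ → q ∣ D₀) (hND : N ∣ D₀)
    (hRM : W.IsResiduallyModularOfLevel p N) :
    locPart (hAct O N ⊤ O (prD D₀)) (mx (aW W O D₀)) ≠ ⊥ := by
  haveI := charP_res p O
  let ι : ZMod p →+* ResidueField O := ZMod.castHom (dvd_refl p) (ResidueField O)
  have hι : ∀ z : ℤ, ι ((z : ℤ) : ZMod p) = (z : ResidueField O) := fun z => map_intCast ι z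
  have h1 := H19.A8.RMs_of_isResiduallyModularOfLevel (S := D₀.primeFactors) hRM
    (fun ℓ hℓ hℓD => by
      have hd : ¬ ℓ ∣ D₀ := fun h => hℓD (Nat.mem_primeFactors.mpr ⟨hℓ, h, hD₀⟩)
      exact ⟨fun h => hd (hΔD₀ ℓ hℓ h), fun h => hd (h.trans hND),
        fun h => hd (by rw [h]; exact hpD₀)⟩)
  have h2 := H19.A8.locPart_ne_bot_of_RMs (O := O) (D := D₀) hND
    (fun q hq _ => (Nat.mem_primeFactors.mp hq).2.1) ι h1
  have h3 : (fun ℓ : Pr D₀ => ι ((W.apOfModel ℓ : ℤ) : ZMod p)) = aW W O D₀ := by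
    funext ℓ
    exact hι _
  rw [← h3]
  exact h2

/-- the localised modules detect residual modularity (second direction) -/
theorem FIn.rm_of_ne (n : ℕ) {N M : ℕ} [NeZero N] [NeZero M] (hND : N ∣ I.D₀) (hMN : M ∣ N)
    (hn : locPart (hAct O M ⊤ O (prD (I.Dn n)))
      (mx (fun ℓ => aW W O I.D₀ (prI (I.dvd_Dn n) ℓ))) ≠ ⊥) :
    W.IsResiduallyModularOfLevel p M := by
  haveI := charP_res p O
  let ι : ZMod p →+* ResidueField O := ZMod.castHom (dvd_refl p) (ResidueField O)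
  have hι : ∀ z : ℤ, ι ((z : ℤ) : ZMod p) = (z : ResidueField O) := fun z => map_intCast ι z
  have hMD : M ∣ I.Dn n := (hMN.trans hND).trans (I.dvd_Dn n)
  have h4 : (fun ℓ : Pr (I.Dn n) => ι ((W.apOfModel ℓ : ℤ) : ZMod p)) =
      (fun ℓ => aW W O I.D₀ (prI (I.dvd_Dn n) ℓ)) := by
    funext ℓ
    exact hι _
  rw [← h4] at hn
  have h5 := H19.A8.RMs_of_locPart_ne_bot (M := M) (I.Dn_ne n) hMD ι
    (a := fun ℓ => ((W.apOfModel ℓ : ℤ) : ZMod p)) (by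
      haveI : NeZero (N * ∏ j, (I.c n).q j) := ⟨mul_ne_zero (NeZero.ne _)
        (Finset.prod_ne_zero_iff.mpr fun j _ => ((I.c n).prime j).ne_zero)⟩
      obtain ⟨ℓ₀, h6, h7⟩ := (I.α_spec n (N := N) rfl
        (fun j h => (I.hc n).nd j (h.trans hND)) hND).hℓ₀
      refine ⟨ℓ₀, ?_, fun h8 => h7 ?_⟩
      · refine dvd_trans ?_ h6
        exact Int.natCast_dvd_natCast.mpr ((hMN.mul_right _).mul_right _)
      · have h9 := congrArg ι h8
        rw [hι, map_add, map_one, map_natCast] at h9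
        exact h9) hn
  exact Fermat.Agent.H18R.isResiduallyModular_of_RMs hΔ hirr (NeZero.ne M) h5

end

variable {W : WeierstrassCurve ℤ} {p : ℕ} [hp : Fact p.Prime]

/-- Interface for the newness statement (a prime `q` dividing the level exactly once such that the
residual system does not occur at level `N / q` divides the level of every point). -/
def NewP (W : WeierstrassCurve ℤ) (p : ℕ) [hp : Fact p.Prime] (q : ℕ) : Prop :=
  ∀ (hΔ : W.Δ ≠ 0) (hirr : W.ModRepIsIrreducible p) (hp2 : p ≠ 2)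
    (O : Type) [CommRing O] [IsDomain O] [IsDiscreteValuationRing O]
    [IsAdicComplete (maximalIdeal O) O] [Finite (ResidueField O)] [CharZero O] [Algebra ℤ_[p] O]
    [IsLocalHom (algebraMap ℤ_[p] O)]
    (K : Type) [Field K] [IsAlgClosed K] [Algebra O K] [FaithfulSMul O K]
    (I : FIn hΔ hirr hp2 O) (X : Cmp (I.F K)) (χ : SQ X.N X.H₀ →* Oˣ) (n : ℕ) (N' : ℕ)
    [NeZero N'], X.N = N' * q → ¬ q ∣ N' → ¬ q ∣ X.Q₀ → Ell p N' →
    locPart (hAct O N' ⊤ O (prD (I.Dn n)))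
      (mx (fun ℓ => aW W O I.D₀ (prI (I.dvd_Dn n) ℓ))) = ⊥ →
    ∀ x : (X.cd χ n).X, q ∣ X.lvl χ n x

/-- **Black box 1.** -/
theorem ll_gen {b : Prop} {St : Finset Nat.Primes} (hΔ : W.Δ ≠ 0)
    (hirr : W.ModRepIsIrreducible p) (hp2 : p ≠ 2)
    (Ge : Geo p) (hk : Kill W p) (hNL : NLIn W p) (hmode : ModeIn W p b St)
    (T : Finset Nat.Primes) (M₀ : ℕ) (h3 : p = 3 → 2 ∣ M₀) (hsq : Squarefree M₀)
    (hcop : Nat.Coprime (Q0 T) M₀) (hbF : ¬ b → ¬ p ∣ M₀)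
    (hbT : b → NewP W p p ∧ ∃ M', M₀ = M' * p ∧ ¬ W.IsResiduallyModularOfLevel p (Q0 T * M'))
    (hSt : ∀ q ∈ St, StOk W p q ∧ NewP W p q ∧
      ∃ M', M₀ = M' * q ∧ ¬ W.IsResiduallyModularOfLevel p (Q0 T * M'))
    (hram : ∀ q : Nat.Primes, (q : ℕ) ≠ p → (q : ℕ) ∣ M₀ → q ∉ St → ¬ UnrAt W p q)
    (hTp : ∀ t ∈ T, (t : ℕ) ≠ p) (hT1 : ∀ t ∈ T, (t : ℕ) ≡ 1 [MOD p])
    (hunr : ∀ t ∈ T, UnrAt W p t)
    (htr : ∀ t ∈ T, ∀ A : ValuationSubring Qb, A.LiesOverPrime (t : ℕ) → ∀ φ : GQ,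
      A.IsFrobeniusAt φ t →
      (PadicInt.toZMod (LinearMap.trace ℤ_[p] (TT (WQ W) p) (rr (WQ W) p φ))) ^ 2 = 4)
    (hunrN : ∀ q : ℕ, q.Prime → q ≠ p → ¬ q ∣ Q0 T * M₀ → UnrAt W p q)
    (hRM : W.IsResiduallyModularOfLevel p (Q0 T * M₀)) : W.IsResiduallyModularOfLevel p M₀ := by
  classical
  haveI hM₀ : NeZero M₀ := ⟨hsq.ne_zero⟩
  haveI hN0 : NeZero (Q0 T * M₀) := ⟨mul_ne_zero (Q0_pos T).ne' hsq.ne_zero⟩
  have hp0 := hp.out
  -- the coefficient ring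
  obtain ⟨A, hA⟩ := exists_FrT hp.out T hT1
  have hpp : p ^ 2 - 1 ≠ 0 := by
    have h1 : 2 ≤ p := hp0.two_le
    have h2 : 4 ≤ p ^ 2 := by nlinarith
    omega
  have hm : p ^ A * (p ^ 2 - 1) ≠ 0 := mul_ne_zero (pow_ne_zero _ hp0.ne_zero) hpp
  obtain ⟨O, i1, i2, i3, i4, i5, i6, i7, i8, i9, hinj, ω, hω⟩ := exists_coeff p _ hm
  obtain ⟨Q₁⟩ := hA O _ ω hω hm (dvd_mul_right _ _)
  have hpO : (p : O) ∈ maximalIdeal O := p_mem_maxO O
  have hω2 : IsPrimitiveRoot (ω ^ p ^ A) (p ^ 2 - 1) := hω.pow (Nat.pos_of_ne_zero hm) rfl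
  have hu : IsUnit ((p ^ 2 - 1 : ℕ) : O) := by
    by_contra hnu
    have h1 : ((p ^ 2 - 1 : ℕ) : O) ∈ maximalIdeal O := (mem_maximalIdeal _).mpr hnu
    have h2 : ((p ^ 2 : ℕ) : O) ∈ maximalIdeal O := by
      rw [Nat.cast_pow, pow_two]
      exact Ideal.mul_mem_left _ _ hpO
    have h3 : (1 : O) = ((p ^ 2 : ℕ) : O) - ((p ^ 2 - 1 : ℕ) : O) := by
      rw [← Nat.cast_sub (Nat.sub_le _ _)]
      have : p ^ 2 - (p ^ 2 - 1) = 1 := by omega
      rw [this, Nat.cast_one]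
    have h4 : (1 : O) ∈ maximalIdeal O := by
      rw [h3]; exact sub_mem h2 h1
    exact (Ideal.ne_top_iff_one _).mp (maximalIdeal.isMaximal O).ne_top h4
  have hζ := isPrimitiveRoot_residue hu hω2
  let K := AlgebraicClosure (FractionRing O)
  haveI : FaithfulSMul O K := (faithfulSMul_iff_algebraMap_injective _ _).mpr (by
    rw [IsScalarTower.algebraMap_eq O (FractionRing O) K]
    exact (algebraMap (FractionRing O) K).injective.comp (IsFractionRing.injective O _))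
  -- the primes
  let S : Finset Nat.Primes := ((Q0 T * M₀ * p).primeFactors).subtype Nat.Prime
  have hS : ∀ q : Nat.Primes, q ∈ S ↔ (q : ℕ) ∣ Q0 T * M₀ * p := by
    intro q
    have h1 : q ∈ S ↔ (q : ℕ) ∈ (Q0 T * M₀ * p).primeFactors :=
      Finset.mem_subtype (p := Nat.Prime)
    rw [h1, Nat.mem_primeFactors]
    exact ⟨fun h => h.2.1, fun h => ⟨q.2, h, mul_ne_zero (NeZero.ne _) hp0.ne_zero⟩⟩
  have hSunr : ∀ q : Nat.Primes, q ∉ S → UnrAt W p q := by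
    intro q hq
    rw [hS] at hq
    exact hunrN q q.2 (fun h => hq (by rw [h]; exact dvd_mul_left _ _))
      (fun h => hq (h.mul_right p))
  have hTW : TWData p S (RDW hΔ hirr hp2 O).rbar (chiB hΔ hirr hp2 O) :=
    RDW_TWData hΔ hirr hp2 hSunr (hNL hΔ hirr hp2 O)
  have hTS : T ⊆ S := fun t ht => (hS t).mpr (((dvd_Q0 ht).mul_right _).mul_right _)
  have hStM : ∀ q ∈ St, (q : ℕ) ∣ M₀ := fun q hq => by
    obtain ⟨-, -, M', h, -⟩ := hSt q hq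
    exact ⟨M', by rw [h, mul_comm]⟩
  have hStT : ∀ q ∈ St, ¬ (q : ℕ) ∣ Q0 T := fun q hq h =>
    Nat.Prime.not_coprime_iff_dvd.mpr ⟨q, q.2, h, hStM q hq⟩ hcop
  -- the level of the residual system
  let D₀ : ℕ := p * W.Δ.natAbs * (Q0 T * M₀)
  have hD₀ : D₀ ≠ 0 := mul_ne_zero (mul_ne_zero hp0.ne_zero (Int.natAbs_ne_zero.mpr hΔ))
    (NeZero.ne _)
  have hpD₀ : p ∣ D₀ := ⟨W.Δ.natAbs * (Q0 T * M₀), by rw [← mul_assoc]⟩
  have hΔD₀ : ∀ q : ℕ, q.Prime → (q : ℤ) ∣ W.Δ → q ∣ D₀ := by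
    intro q _ h
    exact ((Int.natCast_dvd.mp h).mul_left p).mul_right _
  have hND : Q0 T * M₀ ∣ D₀ := dvd_mul_left _ _
  -- the Taylor-Wiles primes
  obtain ⟨Pc, hPc, r, hqv⟩ := hmode hΔ hirr hp2 O K _ hζ hpO Ge S T hTS
    (fun q hq => (hS q).mpr (((hStM q hq).mul_left _).mul_right _))
    (fun q hq hqT => hStT q hq (dvd_Q0 hqT)) hSunr
    ((hS _).mpr (dvd_mul_left _ _)) (fun t ht => ⟨hTp t ht, hunr t ht⟩)
    (fun q hq => (hSt q hq).1)
    (fun q hq hqT hqSt hqp => hram q hqp (by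
      rcases (Nat.Prime.dvd_mul q.2).mp ((hS q).mp hq) with h | h
      · rcases (Nat.Prime.dvd_mul q.2).mp h with h | h
        · exfalso
          obtain ⟨t, ht, htq⟩ := prime_dvd_Q0 q.2 h
          exact hqT (by rw [← Subtype.ext (a1 := t) (a2 := q) htq]; exact ht)
        · exact h
      · exact absurd ((Nat.prime_dvd_prime_iff_eq q.2 hp0).mp h) hqp) hqSt) hTW
  have hc : ∀ n : ℕ, ∃ c : TWCore p r, TWOk (O := O) hΔ hirr hp2 S D₀ n c ∧
      SelOut (RDW hΔ hirr hp2 O) p Pc S T r (fun j => ⟨c.q j, c.prime j⟩) := by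
    intro n
    obtain ⟨qv, h1, h2, h3, h4, h5⟩ := hqv (n + 1) D₀ (Nat.succ_ne_zero n) hD₀
    obtain ⟨c, hcq, hce, hcu⟩ := exists_TWCore hΔ hirr hp2 (n := n + 1)
      (fun j => (qv j : ℕ)) (fun i j hij => h1 (Subtype.ext hij)) h4
    have hq : ∀ j, (⟨c.q j, c.prime j⟩ : Nat.Primes) = qv j := fun j =>
      Subtype.ext (congrFun hcq j)
    refine ⟨c, ⟨fun j => (Nat.le_succ n).trans (hce j), fun j => ?_, fun j => ?_, fun j => ?_,
      fun j => ?_⟩, ?_⟩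
    · rw [hcq]; exact hcu j
    · rw [hcq]; exact h4 j
    · rw [hcq]; exact h2 j
    · rw [hq]; exact h3 j
    · have : (fun j => (⟨c.q j, c.prime j⟩ : Nat.Primes)) = qv := funext hq
      rw [this]; exact h5
  choose c hc1 hc2 using hc
  let I : FIn hΔ hirr hp2 O := ⟨S, hSunr, D₀, hD₀, hpD₀, hΔD₀, _, hζ, hk, hTW, Ge, r, c, hc1⟩
  have hne := ne_of_rm (O := O) hD₀ hpD₀ hΔD₀ hND hRM
  have hell : ∀ M : ℕ, (p = 3 → 2 ∣ M) → Ell p M := by
    intro M hM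
    by_cases hp3 : p = 3
    · exact Fermat.Agent.H24R.ell_of_even (hM hp3)
    · exact Or.inl hp3
  have hsqN : Squarefree (Q0 T * M₀) :=
    (Nat.squarefree_mul_iff).mpr ⟨hcop, squarefree_Q0 T, hsq⟩
  have hnsq : ∀ q : ℕ, q.Prime → ¬ q * q ∣ Q0 T * M₀ := fun q hq h => hq.not_isUnit (hsqN q h)
  have hpT : ¬ p ∣ Q0 T := by
    intro h
    obtain ⟨t, ht, htp⟩ := prime_dvd_Q0 hp.out h
    exact hTp t ht htp
  -- newness
  have hnew : ∀ (q : ℕ) (hq : q.Prime), NewP W p q → ¬ q ∣ Q0 T →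
      (∃ M', M₀ = M' * q ∧ ¬ W.IsResiduallyModularOfLevel p (Q0 T * M')) → (p = 3 → q ≠ 2) →
      ∀ X : Cmp (I.F K), X.N = Q0 T * M₀ → X.Q₀ = Q0 T → ∀ χ n (x : (X.cd χ n).X),
        q ∣ X.lvl χ n x := by
    rintro q hq hNew hqT ⟨M', hM', hn⟩ hq3 X hX hQ χ n x
    have hM'0 : M' ≠ 0 := by
      rintro rfl
      rw [zero_mul] at hM'
      exact hsq.ne_zero hM'
    haveI : NeZero (Q0 T * M') := ⟨mul_ne_zero (Q0_pos T).ne' hM'0⟩
    have hN : Q0 T * M₀ = (Q0 T * M') * q := by rw [hM', mul_assoc]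
    refine hNew hΔ hirr hp2 O K I X χ n (Q0 T * M') (by rw [hX, hN]) ?_ (by rw [hQ]; exact hqT)
      (hell _ fun hp3 => ?_) ?_ x
    · intro h
      exact hnsq q hq (by rw [hN]; exact Nat.mul_dvd_mul_right h q)
    · have h4 := h3 hp3
      rw [hM'] at h4
      rcases (Nat.Prime.dvd_mul Nat.prime_two).mp h4 with h5 | h5
      · exact h5.mul_left _
      · exact absurd ((Nat.prime_dvd_prime_iff_eq Nat.prime_two hq).mp h5).symm (hq3 hp3)
    · by_contra hne'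
      exact hn (I.rm_of_ne n hND ⟨q, hN⟩ hne')
  obtain ⟨n, hn⟩ := I.core K Pc hpO Q₁ hc2 hsq hcop (fun X hX hQ χ n => by
      refine hPc (X.hin χ n) (fun x => ?_)
      obtain ⟨h5, h6⟩ := I.lvl_p K hTp (hnsq p hp0) X hX hQ χ n x
      refine ⟨h5, fun hb => h6 (hbF hb), fun hb => ?_, fun q hq => ⟨?_, ?_⟩⟩
      · exact hnew p hp0 (hbT hb).1 hpT (hbT hb).2 (fun h => by omega) X hX hQ χ n x
      · refine hnew q q.2 (hSt q hq).2.1 (hStT q hq) (hSt q hq).2.2 (fun h h7 => ?_) X hX hQ χ n x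
        have h8 := (hSt q hq).1.sq
        rw [h, h7] at h8
        exact h8 rfl
      · refine X.not_sq_dvd χ n x q.2 (by rw [hQ]; exact hStT q hq) (by rw [hX]; exact hnsq q q.2)
          fun j h => ?_
        refine (I.hc n).nd j ?_
        rw [← h]
        exact ((hStM q hq).mul_left _).trans hND) hTp hunr htr hND hS
    (hell _ fun h => (h3 h).mul_left _) (hell _ h3) hne
  exact I.rm_of_ne n hND (dvd_mul_left _ _) hn

/-- **Black box 1** for curves all of whose level primes are ramified, levels prime to `p`. -/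
theorem ll_main (hΔ : W.Δ ≠ 0) (hirr : W.ModRepIsIrreducible p) (hp2 : p ≠ 2)
    (Ge : Geo p) (hk : Kill W p) (hNL : NLIn W p) (hmode : ModeIn W p False ∅)
    (T : Finset Nat.Primes) (M₀ : ℕ) (h2 : 2 ∣ M₀) (hsq : Squarefree M₀)
    (hcop : Nat.Coprime (Q0 T) M₀) (hb : ¬ p ∣ M₀)
    (hram : ∀ q : ℕ, q.Prime → q ≠ p → q ∣ M₀ → ¬ UnrAt W p q)
    (hTp : ∀ t ∈ T, (t : ℕ) ≠ p) (hT1 : ∀ t ∈ T, (t : ℕ) ≡ 1 [MOD p])
    (hunr : ∀ t ∈ T, UnrAt W p t)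
    (htr : ∀ t ∈ T, ∀ A : ValuationSubring Qb, A.LiesOverPrime (t : ℕ) → ∀ φ : GQ,
      A.IsFrobeniusAt φ t →
      (PadicInt.toZMod (LinearMap.trace ℤ_[p] (TT (WQ W) p) (rr (WQ W) p φ))) ^ 2 = 4)
    (hunrN : ∀ q : ℕ, q.Prime → q ≠ p → ¬ q ∣ Q0 T * M₀ → UnrAt W p q)
    (hRM : W.IsResiduallyModularOfLevel p (Q0 T * M₀)) : W.IsResiduallyModularOfLevel p M₀ :=
  ll_gen hΔ hirr hp2 Ge hk hNL hmode T M₀ (fun _ => h2) hsq hcop (fun _ => hb) (fun h => h.elim)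
    (fun q hq => absurd hq (Finset.notMem_empty q)) (fun q h h' _ => hram q q.2 h h') hTp hT1 hunr
    htr hunrN hRM

end Fermat.Agent.H12.LL
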