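import Mathlib
import Fermat.Agent.H12.LL.LLmain
import Fermat.Agent.Ell.TWcond

/-!
# Absolute irreducibility on subgroups of index at most two
-/

set_option autoImplicit false
set_option linter.unusedSectionVars false
set_option linter.style.haveILetI false

noncomputable section

namespace Fermat.Agent.H12.LL

open Fermat.Agent.TC Fermat.Agent.TW Fermat.Agent.CC Fermat.Agent.H25.GE Fermat.Agent.H25.TR
open Fermat.Agent.Ell Fermat.Agent.H25 Fermat.Agent.H25.PR Fermat.Agent.H25.PT
open Fermat.Agent.H22
open IsLocalRing CongruenceSubgroup Matrix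

/-- **(W7)** -/
theorem nLIn_of_semistable {W : WeierstrassCurve ℤ} {p : ℕ} [hp : Fact p.Prime]
    (hss : W.IsSemistableModel) : NLIn W p := by
  intro hΔ hirr hp2 O _ _ _ _ G' hG'
  haveI := isElliptic_WQ hΔ
  haveI := charP_res p O
  haveI : CharP (AlgebraicClosure (ResidueField O)) p :=
    charP_of_injective_algebraMap
      (algebraMap (ResidueField O) (AlgebraicClosure (ResidueField O))).injective p
  letI : Algebra (ZMod p) (AlgebraicClosure (ResidueField O)) := ZMod.algebra _ p
  have h := noLine_of_semistable hΔ hss hp2 hirr (AlgebraicClosure (ResidueField O))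
    (tB (p := p) hΔ) hG'
  obtain ⟨Q, Q', h1, h2, hQ⟩ := RDW_conj hΔ hirr hp2 (O := O)
  let f : ResidueField O →+* AlgebraicClosure (ResidueField O) := algebraMap _ _
  refine NoLine.conj (M := ext (AlgebraicClosure (ResidueField O)) (rho0 (tB (p := p) hΔ)))
    (Q := f.mapMatrix Q) (Q' := f.mapMatrix Q') ?_ ?_ (fun g => ?_) h
  · rw [← map_mul, h1, map_one]
  · rw [← map_mul, h2, map_one]
  · have e1 : ext (AlgebraicClosure (ResidueField O)) (rho0 (tB (p := p) hΔ)) g =
        f.mapMatrix (MR (tB (p := p) hΔ) (redk p O) g) := by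
      ext i j
      change algebraMap (ZMod p) _ (PadicInt.toZMod _) = f (redk p O _)
      rw [ringHom_padic (redk p O)]
      exact congrArg (fun F : ZMod p →+* AlgebraicClosure (ResidueField O) => F _)
        (Subsingleton.elim _ (f.comp (ZMod.castHom (dvd_refl p) (ResidueField O))))
    rw [e1, ← map_mul, ← map_mul, ← hQ]
    rfl

end Fermat.Agent.H12.LL
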