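import Mathlib
import Fermat.Agent.H12.LL.RDW2
import Fermat.Agent.H12.LL.Lev1

/-!
# Level lowering: the top level logic
-/

set_option autoImplicit false
set_option linter.unusedSectionVars false
set_option linter.style.haveILetI false

noncomputable section

namespace Fermat.Agent.H12.LL

open Fermat.Agent.TW Fermat.Agent.CC Fermat.Agent.Ell
open IsLocalRing CongruenceSubgroup
open ModularFormClass (qCoeff)

/-- residual congruence between a form and a curve -/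
def CongF (W : WeierstrassCurve ℤ) (p : ℕ) {L : ℕ} (g : CuspForm (Gamma0 L) 2) : Prop :=
  ∃ 𝔪 : Ideal (integralClosure ℤ ℂ), 𝔪.IsMaximal ∧ (p : integralClosure ℤ ℂ) ∈ 𝔪 ∧
    ∀ ℓ : ℕ, ℓ.Prime → W.IsGoodPrimeFor ℓ → ¬ ℓ ∣ L → ℓ ≠ p →
      ∃ a : integralClosure ℤ ℂ, (a : ℂ) = qCoeff g ℓ ∧
        a - ((W.apOfModel ℓ : ℤ) : integralClosure ℤ ℂ) ∈ 𝔪

/-- The inputs of the level lowering argument; `b` is the mode at `p` (`False`: levels prime to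
`p`, `True`: levels divisible by `p`). -/
structure TopIn (W : WeierstrassCurve ℤ) (p : ℕ) [Fact p.Prime] (b : Prop) : Prop where
  /-- (F2) -/
  mono : ∀ {M M' : ℕ}, M' ≠ 0 → M ∣ M' → W.IsResiduallyModularOfLevel p M →
    W.IsResiduallyModularOfLevel p M'
  /-- (F3) -/
  newf : ∀ {M : ℕ}, M ≠ 0 → W.IsResiduallyModularOfLevel p M →
    ∃ L : ℕ, L ∣ M ∧ W.IsResiduallyModularOfLevel p L ∧ ∃ (_ : NeZero L)
      (g : CuspForm (Gamma0 L) 2), g.IsNewform ∧ CongF W p g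
  /-- (K1) -/
  sq : ∀ {L : ℕ} [NeZero L] {g : CuspForm (Gamma0 L) 2}, g.IsNewform → CongF W p g →
    ∀ {q : ℕ}, q.Prime → q ≠ p → q ∣ L → ¬ q ^ 2 ∣ L →
    ∀ {A : ValuationSubring Qb}, A.LiesOverPrime q → ∀ {φ : GQ}, A.IsFrobeniusAt φ q →
      (PadicInt.toZMod (LinearMap.trace ℤ_[p] (TT (WQ W) p) (rr (WQ W) p φ))) ^ 2 =
        ((q : ZMod p) + 1) ^ 2
  /-- (MZ) -/
  mz : ∀ {M q : ℕ}, q.Prime → q ≠ 2 → q ≠ p → 2 ∣ M → Squarefree (M * q) →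
    ¬ q ≡ 1 [MOD p] → UnrAt W p q → W.IsResiduallyModularOfLevel p (M * q) →
    W.IsResiduallyModularOfLevel p M
  /-- (LL) -/
  ll : ∀ (T : Finset Nat.Primes) (M₀ : ℕ), 2 ∣ M₀ → Squarefree M₀ → Nat.Coprime (Q0 T) M₀ →
    (p ∣ M₀ ↔ b) → (∀ q : ℕ, q.Prime → q ≠ p → q ∣ M₀ → ¬ UnrAt W p q) →
    (∀ t ∈ T, (t : ℕ) ≠ p) →
    (∀ t ∈ T, (t : ℕ) ≡ 1 [MOD p]) → (∀ t ∈ T, UnrAt W p t) →
    (∀ t ∈ T, ∀ A : ValuationSubring Qb, A.LiesOverPrime (t : ℕ) → ∀ φ : GQ,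
      A.IsFrobeniusAt φ t →
      (PadicInt.toZMod (LinearMap.trace ℤ_[p] (TT (WQ W) p) (rr (WQ W) p φ))) ^ 2 = 4) →
    W.IsResiduallyModularOfLevel p (Q0 T * M₀) → W.IsResiduallyModularOfLevel p M₀

/-- a squarefree number is the product of a subset of its prime factors and the rest -/
theorem exists_split_sqfree {M : ℕ} (hM : Squarefree M) (P : ℕ → Prop) :
    ∃ (T : Finset Nat.Primes) (M₀ : ℕ), M = Q0 T * M₀ ∧ Nat.Coprime (Q0 T) M₀ ∧
      (∀ t : Nat.Primes, t ∈ T ↔ (t : ℕ) ∣ M ∧ P t) := by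
  classical
  have hM0 : M ≠ 0 := hM.ne_zero
  let T : Finset Nat.Primes := (M.primeFactors.filter P).subtype Nat.Prime
  have hT : ∀ t : Nat.Primes, t ∈ T ↔ (t : ℕ) ∣ M ∧ P t := by
    intro t
    have h1 : t ∈ T ↔ (t : ℕ) ∈ M.primeFactors.filter P := Finset.mem_subtype (p := Nat.Prime)
    rw [h1, Finset.mem_filter, Nat.mem_primeFactors]
    exact ⟨fun h => ⟨h.1.2.1, h.2⟩, fun h => ⟨⟨t.2, h.1, hM0⟩, h.2⟩⟩
  have hd : Q0 T ∣ M := by
    have key : ∀ T' : Finset Nat.Primes, T' ⊆ T → Q0 T' ∣ M := by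
      intro T'
      induction T' using Finset.induction_on with
      | empty => intro _; exact one_dvd _
      | insert t T' ht ih =>
        intro hsub
        have h1 : Q0 (insert t T') = (t : ℕ) * Q0 T' := Finset.prod_insert ht
        rw [h1]
        refine Nat.Coprime.mul_dvd_of_dvd_of_dvd ?_
          ((hT t).mp (hsub (Finset.mem_insert_self _ _))).1
          (ih (fun x hx => hsub (Finset.mem_insert_of_mem hx)))
        refine (Nat.Prime.coprime_iff_not_dvd t.2).mpr fun h => ht ?_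
        obtain ⟨s, hs, hst⟩ := prime_dvd_Q0 t.2 h
        have : s = t := Subtype.ext hst
        rwa [← this]
    exact key T (Finset.Subset.refl T)
  obtain ⟨M₀, hM₀⟩ := hd
  refine ⟨T, M₀, hM₀, ?_, hT⟩
  rw [hM₀] at hM
  exact (Nat.squarefree_mul_iff.mp hM).1

variable {W : WeierstrassCurve ℤ} {p : ℕ} [hp : Fact p.Prime]

/-- **The minimal level.** -/
theorem TopIn.exists_minimal {b : Prop} (H : TopIn W p b) (h2ram : ¬ UnrAt W p 2) {M : ℕ}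
    (hM : Squarefree M) (h2M : 2 ∣ M)
    (hb : ∀ M' : ℕ, M' ∣ M → W.IsResiduallyModularOfLevel p M' → (p ∣ M' ↔ b))
    (hRM : W.IsResiduallyModularOfLevel p M) :
    ∃ M' : ℕ, M' ∣ M ∧ 2 ∣ M' ∧ W.IsResiduallyModularOfLevel p M' ∧
      (∀ q : ℕ, q.Prime → q ≠ p → q ∣ M' → ¬ UnrAt W p q) ∧
      ∀ M'' : ℕ, M'' ∣ M' → 2 ∣ M'' → W.IsResiduallyModularOfLevel p M'' → M'' = M' := by
  classical
  -- minimal element
  have hex : ∃ M' : ℕ, M' ∣ M ∧ 2 ∣ M' ∧ W.IsResiduallyModularOfLevel p M' :=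
    ⟨M, dvd_rfl, h2M, hRM⟩
  obtain ⟨hdvd, h2, hR⟩ := Nat.find_spec hex
  set M' := Nat.find hex with hM'
  have hM0 : M ≠ 0 := hM.ne_zero
  have hM'0 : M' ≠ 0 := fun h => hM0 (Nat.eq_zero_of_zero_dvd (h ▸ hdvd))
  have hmin : ∀ M'' : ℕ, M'' ∣ M' → 2 ∣ M'' → W.IsResiduallyModularOfLevel p M'' → M'' = M' := by
    intro M'' h1 h3 h4
    have h5 := Nat.find_min' hex ⟨h1.trans hdvd, h3, h4⟩
    exact le_antisymm (Nat.le_of_dvd (Nat.pos_of_ne_zero hM'0) h1) h5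
  have hsq : Squarefree M' := hM.squarefree_of_dvd hdvd
  refine ⟨M', hdvd, h2, hR, ?_, hmin⟩
  have hne2 : ∀ q : ℕ, UnrAt W p q → q ≠ 2 := fun q h h' => h2ram (h' ▸ h)
  -- unramified odd primes are one modulo `p`
  have hone : ∀ q : ℕ, q.Prime → q ≠ p → q ∣ M' → UnrAt W p q → q ≡ 1 [MOD p] := by
    intro q hq hqp hqM hun
    have hq2 := hne2 q hun
    by_contra hne
    obtain ⟨c, hc⟩ := hqM
    have hc' : M' = c * q := by rw [hc, mul_comm]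
    have h2c : 2 ∣ c := by
      rw [hc'] at h2
      exact ((Nat.Prime.dvd_mul Nat.prime_two).mp h2).resolve_right
        (fun h => hq2 ((Nat.prime_dvd_prime_iff_eq Nat.prime_two hq).mp h).symm)
    have h4 := H.mz hq hq2 hqp h2c (hc' ▸ hsq) hne hun (hc' ▸ hR)
    have h5 := hmin c ⟨q, hc'⟩ h2c h4
    rw [← h5] at hc'
    have hc0 : 0 < c := Nat.pos_of_ne_zero (fun h => hM'0 (by rw [← h5, h]))
    have : 1 < q := hq.one_lt
    nlinarith
  -- the traces at the unramified primes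
  obtain ⟨L, hLM, hRL, hL0, g, hg, hcong⟩ := H.newf hM'0 hR
  have hLodd : ∀ q : ℕ, q.Prime → q ≠ 2 → q ∣ M' → q ∣ L := by
    intro q hq hq2 hqM
    have h3 : Nat.lcm 2 L = M' := by
      apply hmin _ (Nat.lcm_dvd h2 hLM) (Nat.dvd_lcm_left 2 L)
      exact H.mono (Nat.lcm_ne_zero two_ne_zero (NeZero.ne L)) (Nat.dvd_lcm_right 2 L) hRL
    have h4 : q ∣ 2 * L := by
      have h5 : Nat.lcm 2 L ∣ 2 * L := Nat.lcm_dvd (dvd_mul_right _ _) (dvd_mul_left _ _)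
      exact hqM.trans (h3 ▸ h5)
    exact ((Nat.Prime.dvd_mul hq).mp h4).resolve_left
      (fun h => hq2 ((Nat.prime_dvd_prime_iff_eq hq Nat.prime_two).mp h))
  intro q hq hqp hqM hun
  obtain ⟨T, M₀, hTM, hcop, hT⟩ := exists_split_sqfree hsq (fun t => t ≠ p ∧ UnrAt W p t)
  have hM₀M : M₀ ∣ M' := ⟨Q0 T, by rw [hTM, mul_comm]⟩
  have h2M₀ : 2 ∣ M₀ := by
    rw [hTM] at h2
    refine ((Nat.Prime.dvd_mul Nat.prime_two).mp h2).resolve_left fun h => ?_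
    obtain ⟨t, ht, ht2⟩ := prime_dvd_Q0 Nat.prime_two h
    exact hne2 t ((hT t).mp ht).2.2 ht2
  have hT1 : ∀ t ∈ T, (t : ℕ) ≡ 1 [MOD p] := fun t ht =>
    hone t t.2 ((hT t).mp ht).2.1 ((hT t).mp ht).1 ((hT t).mp ht).2.2
  have hpM₀ : p ∣ M₀ ↔ b := by
    rw [← hb M' hdvd hR, hTM]
    refine ⟨fun h => h.mul_left _, fun h => ?_⟩
    refine ((Nat.Prime.dvd_mul hp.out).mp h).resolve_left fun h => ?_
    obtain ⟨t, ht, htp⟩ := prime_dvd_Q0 hp.out h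
    exact ((hT t).mp ht).2.1 htp
  have h6 := H.ll T M₀ h2M₀ (hsq.squarefree_of_dvd hM₀M) hcop hpM₀
    (fun q hq hqp hqM₀ hun => by
      have h1 : (⟨q, hq⟩ : Nat.Primes) ∈ T := (hT _).mpr ⟨hqM₀.trans hM₀M, hqp, hun⟩
      have h2 : q ∣ Q0 T := dvd_Q0 h1
      have h3 := Nat.dvd_gcd h2 hqM₀
      rw [Nat.Coprime.gcd_eq_one hcop] at h3
      exact hq.one_lt.ne' (Nat.dvd_one.mp h3))
    (fun t ht => ((hT t).mp ht).2.1) hT1
    (fun t ht => ((hT t).mp ht).2.2) (fun t ht A hA φ hφ => by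
      have htM := ((hT t).mp ht).1
      have htp : (t : ℕ) ≠ p := ((hT t).mp ht).2.1
      have htL : (t : ℕ) ∣ L := hLodd t t.2 (hne2 t ((hT t).mp ht).2.2) htM
      have htL2 : ¬ (t : ℕ) ^ 2 ∣ L := by
        intro h
        have h7 := hsq.squarefree_of_dvd hLM
        rw [pow_two] at h
        exact t.2.not_isUnit (h7 _ h)
      rw [H.sq hg hcong t.2 htp htL htL2 hA hφ]
      have h8 : (((t : ℕ) : ℕ) : ZMod p) = 1 := by
        have := (ZMod.natCast_eq_natCast_iff _ _ _).mpr (hT1 t ht)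
        rwa [Nat.cast_one] at this
      rw [h8]; norm_num) (hTM ▸ hR)
  have h7 := hmin M₀ hM₀M h2M₀ h6
  have h8 : Q0 T = 1 := by
    rw [h7] at hTM
    have h11 : Q0 T * M' = 1 * M' := by rw [one_mul]; exact hTM.symm
    exact Nat.eq_of_mul_eq_mul_right (Nat.pos_of_ne_zero hM'0) h11
  have h9 : (⟨q, hq⟩ : Nat.Primes) ∈ T := (hT _).mpr ⟨hqM, hqp, hun⟩
  have h10 : q ∣ Q0 T := dvd_Q0 h9
  rw [h8] at h10
  exact hq.one_lt.ne' (Nat.dvd_one.mp h10)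

end Fermat.Agent.H12.LL
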