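import Mathlib
import Fermat.Agent.H12.LL.LLmain
import Fermat.Agent.TW.LocMain
import Fermat.Agent.H19.SSRigid
import Fermat.Agent.H25.SelI

/-!
# The flat mode
-/

set_option autoImplicit false
set_option linter.unusedSectionVars false
set_option linter.style.haveILetI false

noncomputable section

namespace Fermat.Agent.H12.LL

open Fermat.Agent.TC Fermat.Agent.TW Fermat.Agent.CC Fermat.Agent.H25.GE Fermat.Agent.H25.TR
open Fermat.Agent.Ell Fermat.Agent.H25 Fermat.Agent.H25.PR Fermat.Agent.H25.PT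
open Fermat.Agent.H22 Fermat.Agent.H05 Fermat.Agent.H25.SB
open IsLocalRing CongruenceSubgroup Matrix
open scoped Pointwise

variable {W : WeierstrassCurve ℤ} {p : ℕ} [hp : Fact p.Prime]

section

variable (hΔ : W.Δ ≠ 0) (hirr : W.ModRepIsIrreducible p) (hp2 : p ≠ 2)
  (O : Type) [CommRing O] [IsDomain O] [IsDiscreteValuationRing O]
  [IsAdicComplete (maximalIdeal O) O] [Finite (ResidueField O)] [Algebra ℤ_[p] O]
  [IsLocalHom (algebraMap ℤ_[p] O)]

/-- characteristic polynomials of `rbar` split -/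
theorem RDW_split {ζ : ResidueField O} (hζ : IsPrimitiveRoot ζ (p ^ 2 - 1)) (s : GQ) :
    ∃ a b : ResidueField O, ((RDW hΔ hirr hp2 O).rbar s).charpoly =
      (Polynomial.X - Polynomial.C a) * (Polynomial.X - Polynomial.C b) := by
  haveI := charP_res p O
  letI : Algebra (ZMod p) (ResidueField O) := ZMod.algebra _ p
  obtain ⟨Q, Q', h1, h2, hQ⟩ := RDW_conj hΔ hirr hp2 (O := O)
  obtain ⟨α, β, hs, hm⟩ := exists_split (p := p) hζ
    (PadicInt.toZMod (LinearMap.trace ℤ_[p] (TT (WQ W) p) (rr (WQ W) p s)))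
    (PadicInt.toZMod (LinearMap.det (rr (WQ W) p s)))
  have htr : ((RDW hΔ hirr hp2 O).rbar s).trace = α + β := by
    rw [RD.trace_rbar, RDW_tbar, ringHom_padic, hs]
    exact congrArg (fun f : ZMod p →+* ResidueField O => f _) (Subsingleton.elim _ _)
  have hdet : ((RDW hΔ hirr hp2 O).rbar s).det = α * β := by
    rw [hQ, Matrix.det_mul, Matrix.det_mul, mul_right_comm, ← Matrix.det_mul, h2, Matrix.det_one,
      one_mul, det_MR, ringHom_padic, hm]
    exact congrArg (fun f : ZMod p →+* ResidueField O => f _) (Subsingleton.elim _ _)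
  refine ⟨α, β, ?_⟩
  rw [Matrix.charpoly_fin_two, htr, hdet, map_add, map_mul]
  ring

/-- **the flat local condition at `p`** -/
theorem lflat_RDW {ζ : ResidueField O} (hζ : IsPrimitiveRoot ζ (p ^ 2 - 1))
    {S : Finset Nat.Primes} (hS : ∀ q : Nat.Primes, q ∉ S → UnrAt W p q)
    {A : ValuationSubring Qb} (hA : A.LiesOverPrime p) :
    SB.LFlat p A (RDW hΔ hirr hp2 O).rbar := by
  haveI := charP_res p O
  have hU : lev.isOpen (RDW hΔ hirr hp2 O).rbar.ker :=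
    lev_isOpen_of_levS (RDW_open hΔ hirr hp2 hS)
  obtain ⟨w, hw⟩ := exists_NVal hp.out hA
  have P : PL p A w := ⟨hp.out, hA, hw⟩
  refine SB.lflat hp.out hp2 hA (RDW hΔ hirr hp2 O).rbar hU ?_ (RDW_split hΔ hirr hp2 O hζ)
  intro _ π α K τ Q Q' S f hf
  exact Fermat.Agent.TW.ss_rigid S P hp2 (smooth_Ad0 hU fun _ _ => rfl) f
    (fun σ hσ => hf σ hσ (S.J_le P hσ))

end

open scoped Classical in
/-- **(W6)**: the flat mode -/
theorem modeIn_flat (hGW : SB.GWad p) (W : WeierstrassCurve ℤ) : ModeIn W p False ∅ := by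
  intro hΔ hirr hp2 O _ _ _ _ _ _ _ _ K _ _ _ _ ζ hζ hpO Ge S T hTS _ _ hSunr hpS hT _ hram hTW
  haveI := charP_res p O
  refine ⟨fun {S'} {bad} H => ∀ hbar : HBar (RDW hΔ hirr hp2 O) S', FlT p O (H.C hbar).t,
    fun H hH hbar => H.flT_cd hpO Ge _ _ hbar fun x => (hH x).2.1 id, ?_⟩
  have hram' : ∀ q ∈ S, q ∉ T → q ≠ ⟨p, hp.out⟩ →
      ∃ τ ∈ (plv (q : ℕ) q.2).inertiaSubgroupIn ℚ, (RDW hΔ hirr hp2 O).rbar τ ≠ 1 := by
    intro q hq hqT hqp
    have h1 := hram q hq hqT (Finset.notMem_empty q) (fun h => hqp (Subtype.ext h))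
    by_contra hcon
    push Not at hcon
    refine h1 fun A hA σ hσ P hP => ?_
    obtain ⟨g, hg⟩ := exists_smul_eq q.2 (plv_over (q : ℕ) q.2) hA
    have h2 : g⁻¹ * σ * g ∈ (plv (q : ℕ) q.2).inertiaSubgroupIn ℚ :=
      Fermat.Agent.H09.inertia_conj (by rw [hg]; exact hσ)
    have h3 := (RDW_rbar_eq_one_iff hΔ hirr hp2 (O := O) _).mp (hcon _ h2)
    have h4 := h3 (g⁻¹ • P) (by
      have h5 := (DistribSMul.toAddMonoidHom (Pts (WQ W)) (g⁻¹ : GQ)).map_nsmul p P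
      rw [hP, map_zero] at h5
      exact h5.symm)
    have e : g⁻¹ * σ * g = g⁻¹ * (σ * g) := by group
    rw [e, mul_smul, mul_smul, smul_inv_smul] at h4
    exact (smul_left_cancel _ h4)
  obtain ⟨r, hr⟩ := SB.exists_SelB_flat (D := RDW hΔ hirr hp2 O) hGW hp2
    (χ := chiB hΔ hirr hp2 O) (S := S) (T := T) (pp := ⟨p, hp.out⟩) rfl hpS
    (fun h => (hT _ h).1 rfl) hTS hTW hram' (RDW_isCyc hΔ hirr hp2) hpO
    (lflat_RDW hΔ hirr hp2 O hζ hSunr (plv_over _ _))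
  refine ⟨r, fun n D₀ hn hD₀ => ?_⟩
  obtain ⟨qv, h1, h2, h3⟩ := hr n D₀.primeFactors
  refine ⟨qv, h1, fun j h => (h2 j).1 (Nat.mem_primeFactors.mpr ⟨(qv j).2, h, hD₀⟩),
    fun j => (h2 j).2.1, fun j => (h2 j).2.2, ?_⟩
  intro κ _ _ bad H hbar hPc hun
  exact h3 _ (by congr) κ bad H hbar (fun i => hPc i hbar) (fun q hq hqT hqp i x τ hτ =>
    hun i x q hq hqT (fun h => hqp (Subtype.ext h)) _ (plv_over _ _) τ hτ)

end Fermat.Agent.H12.LL
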