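import Mathlib
import Fermat.Agent.H12.LL.Top
import Fermat.Agent.H26_FreyBasics
import Fermat.Agent.S05
import Fermat.Agent.S07
import Fermat.Prelude.Def_FreyPackage_IsConductorLevel

/-!
# The Frey curve: contradiction from residual modularity (modulo the inputs)
-/

set_option autoImplicit false
set_option linter.unusedSectionVars false
set_option linter.style.haveILetI false

noncomputable section

namespace Fermat.Agent.H12.LL

open Fermat.Agent.TW Fermat.Agent.CC Fermat.Agent.Ell Fermat.Agent.H26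
open IsLocalRing CongruenceSubgroup
open WeierstrassCurve WeierstrassCurve.Affine WeierstrassCurve.Affine.Point
open ModularFormClass (qCoeff)

theorem WQ_frey (P : FreyPackage) : WQ P.freyCurveInt = P.freyCurve := freyCurveInt_map P

theorem unrAt_frey (P : FreyPackage) {q : ℕ} (hq : q.Prime) (hq2 : q ≠ 2) (hqp : q ≠ P.p) :
    UnrAt P.freyCurveInt P.p q := by
  rw [unrAt_iff, WQ_frey]
  exact Fermat.Agent.S05.result P hq hq2 hqp

theorem modRepIsIrreducible_frey (P : FreyPackage)
    (hirr : GaloisRepIsIrreducible (K := AlgebraicClosure ℚ) ℚ P.freyCurve P.p) :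
    P.freyCurveInt.ModRepIsIrreducible P.p := by
  unfold WeierstrassCurve.ModRepIsIrreducible
  rw [freyCurveInt_map]
  exact hirr

/-- there are no forms of level two -/
theorem not_rm_two (W : WeierstrassCurve ℤ) (p : ℕ) : ¬ W.IsResiduallyModularOfLevel p 2 := by
  rintro ⟨f, -, hf, -⟩
  exact hf.ne_zero (Fermat.Agent.S07.result f)

/-- **CORE**: the representation of the Frey curve is not residually modular of a conductor
level. -/
theorem frey_core (P : FreyPackage) [Fact P.p.Prime] (H : TopIn P.freyCurveInt P.p False)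
    (h2ram : ¬ UnrAt P.freyCurveInt P.p 2) {N : ℕ}
    (n3 : P.p ∣ N → ∀ {M : ℕ}, 2 ∣ M → Squarefree (M * P.p) →
      P.freyCurveInt.IsResiduallyModularOfLevel P.p (M * P.p) →
      P.freyCurveInt.IsResiduallyModularOfLevel P.p M)
    (hsq : Squarefree N) (hRM : P.freyCurveInt.IsResiduallyModularOfLevel P.p N) :
    False := by
  have hN0 : N ≠ 0 := hsq.ne_zero
  have hp := P.pp
  have hp5 := P.hp5
  have hp2 : P.p ≠ 2 := by omega
  -- make the level even
  have hl : Squarefree (Nat.lcm 2 N) := by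
    rw [Nat.squarefree_iff_prime_squarefree]
    intro q hq hqq
    have h1 : Nat.factorization (Nat.lcm 2 N) q = max ((Nat.factorization 2) q)
        ((Nat.factorization N) q) := by
      rw [Nat.factorization_lcm two_ne_zero hN0]; rfl
    have h2 : 2 ≤ Nat.factorization (Nat.lcm 2 N) q := by
      rw [← hq.pow_dvd_iff_le_factorization (Nat.lcm_ne_zero two_ne_zero hN0), pow_two]
      exact hqq
    have h3 : (Nat.factorization 2) q ≤ 1 :=
      Nat.squarefree_iff_factorization_le_one two_ne_zero |>.mp Nat.prime_two.prime.squarefree q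
    have h4 : (Nat.factorization N) q ≤ 1 :=
      Nat.squarefree_iff_factorization_le_one hN0 |>.mp hsq q
    rw [h1] at h2
    omega
  have h2l : 2 ∣ Nat.lcm 2 N := Nat.dvd_lcm_left 2 N
  have hR2 := H.mono (Nat.lcm_ne_zero two_ne_zero hN0) (Nat.dvd_lcm_right 2 N) hRM
  -- remove `p`
  obtain ⟨M, hM, h2M, hpM, hRMM⟩ : ∃ M : ℕ, Squarefree M ∧ 2 ∣ M ∧ ¬ P.p ∣ M ∧
      P.freyCurveInt.IsResiduallyModularOfLevel P.p M := by
    by_cases hpd : P.p ∣ Nat.lcm 2 N
    · have hpN : P.p ∣ N := by
        rcases (Nat.Prime.dvd_mul hp).mp (hpd.trans (Nat.lcm_dvd_mul 2 N)) with h | h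
        · exact absurd ((Nat.prime_dvd_prime_iff_eq hp Nat.prime_two).mp h) hp2
        · exact h
      obtain ⟨c, hc⟩ := hpd
      rw [mul_comm] at hc
      rw [hc] at hl h2l hR2
      have h2c : 2 ∣ c := ((Nat.Prime.dvd_mul Nat.prime_two).mp h2l).resolve_right
        (fun h => hp2 ((Nat.prime_dvd_prime_iff_eq Nat.prime_two hp).mp h).symm)
      refine ⟨c, hl.squarefree_of_dvd (dvd_mul_right _ _), h2c, fun h => ?_, n3 hpN h2c hl hR2⟩
      have h3 : P.p * P.p ∣ c * P.p := mul_dvd_mul_right h _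
      exact hp.not_isUnit (hl _ h3)
    · exact ⟨_, hl, h2l, hpd, hR2⟩
  obtain ⟨M', hM', h2M', hRM', hram, -⟩ := H.exists_minimal h2ram hM h2M
    (fun M' h _ => ⟨fun h' => hpM (h'.trans h), False.elim⟩) hRMM
  have hpM' : ¬ P.p ∣ M' := fun h => hpM (h.trans hM')
  have hM'sq := hM.squarefree_of_dvd hM'
  have h1 : ∀ q : ℕ, q.Prime → q ∣ M' → q = 2 := by
    intro q hq hqM
    by_contra hq2
    have hqp : q ≠ P.p := fun h => hpM' (h ▸ hqM)
    exact hram q hq hqp hqM (unrAt_frey P hq hq2 hqp)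
  have h3 : M' = 2 := by
    obtain ⟨c, hc⟩ := h2M'
    have hc1 : c = 1 := by
      by_contra hc1
      obtain ⟨q, hq, hqc⟩ := Nat.exists_prime_and_dvd hc1
      have h4 := h1 q hq (hqc.trans ⟨2, by rw [hc, mul_comm]⟩)
      rw [h4] at hqc
      have h5 : 2 * 2 ∣ M' := by rw [hc]; exact mul_dvd_mul_left 2 hqc
      exact Nat.prime_two.not_isUnit (hM'sq _ h5)
    rw [hc, hc1]
  rw [h3] at hRM'
  exact not_rm_two _ _ hRM'

end Fermat.Agent.H12.LL
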