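import Mathlib
import Fermat.Agent.H12.LL.NL
import Fermat.Agent.H12.LL.ModeF
import Fermat.Agent.H12.LL.FreyCore
import Fermat.Agent.H18R.TopFill
import Fermat.Agent.H25.GeoPf
import Fermat.Agent.H25.SelH
import Fermat.Agent.CFT.EC.GW
import Fermat.Agent.H11N.Low
import Fermat.Agent.NN.N3
import Fermat.Agent.H16.Ram2
import Fermat.Agent.TFin.Killer

/-!
# The Frey curve is not residually modular of its conductor level
-/

set_option autoImplicit false
set_option linter.unusedSectionVars false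
set_option linter.style.haveILetI false

noncomputable section

namespace Fermat.Agent.H12.LL

open Fermat.Agent.Ell Fermat.Agent.H05
open WeierstrassCurve WeierstrassCurve.Affine WeierstrassCurve.Affine.Point
open CongruenceSubgroup
open ModularFormClass (qCoeff)

variable {W : WeierstrassCurve ℤ} {p : ℕ} [hp : Fact p.Prime]

/-- (K) -/
theorem kill_of_geo (hΔ : W.Δ ≠ 0) (hirr : W.ModRepIsIrreducible p) (G : H25.PT.Geo p) :
    Kill W p := by
  intro k _ ι D hD hDp L hL g hg q hq hqp hqL hqq hgood hne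
  exact TFin.exists_killer_of_K1 hΔ hirr
    (by
      intro L _ g hg 𝔪 h𝔪 hp𝔪 bad hcong q hq hqp hqL hqq A hA φ hφ
      exact H19.newform_trace_sq_of_geo hΔ G hirr hg h𝔪 hp𝔪 bad hcong hq hqp hqL hqq hA hφ)
    hD hg hq hqp hqL hqq hgood hne ι

/-- **Black box 1** for semistable curves in the flat mode, all level primes ramified. -/
theorem ll_flat (hΔ : W.Δ ≠ 0) (hss : W.IsSemistableModel) (hirr : W.ModRepIsIrreducible p)
    (hp2 : p ≠ 2) (T : Finset Nat.Primes) (M₀ : ℕ) (h2 : 2 ∣ M₀) (hsq : Squarefree M₀)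
    (hcop : Nat.Coprime (Q0 T) M₀) (hb : ¬ p ∣ M₀)
    (hram : ∀ q : ℕ, q.Prime → q ≠ p → q ∣ M₀ → ¬ UnrAt W p q)
    (hTp : ∀ t ∈ T, (t : ℕ) ≠ p) (hT1 : ∀ t ∈ T, (t : ℕ) ≡ 1 [MOD p])
    (hunr : ∀ t ∈ T, UnrAt W p t)
    (htr : ∀ t ∈ T, ∀ A : ValuationSubring (AlgebraicClosure ℚ), A.LiesOverPrime (t : ℕ) →
      ∀ φ : AlgebraicClosure ℚ ≃ₐ[ℚ] AlgebraicClosure ℚ, A.IsFrobeniusAt φ t →
      (PadicInt.toZMod (LinearMap.trace ℤ_[p] (TT (WQ W) p) (rr (WQ W) p φ))) ^ 2 = 4)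
    (hRM : W.IsResiduallyModularOfLevel p (Q0 T * M₀)) : W.IsResiduallyModularOfLevel p M₀ :=
  have Ge := H25.PT.geo_all hp.out
  ll_main hΔ hirr hp2 Ge (kill_of_geo hΔ hirr Ge) (nLIn_of_semistable hss)
    (modeIn_flat (H25.SB.gwad hp2 (CFT.EC.gw hp2)) W) T M₀ h2 hsq hcop hb hram hTp hT1 hunr htr
    (fun _ hq hqp hqN => H11N.unrAt_of_residual hΔ hirr hp2
      (mul_ne_zero (Q0_pos T).ne' hsq.ne_zero) hRM hq hqN hqp) hRM

/-- the geometric input at `p` -/
theorem n3All (hp2 : p ≠ 2) : H11N.N3All p := by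
  intro M _ h2M A hA hpM ζ hζ x y hx hy0 hy ha0 ha1 hxI hv heis l _ hlN
  exact NN.n3_core hpM h2M hp2 hA hζ hx hy0 hy ha0 ha1 hxI hv heis hlN

/-- **The Frey curve is not residually modular of its conductor level.** -/
theorem frey_false (P : FreyPackage) {N : ℕ} (hcond : P.IsConductorLevel N)
    (hirr : GaloisRepIsIrreducible (K := AlgebraicClosure ℚ) ℚ P.freyCurve P.p)
    (hmod : P.ModularRepOfLevel N) : False := by
  haveI : Fact P.p.Prime := ⟨P.pp⟩
  have hΔ := H26.freyCurveInt_Δ_ne_zero P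
  have hirr' := modRepIsIrreducible_frey P hirr
  have hp5 : 5 ≤ P.p := P.hp5
  have hp2 : P.p ≠ 2 := by omega
  have hN0 : N ≠ 0 := hcond.pos.ne'
  have hRM := (H18R.frey_iff P hirr' hN0).1 hmod
  have hss := H26.freyCurveInt_isSemistableModel P
  have hsq : Squarefree N := by
    rw [Nat.squarefree_iff_prime_squarefree]
    intro q hq hqq
    exact hcond.sq_not_dvd hq (by rw [sq]; exact hqq)
  refine frey_core P (H18R.topIn_of_geo hΔ hirr' hp2 (H25.PT.geo_all P.pp)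
    (fun T M₀ h2 hsq hcop hb hram hTp hT1 hunr htr h => ll_flat hΔ hss hirr' hp2 T M₀ h2 hsq hcop
      (fun h => hb.1 h) hram hTp hT1 hunr htr h)) (H16.Ram.not_unrAt_frey P)
    (fun hpN M h2M hsqM h => ?_) hsq hRM
  obtain ⟨h1, h2, h3⟩ := N4.frey_dvd_padicValInt P (hcond.p_dvd_abc hpN)
  have hM : M ≠ 0 := fun h => hsqM.ne_zero (by rw [h, zero_mul])
  have hpM : ¬ P.p ∣ M := fun h => P.pp.not_isUnit (hsqM _ (mul_dvd_mul_right h _))
  refine H11N.lower_p (n3All hp2) hΔ hirr' hp5 h1 h2 h3 hM h2M hpM h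

end Fermat.Agent.H12.LL
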